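import Fermat.Agent.SwitchLocal.FiveNormal

/-!
# The icosahedral family near the cusp at `3`
-/

set_option autoImplicit false

namespace Fermat.Agent.SwitchLocal

open IsLocalRing
open Fermat.Agent.Switch

local notation "Qb" => AlgebraicClosure ℚ

variable {A : ValuationSubring Qb}

/-- The member with `c a + 11 b d = 9 · unit`, `b` prime to `3`: `v₃(Δ)` goes up by `5`. -/
theorem forms_three (hA : A.LiesOverPrime 3) (r s : A) {c d Δ' : ℤ} {w : ℕ}
    (hC4 : fC4 r s = (c : A)) (hC6 : fC6 r s = (d : A))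
    (hΔ : fD r s ^ 5 = ((3 ^ (3 * (w + 1)) * Δ' : ℤ) : A))
    (hc : ¬ (3 : ℤ) ∣ c) (hΔ' : ¬ (3 : ℤ) ∣ Δ') (hs : residue A s = 0)
    {a b m₀ : ℤ} (hb : ¬ (3 : ℤ) ∣ b) (hm₀ : ¬ (3 : ℤ) ∣ m₀)
    (hlin : c * a - b * (-11 * d) = 9 * m₀) :
    ∃ R S : A, 3 * R = (a : A) * r + (b : A) * (-fDs r s) ∧
      3 * S = (a : A) * s + (b : A) * fDr r s ∧ IsUnit (fC4 R S) ∧ IsUnit (fC6 R S) ∧
      ∃ U : A, IsUnit U ∧ fD R S ^ 5 = 3 ^ (3 * w + 8) * U := by
  have three : (3 : ResidueField A) = 0 := by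
    exact_mod_cast (intCast_residue_eq_zero_iff hA Nat.prime_three 3).mpr (by norm_num)
  have hne : ∀ m : ℤ, ¬ (3 : ℤ) ∣ m → (m : ResidueField A) ≠ 0 := fun m hm h =>
    hm ((intCast_residue_eq_zero_iff hA Nat.prime_three m).mp h)
  have hr : IsUnit r := by
    rw [← residue_ne_zero_iff_isUnit]
    intro h0
    have h := congrArg (residue A) hC4
    rw [map_fC4, h0, hs, map_intCast] at h
    exact hne c hc (by simpa [fC4] using h.symm)
  obtain ⟨ri, hri⟩ := hr.exists_left_inv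
  obtain ⟨σ, rfl⟩ : ∃ σ : A, s = σ * r := ⟨s * ri, by rw [mul_assoc, hri, mul_one]⟩
  have hσ : residue A σ = 0 := by
    rw [map_mul] at hs
    exact (mul_eq_zero.mp hs).resolve_right ((residue_ne_zero_iff_isUnit r).mpr hr)
  set V : A := 1 + 11 * σ ^ 5 - (σ ^ 5) ^ 2 with hV
  have hVu : IsUnit V := by
    rw [← residue_ne_zero_iff_isUnit, hV]
    simp [hσ]
  obtain ⟨Vi, hVi⟩ := hVu.exists_left_inv
  set S₁ : A := -((Δ' : A) * ri ^ 60 * Vi ^ 5) with hS₁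
  have hS₁u : IsUnit S₁ :=
    (((isUnit_intCast_of_not_dvd hA Nat.prime_three hΔ').mul
      ((IsUnit.of_mul_eq_one _ hri).pow _)).mul ((IsUnit.of_mul_eq_one _ hVi).pow _)).neg
  have hσ5 : σ ^ 5 = 3 ^ (3 * (w + 1)) * S₁ := by
    rw [fD_line, ← hV] at hΔ
    push_cast at hΔ
    calc σ ^ 5 = -((-(r ^ 12 * σ * V)) ^ 5) * ri ^ 60 * Vi ^ 5 := by
          rw [show -((-(r ^ 12 * σ * V)) ^ 5) * ri ^ 60 * Vi ^ 5
            = σ ^ 5 * ((ri * r) ^ 60 * (Vi * V) ^ 5) by ring, hri, hVi]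
          ring
      _ = _ := by rw [hΔ, hS₁]; ring
  set T := σ ^ 5 with hT
  set T₀ : A := 3 ^ (3 * w) * S₁ with hT₀
  have hTT : T = 27 * T₀ := by rw [hσ5, hT₀]; ring
  have h4' : (c : A) = r ^ 20 * (1 - 228 * T + 494 * T ^ 2 + 228 * T ^ 3 + T ^ 4) :=
    hC4.symm.trans (fC4_line r σ)
  have h6' : (d : A) = r ^ 30 * (-1 - 522 * T + 10005 * T ^ 2 + 10005 * T ^ 4 + 522 * T ^ 5
      - T ^ 6) :=
    hC6.symm.trans (fC6_line r σ)
  set B : A := 11 * r ^ 30 * (-750 + 10499 * T + 228 * T ^ 2 + 10006 * T ^ 3 + 522 * T ^ 4 - T ^ 5)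
      + (c : A) * r ^ 10 * (66 - T) with hB
  obtain ⟨ci, hci⟩ := (isUnit_intCast_of_not_dvd hA Nat.prime_three hc).exists_left_inv
  set ε : A := ci * ((m₀ : A) - 3 * (T₀ * ((b : A) * B))) with hε
  set G : A := r ^ 10 * (1 + 11 * T - T ^ 2) with hG
  set P : A := 3 * ε + 4 * ((b : A) * G) with hP
  have hlin' : (c : A) * a + 11 * ((b : A) * d) = 9 * (m₀ : A) := by
    have := congrArg (Int.cast : ℤ → A) hlin
    push_cast at this
    linear_combination this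
  have key : (a : A) - (b : A) * (r ^ 10 * (11 + 66 * T - T ^ 2)) = 9 * ε := by
    have e : (c : A) * r ^ 10 + d
        = T * r ^ 30 * (-750 + 10499 * T + 228 * T ^ 2 + 10006 * T ^ 3 + 522 * T ^ 4 - T ^ 5) := by
      rw [h4', h6']; ring
    have e' : (c : A) * ((a : A) - (b : A) * (r ^ 10 * (11 + 66 * T - T ^ 2)))
        = 9 * (m₀ : A) - (b : A) * T * B := by
      rw [hB]
      linear_combination hlin' - 11 * (b : A) * e
    rw [hε]
    linear_combination (-((a : A) - (b : A) * (r ^ 10 * (11 + 66 * T - T ^ 2)))) * hci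
      + ci * e' - ci * (b : A) * B * hTT
  have hk : (a : A) + (b : A) * (r ^ 10 * (1 + 66 * T - 11 * T ^ 2)) = 3 * P := by
    rw [hP, hG]; linear_combination key
  refine ⟨r * P, 3 * σ * r * ε, ?_, ?_, ?_⟩
  · rw [fDs_line, ← hT]
    linear_combination (-r) * hk
  · rw [fDr_line, ← hT]
    linear_combination (-(σ * r)) * key
  have hεu : IsUnit ε := by
    rw [hε]
    refine (IsUnit.of_mul_eq_one _ hci).mul ?_
    rw [← residue_ne_zero_iff_isUnit, map_sub, map_mul, map_ofNat, three, zero_mul, sub_zero,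
      map_intCast]
    exact hne m₀ hm₀
  have hPu : IsUnit P := by
    rw [← residue_ne_zero_iff_isUnit, hP, hG]
    simp only [map_add, map_mul, map_pow, map_sub, map_ofNat, map_one, map_intCast, three,
      zero_mul, zero_add]
    rw [hT, map_pow, hσ, show (4 : ResidueField A) = 3 + 1 by norm_num, three]
    simp [hne b hb, (residue_ne_zero_iff_isUnit r).mpr hr]
  obtain ⟨Pi', hPi⟩ := hPu.exists_left_inv
  set τ : A := 3 * σ * ε * Pi' with hτ
  have hτR : 3 * σ * r * ε = τ * (r * P) := by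
    rw [hτ]; linear_combination (-(3 * σ * r * ε)) * hPi
  have hτ0 : residue A τ = 0 := by simp [hτ, hσ]
  have hRu : IsUnit (r * P) := hr.mul hPu
  rw [hτR]
  refine ⟨?_, ?_, -((r * P) ^ 60 * S₁ * (ε * Pi') ^ 5 * (1 + 11 * τ ^ 5 - (τ ^ 5) ^ 2) ^ 5),
    ((((hRu.pow _).mul hS₁u).mul ((hεu.mul (IsUnit.of_mul_eq_one _ hPi)).pow _)).mul
      (IsUnit.pow _ ?_)).neg, ?_⟩
  · rw [fC4_line, ← residue_ne_zero_iff_isUnit]
    simpa [hτ0] using (residue_ne_zero_iff_isUnit (r * P)).mpr hRu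
  · rw [fC6_line, ← residue_ne_zero_iff_isUnit]
    simpa [hτ0] using (residue_ne_zero_iff_isUnit (r * P)).mpr hRu
  · rw [← residue_ne_zero_iff_isUnit]
    simp [hτ0]
  · rw [fD_line]
    rw [show 3 * w + 8 = 5 + 3 * (w + 1) by ring, pow_add]
    have e : τ ^ 5 = 3 ^ 5 * 3 ^ (3 * (w + 1)) * S₁ * (ε * Pi') ^ 5 := by
      rw [mul_assoc ((3 : A) ^ 5), ← hσ5, hτ]; ring
    generalize 1 + 11 * τ ^ 5 - (τ ^ 5) ^ 2 = V'
    generalize ε * Pi' = X at e ⊢
    generalize r * P = R'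
    clear_value τ S₁
    calc (-(R' ^ 12 * τ * V')) ^ 5 = -(R' ^ 60 * τ ^ 5 * V' ^ 5) := by ring
      _ = _ := by rw [e]; ring

end Fermat.Agent.SwitchLocal
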