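import Fermat.Agent.SwitchLocal.FiveNormal

/-!
# The icosahedral family at `2`: from multiplicative reduction to supersingular reduction
-/

set_option autoImplicit false

namespace Fermat.Agent.SwitchLocal

open IsLocalRing
open Fermat.Agent.Switch

local notation "Qb" => AlgebraicClosure ℚ

section Identities

variable {R : Type*} [CommRing R]

theorem poly4_one_add (g : R) :
    1 - 228 * (1 + 2 * g) + 494 * (1 + 2 * g) ^ 2 + 228 * (1 + 2 * g) ^ 3 + (1 + 2 * g) ^ 4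
      = 16 * (31 + 181 * g + 296 * g ^ 2 + 116 * g ^ 3 + g ^ 4) := by ring

theorem poly6_one_add (g : R) :
    -1 - 522 * (1 + 2 * g) + 10005 * (1 + 2 * g) ^ 2 + 10005 * (1 + 2 * g) ^ 4
        + 522 * (1 + 2 * g) ^ 5 - (1 + 2 * g) ^ 6
      = 8 + 32 * (625 + 3882 * g + 9405 * g ^ 2 + 11305 * g ^ 3 + 6300 * g ^ 4 + 516 * g ^ 5
          - 2 * g ^ 6) := by ring

end Identities

variable {A : ValuationSubring Qb}

theorem residue_two (hA : A.LiesOverPrime 2) : (2 : ResidueField A) = 0 := by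
  have h := (intCast_residue_eq_zero_iff hA Nat.prime_two 2).mpr (by norm_num)
  exact_mod_cast h

theorem intCast_odd_residue (hA : A.LiesOverPrime 2) {m : ℤ} (hm : ¬ (2 : ℤ) ∣ m) :
    (m : ResidueField A) = 1 := by
  obtain ⟨j, rfl⟩ : ∃ j, m = 2 * j + 1 := ⟨m / 2, by omega⟩
  push_cast
  rw [residue_two hA]; ring

theorem eq_add_four_mul {x : A} {n : ℤ}
    (h : Ideal.Quotient.mk (Ideal.span {(4 : A)}) x
      = Ideal.Quotient.mk (Ideal.span {(4 : A)}) (n : A)) : ∃ z : A, x = (n : A) + 4 * z := by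
  obtain ⟨z, hz⟩ := Ideal.mem_span_singleton.mp (Ideal.Quotient.eq.mp h)
  exact ⟨z, by linear_combination hz⟩

theorem pow_thirty_of_odd {Q : Type*} [CommRing Q] (four : (4 : Q) = 0) {m : ℤ}
    (hm : ¬ (2 : ℤ) ∣ m) : (m : Q) ^ 30 = 1 := by
  obtain ⟨i, rfl⟩ : ∃ i, m = 2 * i + 1 := ⟨m / 2, by omega⟩
  rw [show 30 = 2 * 15 by norm_num, pow_mul]
  have : ((2 * i + 1 : ℤ) : Q) ^ 2 = 1 := by
    push_cast
    linear_combination ((i : Q) ^ 2 + i) * four
  rw [this, one_pow]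

/-- The forms at a unit vector whose slope has fifth power `1` modulo `2`. -/
theorem forms_of_slope (hA : A.LiesOverPrime 2) (R τ g : A) (g₀ : ℤ)
    (hgr : residue A g = (g₀ : ResidueField A)) (hτg : τ ^ 5 = 1 + 2 * g) (hR : IsUnit R)
    (hR30 : ∃ j : A, R ^ 30 = 1 + 4 * j) :
    (∃ U : A, IsUnit U ∧ fC4 R (τ * R) = 16 * U) ∧ (∃ J : A, fC6 R (τ * R) = 8 + 32 * J) ∧
      IsUnit (fD R (τ * R)) := by
  have two := residue_two hA
  refine ⟨?_, ?_, ?_⟩
  · refine ⟨R ^ 20 * (31 + 181 * g + 296 * g ^ 2 + 116 * g ^ 3 + g ^ 4), (hR.pow _).mul ?_, ?_⟩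
    · rw [← residue_ne_zero_iff_isUnit]
      simp only [map_add, map_mul, map_pow, map_ofNat, hgr]
      rcases Int.emod_two_eq_zero_or_one g₀ with h0 | h0
      · have : (g₀ : ResidueField A) = 0 :=
          (intCast_residue_eq_zero_iff hA Nat.prime_two g₀).mpr (by omega)
        rw [this, show (31 : ResidueField A) = 15 * 2 + 1 by norm_num, two]
        simp
      · rw [intCast_odd_residue hA (m := g₀) (by omega),
          show (31 : ResidueField A) + 181 * 1 + 296 * 1 ^ 2 + 116 * 1 ^ 3 + 1 ^ 4 = 312 * 2 + 1 by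
            norm_num, two]
        simp
    · rw [fC4_line, hτg, poly4_one_add]; ring
  · obtain ⟨j, hj⟩ := hR30
    refine ⟨j + R ^ 30 * (625 + 3882 * g + 9405 * g ^ 2 + 11305 * g ^ 3 + 6300 * g ^ 4
      + 516 * g ^ 5 - 2 * g ^ 6), ?_⟩
    rw [fC6_line, hτg, poly6_one_add]
    linear_combination 8 * hj
  · rw [fD_line, hτg, IsUnit.neg_iff]
    have hτ5 : residue A τ ^ 5 = 1 := by
      rw [← map_pow, hτg, map_add, map_mul, map_one, map_ofNat, two, zero_mul, add_zero]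
    refine IsUnit.mul (IsUnit.mul (hR.pow _) ?_) ?_
    · rw [← residue_ne_zero_iff_isUnit]
      intro h0; simp [h0] at hτ5
    · rw [← residue_ne_zero_iff_isUnit]
      simp only [map_add, map_sub, map_mul, map_pow, map_one, map_ofNat, two, zero_mul, add_zero]
      rw [show (1 : ResidueField A) + 11 * 1 - 1 ^ 2 = 5 * 2 + 1 by norm_num, two]
      simp

/-- The member with `c a - d b = 2^(k+2) · odd`, `b` odd, is supersingular at `2`. -/
theorem forms_two (hA : A.LiesOverPrime 2) (r s : A) {c d Δ' : ℤ} {k : ℕ}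
    (hC4 : fC4 r s = (c : A)) (hC6 : fC6 r s = (d : A))
    (hΔ : fD r s ^ 5 = ((2 ^ (5 * (k + 1)) * Δ' : ℤ) : A))
    (hc : ¬ (2 : ℤ) ∣ c) (hd : (4 : ℤ) ∣ d - 3) (hΔ' : ¬ (2 : ℤ) ∣ Δ') (hs : residue A s = 0)
    {a b m₀ : ℤ} (hb : ¬ (2 : ℤ) ∣ b) (hm₀ : ¬ (2 : ℤ) ∣ m₀)
    (hlin : c * a - b * d = 2 ^ (k + 3) * m₀) :
    ∃ R S : A, 2 ^ (k + 3) * R = (a : A) * r + (b : A) * (-fDs r s) ∧
      2 ^ (k + 3) * S = (a : A) * s + (b : A) * fDr r s ∧
      (∃ U : A, IsUnit U ∧ fC4 R S = 16 * U) ∧ (∃ J : A, fC6 R S = 8 + 32 * J) ∧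
      IsUnit (fD R S) := by
  have two := residue_two hA
  have hr : IsUnit r := by
    rw [← residue_ne_zero_iff_isUnit]
    intro h0
    have h := congrArg (residue A) hC4
    rw [map_fC4, h0, hs, map_intCast, intCast_odd_residue hA hc] at h
    simp [fC4] at h
  obtain ⟨ri, hri⟩ := hr.exists_left_inv
  obtain ⟨σ, rfl⟩ : ∃ σ : A, s = σ * r := ⟨s * ri, by rw [mul_assoc, hri, mul_one]⟩
  have hσ : residue A σ = 0 := by
    rw [map_mul] at hs
    exact (mul_eq_zero.mp hs).resolve_right ((residue_ne_zero_iff_isUnit r).mpr hr)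
  set V : A := 1 + 11 * σ ^ 5 - (σ ^ 5) ^ 2 with hV
  have hVu : IsUnit V := by
    rw [← residue_ne_zero_iff_isUnit, hV]
    simp [hσ]
  obtain ⟨Vi, hVi⟩ := hVu.exists_left_inv
  set S₁ : A := -((Δ' : A) * ri ^ 60 * Vi ^ 5) with hS₁
  have hσ5 : σ ^ 5 = 2 ^ (5 * (k + 1)) * S₁ := by
    rw [fD_line, ← hV] at hΔ
    push_cast at hΔ
    calc σ ^ 5 = -((-(r ^ 12 * σ * V)) ^ 5) * ri ^ 60 * Vi ^ 5 := by
          rw [show -((-(r ^ 12 * σ * V)) ^ 5) * ri ^ 60 * Vi ^ 5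
            = σ ^ 5 * ((ri * r) ^ 60 * (Vi * V) ^ 5) by ring, hri, hVi]
          ring
      _ = _ := by rw [hΔ, hS₁]; ring
  have h2Q : (2 : Qb) ^ (k + 1) ≠ 0 := pow_ne_zero _ two_ne_zero
  set wQ : Qb := (σ : Qb) / 2 ^ (k + 1) with hwQ
  have hwQ5 : wQ ^ 5 = (S₁ : Qb) := by
    have h := congrArg A.subtype hσ5
    simp only [map_mul, map_pow, map_ofNat] at h
    change (σ : Qb) ^ 5 = _ * (S₁ : Qb) at h
    rw [hwQ, div_pow, h, ← pow_mul, mul_comm 5 (k + 1)]
    field_simp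
  have hwmem : wQ ∈ A := by
    rcases A.mem_or_inv_mem wQ with h | h
    · exact h
    · by_cases h0 : wQ = 0
      · rw [h0]; exact zero_mem A
      · rw [show wQ = wQ ^ 5 * wQ⁻¹ ^ 4 by field_simp, hwQ5]
        exact mul_mem S₁.2 (pow_mem h 4)
  set w : A := ⟨wQ, hwmem⟩ with hw
  have hσw : σ = 2 ^ (k + 1) * w := by
    apply subtype_ext
    rw [map_mul, map_pow, map_ofNat]
    show (σ : Qb) = 2 ^ (k + 1) * wQ
    rw [hwQ]; field_simp
  have hw5 : w ^ 5 = S₁ := by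
    apply Subtype.ext
    rw [coe_eq_subtype]
    rw [map_pow]
    exact hwQ5
  set T := σ ^ 5 with hT
  set T' : A := 2 ^ (5 * k + 4) * S₁ with hT'
  have hTT : T = 2 * T' := by rw [hσ5, hT']; ring
  have h4' : (c : A) = r ^ 20 * (1 - 228 * T + 494 * T ^ 2 + 228 * T ^ 3 + T ^ 4) :=
    hC4.symm.trans (fC4_line r σ)
  have h6' : (d : A) = r ^ 30 * (-1 - 522 * T + 10005 * T ^ 2 + 10005 * T ^ 4 + 522 * T ^ 5
      - T ^ 6) :=
    hC6.symm.trans (fC6_line r σ)
  set E₂ : A := r ^ 30 * S₁ * (-375 + T' * (10499 + 228 * T + 10006 * T ^ 2 + 522 * T ^ 3 - T ^ 4))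
      + (c : A) * r ^ 10 * S₁ * (33 - 11 * T') with hE₂
  obtain ⟨ci, hci⟩ := (isUnit_intCast_of_not_dvd hA Nat.prime_two hc).exists_left_inv
  set P : A := ci * ((m₀ : A) + 2 ^ (4 * k + 3) * ((b : A) * E₂)) with hP
  set G : A := r ^ 10 * (1 + 11 * T - T ^ 2) with hG
  set Q : A := w * (2 ^ (k + 1) * P - 3 * ((b : A) * G)) with hQ
  have hlin' : (c : A) * a - (b : A) * d = 2 ^ (k + 3) * (m₀ : A) := by
    exact_mod_cast congrArg (Int.cast : ℤ → A) hlin
  have key : (a : A) + (b : A) * (r ^ 10 * (1 + 66 * T - 11 * T ^ 2)) = 2 ^ (k + 3) * P := by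
    calc (a : A) + (b : A) * (r ^ 10 * (1 + 66 * T - 11 * T ^ 2))
        = ci * ((c : A) * a - (b : A) * d
            + (b : A) * ((c : A) * r ^ 10 + d + (c : A) * r ^ 10 * (T * (66 - 11 * T)))) := by
          linear_combination (-((a : A) + (b : A) * (r ^ 10 * (1 + 66 * T - 11 * T ^ 2)))) * hci
      _ = ci * (2 ^ (k + 3) * (m₀ : A) + (b : A) * (2 ^ (5 * k + 6) * E₂)) := by
          rw [hlin']
          congr 3
          rw [hE₂, h4', h6', show (2 : A) ^ (5 * k + 6) = 2 ^ (5 * (k + 1)) * 2 by ring]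
          have e : T = 2 ^ (5 * (k + 1)) * S₁ := hσ5
          linear_combination (r ^ 30 * (-750 + 10499 * T + 228 * T ^ 2 + 10006 * T ^ 3
              + 522 * T ^ 4 - T ^ 5)
            + r ^ 30 * (1 - 228 * T + 494 * T ^ 2 + 228 * T ^ 3 + T ^ 4) * (66 - 11 * T)) * e
            + (r ^ 30 * 2 ^ (5 * (k + 1)) * S₁ * (10499 + 228 * T + 10006 * T ^ 2 + 522 * T ^ 3
              - T ^ 4)
            - r ^ 30 * (1 - 228 * T + 494 * T ^ 2 + 228 * T ^ 3 + T ^ 4)
              * 2 ^ (5 * (k + 1)) * S₁ * 11) * hTT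
      _ = _ := by rw [hP, show 5 * k + 6 = (k + 3) + (4 * k + 3) by ring, pow_add]; ring
  refine ⟨r * P, r * Q, ?_, ?_, ?_⟩
  · rw [fDs_line, ← hT]
    linear_combination (-r) * key
  · rw [fDr_line, ← hT, hQ, hG]
    linear_combination (-(σ * r)) * key
      - (2 ^ (k + 3) * P - 12 * ((b : A) * (r ^ 10 * (1 + 11 * T - T ^ 2)))) * r * hσw
  have hPres : residue A P = 1 := by
    have hci' : residue A ci = 1 := by
      have := congrArg (residue A) hci
      rwa [map_mul, map_intCast, intCast_odd_residue hA hc, mul_one, map_one] at this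
    rw [hP]
    simp only [map_mul, map_add, map_pow, map_intCast, map_ofNat, hci',
      intCast_odd_residue hA hm₀, two]
    simp
  have hPu : IsUnit P := by rw [← residue_ne_zero_iff_isUnit, hPres]; exact one_ne_zero
  obtain ⟨Pi', hPi⟩ := hPu.exists_left_inv
  set τ : A := Q * Pi' with hτ
  have hQτ : r * Q = τ * (r * P) := by rw [hτ]; linear_combination (-(r * Q)) * hPi
  -- `τ ^ 5` is an odd integer modulo `4`
  let π := Ideal.Quotient.mk (Ideal.span {(4 : A)})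
  have four : (4 : A ⧸ Ideal.span {(4 : A)}) = 0 := by
    rw [← map_ofNat π 4]
    exact Ideal.Quotient.eq_zero_iff_mem.mpr (Ideal.mem_span_singleton_self _)
  have hπT : π T = 0 := by
    rw [hTT, hT', show (2 : A) * (2 ^ (5 * k + 4) * S₁) = 4 * (2 ^ (5 * k + 3) * S₁) by ring,
      map_mul, map_ofNat, four, zero_mul]
  have e20 : π r ^ 20 = (c : A ⧸ Ideal.span {(4 : A)}) := by
    have := congrArg π h4'
    simp only [map_intCast, map_mul, map_add, map_sub, map_pow, map_one, map_ofNat, hπT] at this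
    simpa using this.symm
  have e30 : π r ^ 30 = -(d : A ⧸ Ideal.span {(4 : A)}) := by
    have := congrArg π h6'
    simp only [map_intCast, map_mul, map_add, map_sub, map_pow, map_one, map_neg, map_ofNat,
      hπT] at this
    rw [this]; ring
  have eS : (c : A ⧸ Ideal.span {(4 : A)}) ^ 3 * π S₁ = -(Δ' : A ⧸ Ideal.span {(4 : A)}) := by
    have hV' : π Vi = 1 := by
      have := congrArg π hVi
      rw [hV] at this
      simp only [map_mul, map_add, map_sub, map_pow, map_one, map_ofNat, hπT] at this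
      simpa using this
    have hri' : π r * π ri = 1 := by rw [← map_mul, mul_comm, hri, map_one]
    rw [hS₁, ← e20]
    simp only [map_neg, map_mul, map_pow, map_intCast, hV']
    rw [show (π r ^ 20) ^ 3 * -((Δ' : A ⧸ Ideal.span {(4 : A)}) * π ri ^ 60 * 1 ^ 5)
      = -(Δ' : A ⧸ Ideal.span {(4 : A)}) * (π r * π ri) ^ 60 by ring, hri', one_pow, mul_one]
  have eP : (c : A ⧸ Ideal.span {(4 : A)}) * π P = (m₀ : A ⧸ Ideal.span {(4 : A)}) := by
    have : (c : A) * P = (m₀ : A) + 4 * (2 ^ (4 * k + 1) * ((b : A) * E₂)) := by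
      rw [hP]
      linear_combination ((m₀ : A) + 2 ^ (4 * k + 3) * ((b : A) * E₂)) * hci
    have := congrArg π this
    simpa only [map_mul, map_add, map_intCast, map_ofNat, four, zero_mul, add_zero] using this
  have eG : (c : A ⧸ Ideal.span {(4 : A)}) * π G = -(d : A ⧸ Ideal.span {(4 : A)}) := by
    rw [hG, ← e30, ← e20]
    simp only [map_mul, map_add, map_sub, map_pow, map_one, map_ofNat, hπT]
    ring
  set n : ℤ := c ^ 3 * m₀ ^ 5 * (-Δ' * (2 ^ (k + 1) * m₀ + 3 * b * d) ^ 5) with hn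
  have hLodd : (c ^ 3 * m₀ ^ 5) % 2 = 1 := by
    have : Odd (c ^ 3 * m₀ ^ 5) := ((Int.odd_iff.mpr (by omega)).pow).mul
      ((Int.odd_iff.mpr (by omega)).pow)
    exact Int.odd_iff.mp this
  have hn2 : n % 2 = 1 := by
    have hd2 : Odd d := Int.odd_iff.mpr (by omega)
    have hb2 : Odd b := Int.odd_iff.mpr (by omega)
    have : Odd (2 ^ (k + 1) * m₀ + 3 * b * d) :=
      (((even_two.pow_of_ne_zero (Nat.succ_ne_zero k)).mul_right m₀).add_odd
        (((by decide : Odd (3 : ℤ)).mul hb2).mul hd2))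
    exact Int.odd_iff.mp ((Int.odd_iff.mpr hLodd).mul
      (((Int.odd_iff.mpr (by omega)).neg).mul this.pow))
  have hL4 : ((c ^ 3 * m₀ ^ 5) ^ 2 - 1 : ℤ) % 4 = 0 := by
    obtain ⟨i, hi⟩ : ∃ i, c ^ 3 * m₀ ^ 5 = 2 * i + 1 := ⟨c ^ 3 * m₀ ^ 5 / 2, by omega⟩
    rw [hi]; ring_nf; omega
  have eL : ((c ^ 3 * m₀ ^ 5 : ℤ) : A ⧸ Ideal.span {(4 : A)}) ^ 2 = 1 := by
    obtain ⟨i, hi⟩ : (4 : ℤ) ∣ (c ^ 3 * m₀ ^ 5) ^ 2 - 1 := Int.dvd_of_emod_eq_zero hL4
    have := congrArg (Int.cast : ℤ → A ⧸ Ideal.span {(4 : A)}) hi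
    push_cast at this ⊢
    rw [four, zero_mul] at this
    linear_combination this
  have eτ : π (τ ^ 5) = π (n : A) := by
    have hmul : ((c ^ 3 * m₀ ^ 5 : ℤ) : A ⧸ Ideal.span {(4 : A)}) * π (τ ^ 5)
        = ((-Δ' * (2 ^ (k + 1) * m₀ + 3 * b * d) ^ 5 : ℤ) : A ⧸ Ideal.span {(4 : A)}) := by
      have e1 : π τ * π P = π Q := by
        rw [← map_mul, hτ, mul_assoc, hPi, mul_one]
      have e2 : (c : A ⧸ Ideal.span {(4 : A)}) * π Q = π w * ((2 : A ⧸ Ideal.span {(4 : A)}) ^ (k + 1)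
          * (m₀ : A ⧸ Ideal.span {(4 : A)})
          + 3 * (b : A ⧸ Ideal.span {(4 : A)}) * (d : A ⧸ Ideal.span {(4 : A)})) := by
        rw [hQ, ← eP]
        simp only [map_mul, map_sub, map_pow, map_ofNat, map_intCast]
        linear_combination (-3 * (b : A ⧸ Ideal.span {(4 : A)}) * π w) * eG
      push_cast
      rw [map_pow, ← eP,
        show (c : A ⧸ Ideal.span {(4 : A)}) ^ 3 * ((c : A ⧸ Ideal.span {(4 : A)}) * π P) ^ 5
          * π τ ^ 5 = (c : A ⧸ Ideal.span {(4 : A)}) ^ 3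
            * ((c : A ⧸ Ideal.span {(4 : A)}) * (π τ * π P)) ^ 5 by ring,
        e1, e2, mul_pow, ← map_pow π w, hw5, ← mul_assoc, eS, eP]
    rw [map_intCast, hn, Int.cast_mul _ (-Δ' * _), ← hmul, ← mul_assoc, ← sq, eL, one_mul]
  obtain ⟨h, hh⟩ := eq_add_four_mul eτ
  set g₀ : ℤ := (n - 1) / 2 with hg₀
  set g : A := (g₀ : A) + 2 * h with hg
  have hτg : τ ^ 5 = 1 + 2 * g := by
    rw [hh, hg, show n = 2 * g₀ + 1 by omega]
    push_cast; ring
  rw [hQτ]
  refine forms_of_slope hA (r * P) τ g g₀ ?_ hτg (hr.mul hPu) ?_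
  · rw [hg, map_add, map_mul, map_intCast, map_ofNat, two, zero_mul, add_zero]
  · have hd3 : -(d : A ⧸ Ideal.span {(4 : A)}) = 1 := by
      obtain ⟨i, hi⟩ := hd
      have := congrArg (Int.cast : ℤ → A ⧸ Ideal.span {(4 : A)}) hi
      push_cast at this
      rw [four, zero_mul] at this
      linear_combination -this + (-1 : A ⧸ Ideal.span {(4 : A)}) * four
    have h30 := congrArg (fun x => x ^ 30) eP
    simp only [mul_pow, pow_thirty_of_odd four hc, pow_thirty_of_odd four hm₀, one_mul] at h30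
    obtain ⟨j, hj⟩ := eq_add_four_mul (n := 1) (x := (r * P) ^ 30) (by
      rw [map_pow, map_mul, mul_pow, e30, hd3, h30, one_mul, Int.cast_one, map_one])
    exact ⟨j, by rw [hj, Int.cast_one]⟩

end Fermat.Agent.SwitchLocal
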