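import Fermat.Agent.SwitchLocal.FiveEngine
import Fermat.Agent.SwitchLocal.FiveTwo

/-!
# The 5-switch from multiplicative reduction with `5 ∣ v₂(Δ)` to supersingular reduction at `2`
-/

set_option autoImplicit false

namespace Fermat.Agent.SwitchLocal

open WeierstrassCurve IsLocalRing
open Fermat.Agent.Switch

local notation "Qb" => AlgebraicClosure ℚ

/-- Congruence modulo a sufficient power preserves the valuation. -/
theorem padicValInt_eq_of_dvd_sub {p : ℕ} (hp : p.Prime) {x y : ℤ} (hx : x ≠ 0)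
    (h : (p : ℤ) ^ (padicValInt p x + 1) ∣ y - x) : padicValInt p y = padicValInt p x := by
  have : Fact p.Prime := ⟨hp⟩
  have hy : y ≠ 0 := by
    rintro rfl
    rw [zero_sub, dvd_neg, padicValInt_dvd_iff] at h
    rcases h with h | h
    · exact hx h
    · omega
  have h1 : (p : ℤ) ^ padicValInt p x ∣ y :=
    (dvd_sub_left ((padicValInt_dvd_iff _ x).mpr (Or.inr le_rfl))).mp
      ((pow_dvd_pow _ (Nat.le_succ _)).trans h)
  have h2 : ¬ (p : ℤ) ^ (padicValInt p x + 1) ∣ y := fun h' => by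
    have := (dvd_sub_right h').mp h
    rw [padicValInt_dvd_iff] at this
    rcases this with this | this
    · exact hx this
    · omega
  rw [padicValInt_dvd_iff] at h1 h2
  rcases h1 with h1 | h1
  · exact absurd h1 hy
  · push Not at h2
    omega

theorem intCast_dvd_of_eq {A : ValuationSubring Qb} (hA : A.LiesOverPrime 2) {x : ℤ} {n : ℕ} {U : A}
    (h : (x : A) = (2 : A) ^ n * U) : (2 : ℤ) ^ n ∣ x := by
  have := pow_dvd_of_dvd_intCast hA Nat.prime_two n (m := x) ⟨U, by rw [h]; norm_num⟩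
  exact_mod_cast this

/-- The local conclusion at `2`. -/
theorem loc_two {A : ValuationSubring Qb} (hA : A.LiesOverPrime 2) {c' d' E : ℤ} {R S U J : A}
    (hc : (c' : A) = fC4 R S) (hd : (d' : A) = fC6 R S) (hE : (E : A) = fD R S ^ 5)
    (hU : IsUnit U) (hU4 : fC4 R S = 16 * U) (hJ : fC6 R S = 8 + 32 * J) (hDu : IsUnit (fD R S)) :
    (16 : ℤ) ∣ c' ∧ ¬ (32 : ℤ) ∣ c' ∧ (32 : ℤ) ∣ d' - 8 ∧ ¬ (2 : ℤ) ∣ E := by
  refine ⟨?_, ?_, ?_, fun h => ?_⟩
  · have := intCast_dvd_of_eq hA (n := 4) (x := c') (U := U) (by rw [hc, hU4]; norm_num)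
    norm_num at this
    exact this
  · rintro ⟨z, hz⟩
    have : U = 2 * (z : A) := by
      apply mul_left_cancel₀ (show (16 : A) ≠ 0 by
        intro h; have := congrArg A.subtype h; simp [map_ofNat] at this)
      rw [← hU4, ← hc, hz]; push_cast; ring
    exact (residue_ne_zero_iff_isUnit U).mpr hU (by
      rw [this, map_mul, map_ofNat, residue_two hA, zero_mul])
  · have := intCast_dvd_of_eq hA (n := 5) (x := d' - 8) (U := J)
      (by rw [Int.cast_sub, hd, hJ]; norm_num)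
    norm_num at this
    exact this
  · have hu : residue A (E : A) ≠ 0 := by
      rw [hE, residue_ne_zero_iff_isUnit]
      exact hDu.pow 5
    rw [map_intCast] at hu
    exact hu ((intCast_residue_eq_zero_iff hA Nat.prime_two E).mpr h)

/-- The 5-switch from multiplicative reduction at `2` with `5 ∣ v₂(Δ)` to supersingular
reduction with `a₂ = ± 2`. -/
theorem exists_switch_five_ss (W : WeierstrassCurve ℤ) (hΔ : W.Δ ≠ 0) (hW : W.IsSemistableModel)
    (h2 : (2 : ℤ) ∣ W.Δ) (hv : 5 ∣ padicValInt 2 W.Δ) :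
    ∃ W' : WeierstrassCurve ℤ, W'.Δ ≠ 0 ∧ W'.IsSemistableModel ∧ W'.IsGoodPrimeFor 2 ∧
      (16 : ℤ) ∣ W'.c₄ ∧ ¬ (32 : ℤ) ∣ W'.c₄ ∧ W'.ModRepIsIrreducible 3 ∧
      Fermat.Agent.Top.Congruent 5 W W' ∧
      (∀ q ∈ ({3, 5} : Finset ℕ), ¬ (q : ℤ) ∣ W.Δ → ¬ (q : ℤ) ∣ W'.Δ) ∧
      padicValInt 3 W'.Δ = padicValInt 3 W.Δ := by
  classical
  obtain ⟨k, Δ', hΔ'2, hΔ'⟩ : ∃ (k : ℕ) (Δ' : ℤ), ¬ (2 : ℤ) ∣ Δ' ∧
      W.Δ = 2 ^ (5 * (k + 1)) * Δ' := by
    obtain ⟨i, Δ', h', hi⟩ := WfDvdMonoid.max_power_factor (x := (2 : ℤ)) hΔ Int.prime_two.irreducible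
    have hval : padicValInt 2 W.Δ = i := by
      have : Fact (Nat.Prime 2) := ⟨Nat.prime_two⟩
      rw [hi, padicValInt.mul (pow_ne_zero _ two_ne_zero) (fun h0 => h' (by rw [h0]; exact dvd_zero _))]
      rw [padicValInt.eq_zero_of_not_dvd (show ¬ ((2 : ℕ) : ℤ) ∣ Δ' by exact_mod_cast h')]
      rw [padicValInt, Int.natAbs_pow]
      simp
    rw [hval] at hv
    have h0 : i ≠ 0 := by
      rintro rfl
      exact h' (by simpa [hi] using h2)
    obtain ⟨k, rfl⟩ := hv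
    obtain ⟨k', rfl⟩ := Nat.exists_eq_succ_of_ne_zero (show k ≠ 0 by omega)
    exact ⟨k', Δ', h', hi⟩
  have hd : (4 : ℤ) ∣ W.c₆ - 3 :=
    (c₆_local W).2 (hW 2 Nat.prime_two (by exact_mod_cast h2))
  obtain ⟨c', d', E, hrel, ⟨h16, h32, h8, hE2⟩, hcong, hrest⟩ := exists_member_five W hΔ hW Nat.prime_two
    (by norm_num) (by exact_mod_cast h2) (k + 3) (k + 3) W.c₆
    (fun c' d' E => (16 : ℤ) ∣ c' ∧ ¬ (32 : ℤ) ∣ c' ∧ (32 : ℤ) ∣ d' - 8 ∧ ¬ (2 : ℤ) ∣ E)
    (fun c' d' E h h0 => h.2.2.2 (h0 ▸ dvd_zero _))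
    (fun A hA r s hs hC4 hC6 hD5 a' b m₀ hb hm₀ hlin => by
      obtain ⟨R, S, hR, hS, ⟨U, hU, hU4⟩, ⟨J, hJ⟩, hDu⟩ := forms_two hA r s hC4 hC6
        (k := k) (Δ' := Δ') (by rw [hD5, hΔ']) (hW 2 Nat.prime_two (by exact_mod_cast h2)) hd hΔ'2
        hs (by exact_mod_cast hb) (by exact_mod_cast hm₀) (by exact_mod_cast hlin)
      refine ⟨R, S, ?_, ?_, fun c' d' E hc hd hE => loc_two hA hc hd hE hU hU4 hJ hDu⟩
      · rw [← hR]; norm_num
      · rw [← hS]; norm_num)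
  have h3 : ∀ j, (3 : ℤ) ^ j ∣ W.Δ → (3 : ℤ) ^ (j + 4) ∣ 12960 * W.Δ := fun j h => by
    rw [pow_add, mul_comm]; exact mul_dvd_mul (by norm_num) h
  have hok : OkAtThree d' := by
    have h := (hcong 3 Nat.prime_three (by norm_num) 4 (by exact_mod_cast h3 0 (by simp))).2.1
    have h3' := (c₆_local W).1
    unfold OkAtThree at h3' ⊢
    norm_num at h
    omega
  obtain ⟨W', hW'4, hW'6, hW'Δ⟩ := exists_model hrel hok (Or.inr ⟨h16, h8⟩)
  obtain ⟨hsemi, hirr, hC⟩ := hrest W' hW'4 hW'6 hW'Δ fun h => hE2 (by exact_mod_cast h.1)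
  have hE0 : E ≠ 0 := fun h => hE2 (h ▸ dvd_zero _)
  refine ⟨W', hW'Δ ▸ hE0, hsemi, fun h => hE2 ?_, hW'4 ▸ h16, hW'4 ▸ h32, hirr, hC, ?_, ?_⟩
  · rw [hW'Δ] at h; exact_mod_cast h
  · intro q hq hgood hbad
    have hq' : q = 3 ∨ q = 5 := by simpa using hq
    have h := (hcong q (by rcases hq' with rfl | rfl <;> norm_num)
      (by rcases hq' with rfl | rfl <;> norm_num) 1 (by
        rw [pow_one]
        rcases hq' with rfl | rfl <;> exact dvd_mul_of_dvd_left (by norm_num) _)).2.2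
    rw [pow_one] at h
    rw [hW'Δ] at hbad
    exact hgood ((dvd_sub_right hbad).mp h)
  · rw [hW'Δ]
    refine padicValInt_eq_of_dvd_sub Nat.prime_three hΔ ?_
    refine (hcong 3 Nat.prime_three (by norm_num) _ ?_).2.2
    have : Fact (Nat.Prime 3) := ⟨Nat.prime_three⟩
    exact (pow_dvd_pow _ (show padicValInt 3 W.Δ + 1 ≤ padicValInt 3 W.Δ + 4 by omega)).trans (by
      exact_mod_cast h3 (padicValInt 3 W.Δ)
        (by exact_mod_cast (padicValInt_dvd_iff (p := 3) (padicValInt 3 W.Δ) W.Δ).mpr (Or.inr le_rfl)))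

end Fermat.Agent.SwitchLocal
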