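import Fermat.Agent.SwitchLocal.FiveEngine
import Fermat.Agent.SwitchLocal.FiveCusp
import Fermat.Agent.SwitchLocal.FiveSwitch

/-!
# The 5-switch making multiplicative reduction at `3` très ramifiée
-/

set_option autoImplicit false

namespace Fermat.Agent.SwitchLocal

open WeierstrassCurve IsLocalRing
open Fermat.Agent.Switch

local notation "Qb" => AlgebraicClosure ℚ

/-- The invariants of a semistable model satisfy Kraus' condition at `2`. -/
theorem ordAtTwo_or_ssAtTwo {W : WeierstrassCurve ℤ} (hW : W.IsSemistableModel) :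
    OrdAtTwo W.c₄ W.c₆ ∨ SsAtTwo W.c₄ W.c₆ := by
  by_cases hc : (2 : ℤ) ∣ W.c₄
  · right
    have hΔ : ¬ (2 : ℤ) ∣ W.Δ := fun h =>
      hW 2 Nat.prime_two (by exact_mod_cast h) (by exact_mod_cast hc)
    obtain ⟨i, hi⟩ : (2 : ℤ) ∣ W.a₁ := by
      refine Int.prime_two.dvd_of_dvd_pow (n := 4) ?_
      obtain ⟨z, hz⟩ := hc
      refine ⟨z - 4 * W.a₁ ^ 2 * W.a₂ - 8 * W.a₂ ^ 2 + 12 * W.b₄, ?_⟩
      simp only [WeierstrassCurve.c₄, WeierstrassCurve.b₂] at hz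
      linear_combination hz
    obtain ⟨j, hj⟩ : ∃ j, W.a₃ = 2 * j + 1 := by
      refine ⟨W.a₃ / 2, ?_⟩
      by_contra hne
      obtain ⟨j, hj⟩ : (2 : ℤ) ∣ W.a₃ := by omega
      refine hΔ ?_
      simp only [WeierstrassCurve.Δ, WeierstrassCurve.b₂, WeierstrassCurve.b₄, WeierstrassCurve.b₆,
        hi, hj]
      refine Dvd.dvd.add (Dvd.dvd.sub (Dvd.dvd.sub ?_ ?_) ?_) ?_
      · exact ⟨-8 * (i ^ 2 + W.a₂) ^ 2 * W.b₈, by ring⟩
      · exact ⟨4 * (2 * W.a₄ + 4 * i * j) ^ 3, by ring⟩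
      · exact ⟨27 * 8 * (j ^ 2 + W.a₆) ^ 2, by ring⟩
      · exact ⟨9 * 2 * (i ^ 2 + W.a₂) * (2 * W.a₄ + 4 * i * j) * (4 * (j ^ 2 + W.a₆)), by ring⟩
    have hb₂ : W.b₂ = 4 * (i ^ 2 + W.a₂) := by
      simp only [WeierstrassCurve.b₂, hi]; ring
    have hb₄ : W.b₄ = 2 * (W.a₄ + i * (2 * j + 1)) := by
      simp only [WeierstrassCurve.b₄, hi, hj]; ring
    have hb₆ : W.b₆ = 1 + 4 * (j ^ 2 + j + W.a₆) := by
      simp only [WeierstrassCurve.b₆, hj]; ring
    refine ⟨⟨(i ^ 2 + W.a₂) ^ 2 - 3 * (W.a₄ + i * (2 * j + 1)), ?_⟩,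
      ⟨-2 * (i ^ 2 + W.a₂) ^ 3 + 9 * (i ^ 2 + W.a₂) * (W.a₄ + i * (2 * j + 1)) - 7
        - 27 * (j ^ 2 + j + W.a₆), ?_⟩⟩
    · simp only [WeierstrassCurve.c₄, hb₂, hb₄]; ring
    · simp only [WeierstrassCurve.c₆, hb₂, hb₄, hb₆]; ring
  · exact Or.inl ⟨hc, (c₆_local W).2 hc⟩

theorem kraus_of_congr {c d c' d' : ℤ} (h : OrdAtTwo c d ∨ SsAtTwo c d) (hc : (32 : ℤ) ∣ c' - c)
    (hd : (32 : ℤ) ∣ d' - d) : OrdAtTwo c' d' ∨ SsAtTwo c' d' := by
  unfold OrdAtTwo SsAtTwo at h ⊢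
  omega

/-- The first step of the chain of a Frey curve: `3` becomes très ramifiée. -/
theorem exists_switch_five_three (W : WeierstrassCurve ℤ) (hΔ : W.Δ ≠ 0)
    (hW : W.IsSemistableModel) :
    ∃ W' : WeierstrassCurve ℤ, W'.Δ ≠ 0 ∧ W'.IsSemistableModel ∧ W'.ModRepIsIrreducible 3 ∧
      Fermat.Agent.Top.Congruent 5 W W' ∧ ((2 : ℤ) ∣ W.Δ → (2 : ℤ) ∣ W'.Δ) ∧
      (∀ q ∈ ({3, 5} : Finset ℕ), ¬ (q : ℤ) ∣ W.Δ → ¬ (q : ℤ) ∣ W'.Δ) ∧
      ((3 : ℤ) ∣ W'.Δ → ¬ 3 ∣ padicValInt 3 W'.Δ) := by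
  classical
  have : Fact (Nat.Prime 3) := ⟨Nat.prime_three⟩
  by_cases hcusp : (3 : ℤ) ∣ W.Δ ∧ 3 ∣ padicValInt 3 W.Δ
  · obtain ⟨h3, hv⟩ := hcusp
    obtain ⟨w, Δ', hΔ'3, hΔ'⟩ : ∃ (w : ℕ) (Δ' : ℤ), ¬ (3 : ℤ) ∣ Δ' ∧
        W.Δ = 3 ^ (3 * (w + 1)) * Δ' := by
      obtain ⟨i, Δ', h', hi⟩ :=
        WfDvdMonoid.max_power_factor (x := (3 : ℤ)) hΔ Int.prime_three.irreducible
      have hval : padicValInt 3 W.Δ = i := by
        rw [hi, padicValInt.mul (pow_ne_zero _ three_ne_zero)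
          (fun h0 => h' (by rw [h0]; exact dvd_zero _))]
        rw [padicValInt.eq_zero_of_not_dvd (show ¬ ((3 : ℕ) : ℤ) ∣ Δ' by exact_mod_cast h')]
        rw [padicValInt, Int.natAbs_pow]
        simp
      rw [hval] at hv
      have h0 : i ≠ 0 := by
        rintro rfl
        exact h' (by simpa [hi] using h3)
      obtain ⟨k, rfl⟩ := hv
      obtain ⟨k', rfl⟩ := Nat.exists_eq_succ_of_ne_zero (show k ≠ 0 by omega)
      exact ⟨k', Δ', h', hi⟩
    obtain ⟨c', d', E, hrel, ⟨hc3, hd3, hE0, hE3⟩, hcong, hrest⟩ := exists_member_five W hΔ hW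
      Nat.prime_three (by norm_num) (by exact_mod_cast h3) 1 2 (-11 * W.c₆)
      (fun c' d' E => ¬ (3 : ℤ) ∣ c' ∧ ¬ (3 : ℤ) ∣ d' ∧ E ≠ 0 ∧ ¬ 3 ∣ padicValInt 3 E)
      (fun _ _ _ h => h.2.2.1)
      (fun A hA r s hs hC4 hC6 hD5 a' b m₀ hb hm₀ hlin => by
        obtain ⟨R, S, hR, hS, h4, h6, U, hU, hD⟩ := forms_three hA r s hC4 hC6
          (w := w) (Δ' := Δ') (a := a') (b := b) (m₀ := m₀) (by rw [hD5, hΔ']) (hW 3 Nat.prime_three (by exact_mod_cast h3))
          hΔ'3 hs (by exact_mod_cast hb) (by exact_mod_cast hm₀)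
          (by norm_num at hlin ⊢; linear_combination hlin)
        refine ⟨R, S, ?_, ?_, fun c' d' E hc hd hE => ?_⟩
        · rw [← hR]; norm_num
        · rw [← hS]; norm_num
        have hres : ∀ x : ℤ, IsUnit (x : A) → ¬ (3 : ℤ) ∣ x := fun x hx h =>
          (residue_ne_zero_iff_isUnit (x : A)).mpr hx (by
            rw [map_intCast]
            exact (intCast_residue_eq_zero_iff hA Nat.prime_three x).mpr (by exact_mod_cast h))
        obtain ⟨E', rfl⟩ : (3 : ℤ) ^ (3 * w + 8) ∣ E := by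
          have := pow_dvd_of_dvd_intCast hA Nat.prime_three (3 * w + 8) (m := E)
            ⟨U, by rw [hE, hD]; norm_num⟩
          exact_mod_cast this
        have hE' : (E' : A) = U := by
          apply mul_left_cancel₀ (pow_ne_zero (3 * w + 8) (show (3 : A) ≠ 0 by
            intro h; have := congrArg A.subtype h; simp [map_ofNat] at this))
          rw [← hD, ← hE]; push_cast; ring
        have hE'3 : ¬ (3 : ℤ) ∣ E' := hres E' (hE' ▸ hU)
        have hE'0 : E' ≠ 0 := fun h => hE'3 (h ▸ dvd_zero _)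
        refine ⟨hres c' (hc ▸ h4), hres d' (hd ▸ h6),
          mul_ne_zero (pow_ne_zero _ three_ne_zero) hE'0, ?_⟩
        rw [padicValInt.mul (pow_ne_zero _ three_ne_zero) hE'0,
          padicValInt.eq_zero_of_not_dvd (show ¬ ((3 : ℕ) : ℤ) ∣ E' by exact_mod_cast hE'3),
          padicValInt, Int.natAbs_pow]
        simp
        omega)
    have h32 : (2 : ℤ) ^ 5 ∣ 12960 * W.Δ := dvd_mul_of_dvd_left (by norm_num) _
    obtain ⟨e4, e6, eE⟩ := hcong 2 Nat.prime_two (by norm_num) 5 (by exact_mod_cast h32)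
    norm_num at e4 e6 eE
    obtain ⟨W', hW'4, hW'6, hW'Δ⟩ :=
      exists_model hrel (Or.inl hd3) (kraus_of_congr (ordAtTwo_or_ssAtTwo hW) e4 e6)
    obtain ⟨hsemi, hirr, hC⟩ := hrest W' hW'4 hW'6 hW'Δ fun h => hc3 (by exact_mod_cast h.2)
    refine ⟨W', hW'Δ ▸ hE0, hsemi, hirr, hC, fun h => ?_, ?_, fun _ => hW'Δ ▸ hE3⟩
    · rw [hW'Δ]; omega
    · intro q hq hgood hbad
      have hq' : q = 3 ∨ q = 5 := by simpa using hq
      rcases hq' with rfl | rfl
      · exact hgood (by exact_mod_cast h3)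
      have h := (hcong 5 Nat.prime_five (by norm_num) 1 (by
        rw [pow_one]
        exact dvd_mul_of_dvd_left (by norm_num) _)).2.2
      rw [pow_one] at h
      rw [hW'Δ] at hbad
      exact hgood ((dvd_sub_right hbad).mp h)
  · obtain ⟨F⟩ := exists_familyData hΔ hW
    obtain ⟨n, hn, hirr⟩ := F.exists_irreducible hW (c₄_ne_zero_of_semistable hΔ hW)
    have hcong : (30 * W.Δ) ∣ (F.curve n).Δ - W.Δ := by
      refine (ZMod.intCast_zmod_eq_zero_iff_dvd _ (30 * W.Δ).natAbs).mp ?_ |> Int.natAbs_dvd.mp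
      push_cast
      have e : ∀ x : ℤ, 30 * W.Δ ∣ x → (x : ZMod (30 * W.Δ).natAbs) = 0 := fun x hx =>
        (ZMod.intCast_zmod_eq_zero_iff_dvd _ _).mpr (Int.natAbs_dvd.mpr hx)
      have hmap : (F.curve n).map (Int.castRingHom (ZMod (30 * W.Δ).natAbs)) =
          W.map (Int.castRingHom (ZMod (30 * W.Δ).natAbs)) := by
        ext <;> simp [FamilyData.curve, e _ (F.d4_dvd n), e _ (F.d6_dvd n)]
      have hd := congrArg WeierstrassCurve.Δ hmap
      simp only [map_Δ, eq_intCast] at hd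
      rw [hd, sub_self]
    have hdvd : ∀ {q : ℤ}, q ∣ 30 → (q ∣ W.Δ ↔ q ∣ (F.curve n).Δ) := fun hq =>
      (dvd_iff_dvd_of_dvd_sub ((dvd_mul_of_dvd_left hq _).trans hcong)).symm
    refine ⟨F.curve n, hn, F.isSemistableModel hW n, hirr, ?_, fun h => (hdvd (by norm_num)).mp h,
      ?_, fun h hdiv => hcusp ⟨(hdvd (by norm_num)).mpr h, ?_⟩⟩
    · intro ℓ hℓ hg hg' h5
      have : Fact (Nat.Prime 5) := ⟨by norm_num⟩
      obtain ⟨A, hA⟩ := Arith.exists_liesOverPrime hℓ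
      obtain ⟨σ, hσ⟩ := Arith.exists_isFrobeniusAt hA hℓ
      have e := EC.FrobTrace.galoisTrace_frobenius (p := 5) W hℓ hg h5 hA hσ
      have e' := EC.FrobTrace.galoisTrace_frobenius (p := 5) (F.curve n) hℓ hg' h5 hA hσ
      have hfib := fib_curve F n hn
      rw [show F.par n = (((F.M * n : ℤ) : ℚ) : Qb) by simp [FamilyData.par]] at hfib
      have key := F.galoisTrace_eq (W.map (Int.castRingHom ℚ))
        ((F.curve n).map (Int.castRingHom ℚ)) 0 ((F.M * n : ℤ) : ℚ)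
        (fun V hV => by
          rcases hV with rfl | hV
          · exact ⟨by simp, by simp, by simp⟩
          · rw [Set.mem_singleton_iff] at hV
            subst hV
            exact ⟨by simp [FamilyData.curve], by simp [FamilyData.curve],
              by simp [FamilyData.curve]⟩)
        (fib_base F) hfib σ
      rw [show (W.map (Int.castRingHom ℚ)).toAffine = W.map (Int.castRingHom ℚ) from rfl, e] at key
      rw [show ((F.curve n).map (Int.castRingHom ℚ)).toAffine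
        = (F.curve n).map (Int.castRingHom ℚ) from rfl, e'] at key
      exact (ZMod.intCast_zmod_eq_zero_iff_dvd _ 5).mp (by push_cast; rw [key, sub_self])
    · intro q hq hgood hbad
      have hq' : q = 3 ∨ q = 5 := by simpa using hq
      exact hgood ((hdvd (by rcases hq' with rfl | rfl <;> norm_num)).mpr hbad)
    · rwa [padicValInt_eq_of_dvd_sub Nat.prime_three hΔ ?_] at hdiv
      rw [pow_succ, mul_comm]
      refine (mul_dvd_mul (show (3 : ℤ) ∣ 30 by norm_num) ?_).trans hcong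
      exact (padicValInt_dvd_iff (p := 3) _ W.Δ).mpr (Or.inr le_rfl)

end Fermat.Agent.SwitchLocal
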