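import Fermat.Agent.SwitchLocal.Chain
import Fermat.Agent.SwitchLocal.FiveThree

/-!
# The two `X(5)` switch inputs, discharged

`SwitchFiveSsInput` and `SwitchFiveThreeInput` are theorems, so the chains of the Frey curves and
the switches of milestone 50 hold unconditionally.
-/

set_option autoImplicit false

namespace Fermat.Agent.SwitchLocal

open WeierstrassCurve

theorem switchFiveSsInput : SwitchFiveSsInput := by
  intro W hΔ hW h2 hv
  obtain ⟨W', hΔ', hW', hg, h16, h32, h3, hC, hk, hv3⟩ := exists_switch_five_ss W hΔ hW h2 hv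
  refine ⟨W', hΔ', hW', hg, h16, h32, h3, hC, fun h => ?_, fun ht hd => ?_⟩
  · exact_mod_cast hk 5 (by simp) (by exact_mod_cast h)
  · by_cases hW3 : (3 : ℤ) ∣ W.Δ
    · rw [hv3]; exact ht hW3
    · exact absurd hd (by exact_mod_cast hk 3 (by simp) (by exact_mod_cast hW3))

theorem switchFiveThreeInput : SwitchFiveThreeInput := by
  intro W hΔ hW
  obtain ⟨W', hΔ', hW', h3, hC, -, hk, ht⟩ := exists_switch_five_three W hΔ hW
  exact ⟨W', hΔ', hW', h3, hC, fun h => by exact_mod_cast hk 5 (by simp) (by exact_mod_cast h), ht⟩

/-- **The chains of the Frey curves.** -/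
theorem freyChainInput : Top.FreyChainInput Top.IsTwoAdicGood :=
  freyChainInput_of switchFiveSsInput switchFiveThreeInput

/-- **The switches of milestone 50.** -/
theorem residualSwitchInput : Top.ResidualSwitchInput Top.IsTwoAdicGood :=
  residualSwitchInput_of switchFiveSsInput switchFiveThreeInput

end Fermat.Agent.SwitchLocal
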