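import Fermat.Agent.EC.Rep.Residual
import Fermat.Agent.EC.AtP.Semistable
import Mathlib.LinearAlgebra.Eigenspace.Charpoly

/-!
# One Frobenius trace detects irreducibility of `E[p]` for a semistable curve
-/

set_option autoImplicit false

namespace Fermat.Agent.SwitchLocal

open WeierstrassCurve Polynomial
open scoped WeierstrassCurve.Affine

local notation "Qb" => AlgebraicClosure ℚ

variable {W : WeierstrassCurve ℤ} {p : ℕ} [Fact p.Prime]

/-- On a semistable curve with reducible `E[p]`, `p` odd, `aₗ ≡ 1 + ℓ (mod p)`. -/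
theorem apOfModel_eq_of_reducible (hΔ : W.Δ ≠ 0) (hW : W.IsSemistableModel) (hp2 : p ≠ 2)
    (hred : ¬ W.ModRepIsIrreducible p) {ℓ : ℕ} (hℓ : ℓ.Prime) (hg : W.IsGoodPrimeFor ℓ)
    (hne : ℓ ≠ p) : (W.apOfModel ℓ : ZMod p) = 1 + ℓ := by
  have hp : p.Prime := Fact.out
  obtain ⟨A, hA⟩ := Arith.exists_liesOverPrime hℓ
  obtain ⟨σ, hσ⟩ := Arith.exists_isFrobeniusAt hA hℓ
  set ρ := EC.Rep.residualRep W p hΔ with hρ
  have := Module.finite_of_finrank_eq_succ ρ.finrank_eq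
  set T : Module.End (ZMod p) ρ.V := ρ.ρ σ with hT
  have hns : ∀ q : ℕ, q.Prime → ¬ ((q : ℤ) ∣ W.c₄ ∧ (q : ℤ) ∣ W.Δ) := fun q hq h =>
    hW q hq h.2 h.1
  have hker : LinearMap.ker (T - 1) ≠ ⊥ := by
    intro hbot
    have hbij : Function.Bijective ⇑(T - 1 : Module.End (ZMod p) ρ.V) :=
      ⟨LinearMap.ker_eq_bot.mp hbot,
        LinearMap.injective_iff_surjective.mp (LinearMap.ker_eq_bot.mp hbot)⟩
    rcases EC.AtP.rational_point_or_cofixedLine W hΔ hns hp hp2 hred with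
      ⟨P, hP0, hP, hfix⟩ | ⟨N, -, -, hNt, hN⟩
    · have hmem : P ∈ Submodule.torsionBy ℤ
          ((W.map (Int.castRingHom ℚ))⁄Qb).Point (p : ℕ) := by
        rw [Submodule.mem_torsionBy_iff, natCast_zsmul]; exact hP
      let x : ρ.V := (⟨P, hmem⟩ : Submodule.torsionBy ℤ
        ((W.map (Int.castRingHom ℚ))⁄Qb).Point (p : ℕ))
      have hx : (T - 1) x = (T - 1) 0 := by
        rw [map_zero, LinearMap.sub_apply]
        exact sub_eq_zero.mpr (Subtype.ext (hfix σ))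
      exact hP0 (congrArg Subtype.val (hbij.1 hx))
    · refine hNt (eq_top_iff.mpr fun y _ => ?_)
      obtain ⟨x, rfl⟩ := hbij.2 y
      exact hN σ x
  have heig : Module.End.HasEigenvalue T 1 := by
    rw [Module.End.hasEigenvalue_iff, Module.End.eigenspace_def, one_smul]
    exact hker
  have h := (Module.End.hasEigenvalue_iff_isRoot_charpoly T 1).mp heig
  rw [hT, EC.Rep.charpoly_residualRep_frobenius hΔ hℓ hg hne hA hσ] at h
  simp only [IsRoot.def, eval_add, eval_sub, eval_pow, eval_X, eval_mul, eval_C, one_pow,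
    mul_one] at h
  linear_combination -h

theorem modRepIsIrreducible_of_apOfModel_ne (hΔ : W.Δ ≠ 0) (hW : W.IsSemistableModel)
    (hp2 : p ≠ 2) {ℓ : ℕ} (hℓ : ℓ.Prime) (hg : W.IsGoodPrimeFor ℓ) (hne : ℓ ≠ p)
    (h : (W.apOfModel ℓ : ZMod p) ≠ 1 + ℓ) : W.ModRepIsIrreducible p :=
  not_not.mp fun hred => h (apOfModel_eq_of_reducible hΔ hW hp2 hred hℓ hg hne)

end Fermat.Agent.SwitchLocal
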