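import Mathlib
import Fermat.Agent.S51
import Fermat.Agent.EC.Rep.Residual
import Fermat.Agent.SwitchLocal.Irreducible
import Fermat.Agent.SwitchLocal.FiveInputs

/-!
# The `X(3)` switch to good reduction at 3, and the chains of all semistable models

If `W` is multiplicative at 3 with `v₃(Δ) = 3 * k`, the member with parameter `(t, 1)`,
`c₄ * t + c₆` exactly divisible by `3 ^ k`, has good ordinary reduction at 3 after scaling by
`3 ^ k`.
-/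

set_option autoImplicit false

namespace Fermat.Agent.SwitchLocal

open WeierstrassCurve

section Three

variable {c d D t z P : ℤ}

theorem qG_near_three (hrel : c ^ 3 - d ^ 2 = 1728 * (P ^ 3 * D)) (hx : c * t + d = P * z) :
    c ^ 4 * qG c d t 1 = P ^ 3 * (P * z ^ 4 - 4 * d * z ^ 3 - 10368 * P ^ 2 * D * z ^ 2
      + 6912 * d * D * P * z - 6912 * d ^ 2 * D - 8957952 * P ^ 3 * D ^ 2) := by
  have hc : c ^ 3 = d ^ 2 + 1728 * (P ^ 3 * D) := by linarith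
  have hh : c ^ 4 * qG c d t 1 = (c * t) ^ 4 - 6 * c ^ 3 * (c * t) ^ 2
      - 8 * d * c ^ 3 * (c * t) - 3 * (c ^ 3) ^ 2 := by simp only [qG]; ring
  rw [hh, hc, show c * t = P * z - d by linarith]
  ring

theorem qF4_near_three (hrel : c ^ 3 - d ^ 2 = 1728 * (P ^ 3 * D)) (hx : c * t + d = P * z) :
    c ^ 3 * qF4 c d t 1 = P ^ 4 * (z ^ 4 + 10368 * P * D * z ^ 2 - 13824 * d * D * z
      - 8957952 * P ^ 2 * D ^ 2) := by
  have hc : c ^ 3 = d ^ 2 + 1728 * (P ^ 3 * D) := by linarith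
  have hh : c ^ 3 * qF4 c d t 1 = (c * t) ^ 4 + 4 * d * (c * t) ^ 3
      + 6 * c ^ 3 * (c * t) ^ 2 + 4 * d * c ^ 3 * (c * t) + c ^ 3 * (4 * d ^ 2 - 3 * c ^ 3) := by
    simp only [qF4]; ring
  rw [hh, hc, show c * t = P * z - d by linarith]
  ring

end Three

variable {W : WeierstrassCurve ℤ}

/-- Some class at 2 exists for every semistable model. -/
theorem exists_twoClass_any (W : WeierstrassCurve ℤ) (hW : W.IsSemistableModel) :
    ∃ (n : ℕ) (t₂ : ℤ), TwoClass n W.c₄ W.c₆ t₂ 1 := by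
  by_cases hd : (2 : ℤ) ∣ W.Δ
  · have hc : ¬ (2 : ℤ) ∣ W.c₄ := fun h => hW 2 Nat.prime_two (by exact_mod_cast hd)
      (by exact_mod_cast h)
    exact ⟨1, exists_twoClass_mult W.c_relation.symm hc
      (four_dvd_d_sub_three W rfl rfl W.c_relation.symm hc) hd le_rfl⟩
  by_cases hc : (2 : ℤ) ∣ W.c₄
  · obtain ⟨γ, δ, hγ, hδ, hδ1⟩ := exists_ss_invariants W hd hc
    rw [hγ, hδ]
    by_cases hg : (2 : ℤ) ∣ γ
    · exact ⟨1, exists_twoClass_ss_mult hδ1 hg le_rfl⟩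
    · obtain ⟨t, ht, -⟩ := exists_twoClass_ss_ord hδ1 hg hd
      exact ⟨0, t, ht⟩
  · obtain ⟨t, ht, -⟩ := exists_twoClass_ord W.c_relation.symm hc
      (four_dvd_d_sub_three W rfl rfl W.c_relation.symm hc) hd
    exact ⟨0, t, ht⟩

/-- A parameter `(t, 1)` at which `qF4` is prime to `q ≥ 5`. -/
theorem exists_qF4_ne {q : ℕ} (hq : q.Prime) (hq2 : q ≠ 2) (hq3 : q ≠ 3) {c d : ℤ}
    (hc : ¬ (q : ℤ) ∣ c) : ∃ t₀ : ℤ, ¬ (q : ℤ) ∣ qF4 c d t₀ 1 := by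
  by_contra h
  push Not at h
  have hqi : Prime (q : ℤ) := Nat.prime_iff_prime_int.mp hq
  have h24 : (q : ℤ) ∣ (2 : ℤ) ^ 3 * 3 * c := by
    have := (((h 2).sub ((h 1).mul_left 4)).add ((h 0).mul_left 6)).sub ((h (-1)).mul_left 4)
      |>.add (h (-2))
    refine this.trans (dvd_of_eq ?_)
    simp only [qF4]; ring
  rcases hqi.dvd_or_dvd h24 with h | h
  · rcases hqi.dvd_or_dvd h with h | h
    · exact hq2 ((Nat.prime_dvd_prime_iff_eq hq Nat.prime_two).mp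
        (by exact_mod_cast hqi.dvd_of_dvd_pow h))
    · exact hq3 ((Nat.prime_dvd_prime_iff_eq hq Nat.prime_three).mp (by exact_mod_cast h))
  · exact hc h

/-- **X(3) switch to good reduction at 3**, from multiplicative reduction with `3 ∣ v₃(Δ)`. -/
theorem exists_switch_three_good (W : WeierstrassCurve ℤ) (hΔ : W.Δ ≠ 0)
    (hW : W.IsSemistableModel) (hd3 : (3 : ℤ) ∣ W.Δ) (hv : 3 ∣ padicValInt 3 W.Δ) :
    ∃ W' : WeierstrassCurve ℤ, W'.Δ ≠ 0 ∧ W'.IsSemistableModel ∧ W'.IsGoodPrimeFor 3 ∧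
      Top.Congruent 3 W W' := by
  classical
  have : Fact (Nat.Prime 3) := ⟨Nat.prime_three⟩
  have h3i : Prime (3 : ℤ) := Int.prime_three
  -- the valuation
  obtain ⟨k, hk⟩ := hv
  obtain ⟨D, hD⟩ : (3 : ℤ) ^ (3 * k) ∣ W.Δ := by
    have := (padicValInt_dvd_iff (p := 3) (3 * k) W.Δ).mpr (Or.inr hk.ge)
    exact_mod_cast this
  have hD3 : ¬ (3 : ℤ) ∣ D := fun h => by
    have : (3 : ℤ) ^ (3 * k + 1) ∣ W.Δ := by rw [hD, pow_succ]; exact mul_dvd_mul_left _ h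
    have := ((padicValInt_dvd_iff (p := 3) _ W.Δ).mp (by exact_mod_cast this)).resolve_left hΔ
    omega
  have hk0 : k ≠ 0 := by
    rintro rfl
    exact hD3 (by simpa [hD] using hd3)
  set P : ℤ := 3 ^ k with hP
  have hΔP : W.Δ = P ^ 3 * D := by rw [hD, hP, ← pow_mul]; ring
  have hc3 : ¬ (3 : ℤ) ∣ W.c₄ := fun h => hW 3 Nat.prime_three (by exact_mod_cast hd3)
    (by exact_mod_cast h)
  have hd6 : ¬ (3 : ℤ) ∣ W.c₆ := fun h => by
    refine hc3 (h3i.dvd_of_dvd_pow (n := 3) ?_)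
    rw [show W.c₄ ^ 3 = W.c₆ ^ 2 + 1728 * W.Δ by linarith [W.c_relation]]
    exact dvd_add (dvd_pow h two_ne_zero) (hd3.mul_left _)
  -- the classes
  obtain ⟨n, t₂, h2⟩ := exists_twoClass_any W hW
  obtain ⟨a, b, hab⟩ := (h3i.coprime_iff_not_dvd.mpr hc3).symm.pow_right (n := k + 1)
  have hcls : ∀ q : ℕ, ∃ s : ℤ, q.Prime → q ≠ 2 → q ≠ 3 → (q : ℤ) ∣ W.Δ →
      ¬ (q : ℤ) ∣ qF4 W.c₄ W.c₆ s 1 := fun q => by
    by_cases h : q.Prime ∧ q ≠ 2 ∧ q ≠ 3 ∧ (q : ℤ) ∣ W.Δ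
    · obtain ⟨s, hs⟩ := exists_qF4_ne (d := W.c₆) h.1 h.2.1 h.2.2.1 (hW q h.1 h.2.2.2)
      exact ⟨s, fun _ _ _ _ => hs⟩
    · exact ⟨0, fun h1 h2 h3 h4 => absurd ⟨h1, h2, h3, h4⟩ h⟩
  choose cls hcls using hcls
  obtain ⟨t, ht⟩ := exists_forall_congr (baseSet W) (fun q hq => mem_baseSet_prime hq)
    (fun q => if q = 2 then n + 14 else k + 1)
    (fun q => if q = 2 then t₂ else if q = 3 then a * (P - W.c₆) else cls q)
  have ht2 : (2 : ℤ) ^ (n + 14) ∣ t - t₂ := by simpa using ht 2 (by simp [baseSet])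
  obtain ⟨s, hs⟩ : (3 : ℤ) ^ (k + 1) ∣ t - a * (P - W.c₆) := by
    simpa using ht 3 (by simp [baseSet])
  set z : ℤ := 1 + 3 * (W.c₄ * s - b * (P - W.c₆)) with hz
  have hx : W.c₄ * t + W.c₆ = P * z := by
    rw [pow_succ, ← hP] at hs hab
    rw [hz]
    linear_combination W.c₄ * hs + (P - W.c₆) * hab
  have hz3 : ¬ (3 : ℤ) ∣ z := by omega
  obtain ⟨cG, cF, c6⟩ := forms_congr W.c₄ W.c₆ ht2
    (by simp : (2 : ℤ) ^ (n + 14) ∣ (1 : ℤ) - 1)
  have hG2 : ExactPow 2 (8 + n) (qG W.c₄ W.c₆ t 1) :=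
    ExactPow.congr cG (pow_dvd_pow _ (by omega)) h2.1
  have hF2 : ExactPow 2 8 (qF4 W.c₄ W.c₆ t 1) :=
    ExactPow.congr cF (pow_dvd_pow _ (by omega)) h2.2.1
  obtain ⟨j, hj⟩ : (16384 : ℤ) ∣ qF6 W.c₄ W.c₆ t 1 - 12288 := by
    have : (16384 : ℤ) ∣ qF6 W.c₄ W.c₆ t 1 - qF6 W.c₄ W.c₆ t₂ 1 := Dvd.dvd.trans
      (by rw [show (16384 : ℤ) = 2 ^ 14 by norm_num]; exact pow_dvd_pow _ (by omega)) c6
    simpa using dvd_add this h2.2.2
  obtain ⟨g₀, hg₀⟩ : (256 : ℤ) ∣ qG W.c₄ W.c₆ t 1 :=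
    Dvd.dvd.trans (by norm_num [pow_add]) hG2.1
  obtain ⟨c₀, hc₀⟩ := hF2.1
  norm_num at hc₀
  have hc₀odd : ¬ (2 : ℤ) ∣ c₀ := fun ⟨e, he⟩ => hF2.2 ⟨e, by rw [hc₀, he]; push_cast; ring⟩
  have hd₀ : qF6 W.c₄ W.c₆ t 1 = 4096 * (4 * j + 3) := by linarith
  have hrel : W.c₄ ^ 3 - W.c₆ ^ 2 = 1728 * (P ^ 3 * D) := hΔP ▸ W.c_relation.symm
  have hP0 : P ≠ 0 := pow_ne_zero _ (by norm_num)
  have hcop : ∀ i m : ℕ, IsCoprime (P ^ i) (W.c₄ ^ m * 256) := fun i m => by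
    rw [hP, ← pow_mul]
    exact ((h3i.coprime_iff_not_dvd.mpr fun h => (h3i.dvd_or_dvd h).elim
      (fun h => hc3 (h3i.dvd_of_dvd_pow h)) (by norm_num))).pow_left
  obtain ⟨P₁, hP₁⟩ : (3 : ℤ) ∣ P := dvd_pow_self _ hk0
  have eG := qG_near_three hrel hx
  have eF := qF4_near_three hrel hx
  rw [hg₀, ← mul_assoc] at eG
  rw [hc₀, ← mul_assoc] at eF
  obtain ⟨g, rfl⟩ := (hcop 3 4).dvd_of_dvd_mul_left ⟨_, eG⟩
  obtain ⟨c, rfl⟩ := (hcop 4 3).dvd_of_dvd_mul_left ⟨_, eF⟩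
  have eG' := mul_left_cancel₀ (pow_ne_zero 3 hP0)
    (show P ^ 3 * (W.c₄ ^ 4 * 256 * g) = P ^ 3 * _ by rw [← eG]; ring)
  have eF' := mul_left_cancel₀ (pow_ne_zero 4 hP0)
    (show P ^ 4 * (W.c₄ ^ 3 * 256 * c) = P ^ 4 * _ by rw [← eF]; ring)
  have hc : ¬ (3 : ℤ) ∣ c := fun h => hz3 (h3i.dvd_of_dvd_pow (n := 4) (by
    obtain ⟨w, hw⟩ := h
    refine ⟨W.c₄ ^ 3 * 256 * w - (3456 * P * D * z ^ 2 - 4608 * W.c₆ * D * z
      - 2985984 * P ^ 2 * D ^ 2), ?_⟩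
    rw [hw] at eF'
    linear_combination -eF'))
  have hg : ¬ (3 : ℤ) ∣ g := fun ⟨w, hw⟩ => by
    have : (3 : ℤ) ∣ 4 * W.c₆ * z ^ 3 := by
      refine ⟨P₁ * z ^ 4 - 3456 * P ^ 2 * D * z ^ 2 + 2304 * W.c₆ * D * P * z
        - 2304 * W.c₆ ^ 2 * D - 2985984 * P ^ 3 * D ^ 2 - W.c₄ ^ 4 * 256 * w, ?_⟩
      rw [hw] at eG'
      linear_combination eG' + z ^ 4 * hP₁
    rcases h3i.dvd_or_dvd this with h | h
    · exact (h3i.dvd_or_dvd h).elim (by norm_num) hd6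
    · exact hz3 (h3i.dvd_of_dvd_pow h)
  obtain ⟨d, hd⟩ : P ^ 6 ∣ 4 * j + 3 := by
    refine (Int.pow_dvd_pow_iff two_ne_zero).mp ⟨c ^ 3 - 1728 * D * g ^ 3, ?_⟩
    have e := qF4_cube_sub_qF6_sq W.c₄ W.c₆ t 1
    rw [hc₀, hd₀, hg₀, hrel] at e
    apply mul_left_cancel₀ (show (16777216 : ℤ) ≠ 0 by norm_num)
    linear_combination -e
  have hrel' : c ^ 3 - d ^ 2 = 1728 * (D * g ^ 3) := by
    have e := qF4_cube_sub_qF6_sq W.c₄ W.c₆ t 1
    rw [hc₀, hd₀, hg₀, hrel, hd] at e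
    apply mul_left_cancel₀ (mul_ne_zero (show (16777216 : ℤ) ≠ 0 by norm_num) (pow_ne_zero 12 hP0))
    linear_combination e
  have h4 : (4 : ℤ) ∣ d - 3 := by
    obtain ⟨e, he⟩ : ∃ e, P ^ 3 = 2 * e + 1 := ⟨P ^ 3 / 2, by
      have : ¬ (2 : ℤ) ∣ P ^ 3 := fun h => by
        have := Int.prime_two.dvd_of_dvd_pow (Int.prime_two.dvd_of_dvd_pow h)
        norm_num at this
      omega⟩
    exact ⟨j - e * (e + 1) * d, by
      rw [show P ^ 6 = (P ^ 3) ^ 2 by ring, he] at hd; linear_combination -hd⟩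
  have hd3' : ¬ (3 : ℤ) ∣ d := fun h => hc (h3i.dvd_of_dvd_pow (n := 3) (by
    rw [show c ^ 3 = d ^ 2 + 1728 * (D * g ^ 3) by linarith]
    exact dvd_add (dvd_pow h two_ne_zero) ⟨576 * (D * g ^ 3), by ring⟩))
  have hcodd : ¬ (2 : ℤ) ∣ c := fun h => hc₀odd (h.mul_left _)
  obtain ⟨W', hc4, hc6, hW'Δ⟩ :=
    exists_model hrel' (Or.inl hd3') (Or.inl ⟨hcodd, h4⟩)
  have hg0 : g ≠ 0 := fun h => hg (h ▸ dvd_zero _)
  have hΔ' : W'.Δ ≠ 0 := by
    rw [hW'Δ]; exact mul_ne_zero (fun h => hD3 (h ▸ dvd_zero _)) (pow_ne_zero 3 hg0)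
  have hgood : ¬ (3 : ℤ) ∣ W'.Δ := by
    rw [hW'Δ]
    exact fun h => (h3i.dvd_or_dvd h).elim hD3 fun h => hg (h3i.dvd_of_dvd_pow h)
  refine ⟨W', hΔ', ?_, fun h => hgood (by exact_mod_cast h), fun ℓ hℓ hl hl' hℓ3 => ?_⟩
  · intro q hq hqΔ hqc
    rw [hc4] at hqc
    rw [hW'Δ] at hqΔ
    have hqi : Prime (q : ℤ) := Nat.prime_iff_prime_int.mp hq
    have hq2 : q ≠ 2 := fun h => hcodd (by subst h; exact_mod_cast hqc)
    have hq3 : q ≠ 3 := fun h => hc (by subst h; exact_mod_cast hqc)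
    have hqF : (q : ℤ) ∣ qF4 W.c₄ W.c₆ t 1 := hc₀ ▸ (hqc.mul_left _).mul_left _
    by_cases hb : (q : ℤ) ∣ W.Δ
    · have htq := ht q (mem_baseSet_of_dvd hΔ hq hb)
      simp only [if_neg hq2, if_neg hq3] at htq
      exact hcls q hq hq2 hq3 hb ((dvd_of_congr (forms_congr W.c₄ W.c₆
        ((dvd_pow_self _ k.succ_ne_zero).trans htq) (by simp : (q : ℤ) ∣ 1 - 1)).2.1
          dvd_rfl).mp hqF)
    · have hqG : (q : ℤ) ∣ qG W.c₄ W.c₆ t 1 := by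
        rcases hqi.dvd_or_dvd hqΔ with h | h
        · exact absurd (hΔP ▸ h.mul_left _) hb
        · exact hg₀ ▸ ((hqi.dvd_of_dvd_pow h).mul_left _).mul_left _
      have : Fact q.Prime := ⟨hq⟩
      have hz0 : ∀ x : ℤ, (q : ℤ) ∣ x → (x : ZMod q) = 0 := fun x =>
        (ZMod.intCast_zmod_eq_zero_iff_dvd x q).mpr
      have hne : ∀ p : ℕ, p.Prime → q ≠ p → (p : ZMod q) ≠ 0 := fun p hp hqp h =>
        hqp ((Nat.prime_dvd_prime_iff_eq hq hp).mp ((ZMod.natCast_eq_zero_iff p q).mp h))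
      have h2' : (2 : ZMod q) ≠ 0 := by exact_mod_cast hne 2 Nat.prime_two hq2
      have h3' : (3 : ZMod q) ≠ 0 := by exact_mod_cast hne 3 Nat.prime_three hq3
      have hcd : (W.c₄ : ZMod q) ^ 3 - (W.c₆ : ZMod q) ^ 2 ≠ 0 := by
        rw [show (W.c₄ : ZMod q) ^ 3 - (W.c₆ : ZMod q) ^ 2 = 2 ^ 6 * 3 ^ 3 * (W.Δ : ZMod q) by
          rw [show (2 : ZMod q) ^ 6 * 3 ^ 3 = 1728 by norm_num]
          exact_mod_cast congrArg (Int.cast (R := ZMod q)) W.c_relation.symm]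
        exact mul_ne_zero (mul_ne_zero (pow_ne_zero _ h2') (pow_ne_zero _ h3'))
          fun h => hb ((ZMod.intCast_zmod_eq_zero_iff_dvd _ q).mp h)
      obtain ⟨-, eu⟩ := eq_zero_of_qG_qF4 (t := (t : ZMod q)) (u := 1) h2' h3' hcd
        (by
          have h := hz0 _ hqG
          rw [← eq_intCast (Int.castRingHom (ZMod q)), map_qG] at h
          simpa using h)
        (by
          have h := hz0 _ hqF
          rw [← eq_intCast (Int.castRingHom (ZMod q)), map_qF4] at h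
          simpa using h)
      exact one_ne_zero eu
  · have hPq : (P : ℚ) ≠ 0 := by exact_mod_cast hP0
    refine three_dvd_apOfModel_sub (1 / (4 * (P : ℚ)) * t) (1 / (4 * (P : ℚ)) * 1) hΔ hΔ' ?_ ?_
      hℓ hl hl' hℓ3
    · rw [hc4, qF4_smul]
      have h := congrArg (Int.castRingHom ℚ) hc₀
      rw [map_qF4] at h
      simp only [eq_intCast, Int.cast_one] at h
      rw [h]
      push_cast
      field_simp
      ring
    · rw [hc6, qF6_smul]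
      have h := congrArg (Int.castRingHom ℚ) (hd₀.trans (congrArg (4096 * ·) hd))
      rw [map_qF6] at h
      simp only [eq_intCast, Int.cast_one] at h
      rw [h]
      push_cast
      field_simp
      ring

/-- Irreducibility of the 3-torsion follows congruences. -/
theorem modRepIsIrreducible_three_of_congruent {W' : WeierstrassCurve ℤ} (hΔ : W.Δ ≠ 0)
    (h3 : W.ModRepIsIrreducible 3) (hΔ' : W'.Δ ≠ 0) (hW' : W'.IsSemistableModel)
    (hcong : Top.Congruent 3 W W') : W'.ModRepIsIrreducible 3 := by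
  have : Fact (Nat.Prime 3) := ⟨Nat.prime_three⟩
  obtain ⟨ℓ, hℓ, hℓS, hg, hℓ3, hne⟩ :=
    EC.Rep.exists_apOfModel_ne (p := 3) (by norm_num) h3 hΔ W'.Δ.natAbs.primeFactors
  have hg' : W'.IsGoodPrimeFor ℓ := fun h => hℓS
    (Nat.mem_primeFactors.mpr ⟨hℓ, Int.natCast_dvd.mp h, Int.natAbs_ne_zero.mpr hΔ'⟩)
  refine modRepIsIrreducible_of_apOfModel_ne hΔ' hW' (by norm_num) hℓ hg' hℓ3 fun h => hne ?_
  rw [← h, eq_comm, ← sub_eq_zero, ← Int.cast_sub, ZMod.intCast_zmod_eq_zero_iff_dvd]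
  exact hcong ℓ hℓ hg hg' hℓ3

/-- **Every semistable model starts a chain.** -/
theorem chainInput : Top.ChainInput Top.IsTwoAdicGood := by
  intro W hΔ hW
  rcases S51.result W hΔ hW with h3 | h5
  · by_cases ht : Top.TresAtThree W
    · exact chain_of_three switchFiveSsInput hΔ hW h3 ht
    · simp only [Top.TresAtThree, Classical.not_imp, not_not] at ht
      obtain ⟨W', hΔ', hW', hgood, hcong⟩ := exists_switch_three_good W hΔ hW ht.1 ht.2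
      exact .step 3 (Or.inl rfl) hΔ hW h3 hcong (fun _ => hgood)
        (fun _ h => absurd hgood h)
        (chain_of_three switchFiveSsInput hΔ' hW'
          (modRepIsIrreducible_three_of_congruent hΔ h3 hΔ' hW' hcong)
          (fun h => absurd (by exact_mod_cast h) hgood))
  · exact chain_of_five switchFiveSsInput switchFiveThreeInput hΔ hW h5

end Fermat.Agent.SwitchLocal
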