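import Mathlib
import Fermat.Prelude.Def_FLTPrelim_ModularRep
import Fermat.Agent.Arith.Places
import Fermat.Agent.EC.Torsion.Galois
import Fermat.Agent.Mazur.Fifteen.Five
import Fermat.Agent.Mazur.Fifteen.Line

/-!
# Semistable curves with large, nearly fifth-power-free discriminant have irreducible `E[5]`

A reducible `E[5]` gives `S = N / D` with `c₄³ N D⁵ = Δ (N² + 10 N D + 5 D²)³`; for a semistable
curve `D⁵ ∣ Δ` and `Δ ∣ N D⁵`, so `c₄` is at least about `N²`.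
-/

set_option autoImplicit false

namespace Fermat.Agent.SwitchLocal

open WeierstrassCurve

/-- The size inequality. -/
theorem false_of_sizes {N D Δ c B : ℤ} (hD1 : 1 ≤ D) (hDB : D ≤ B) (hB : 30 * B ^ 6 ≤ |Δ|)
    (hbig : 1000 * B ^ 35 * |c| ^ 3 < |Δ| ^ 6)
    (hrel : c ^ 3 * N * D ^ 5 = Δ * (N ^ 2 + 10 * N * D + 5 * D ^ 2) ^ 3)
    (hN : |N| ≤ 125 * |Δ|) (hΔN : |Δ| ≤ |N| * D ^ 5) : False := by
  set Q := N ^ 2 + 10 * N * D + 5 * D ^ 2 with hQ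
  have hD0 : (0 : ℤ) ≤ D := by omega
  have hB1 : 1 ≤ B := by omega
  have hD5 : D ^ 5 ≤ B ^ 5 := pow_le_pow_left₀ hD0 hDB 5
  have hΔpos : 0 < |Δ| := lt_of_lt_of_le (by positivity) hB
  have hN30 : 30 * B ≤ |N| := by
    have h1 : 30 * B * B ^ 5 ≤ |N| * B ^ 5 :=
      calc 30 * B * B ^ 5 = 30 * B ^ 6 := by ring
        _ ≤ |Δ| := hB
        _ ≤ |N| * D ^ 5 := hΔN
        _ ≤ |N| * B ^ 5 := by gcongr
    exact le_of_mul_le_mul_right h1 (by positivity)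
  have hQlow : N ^ 2 ≤ 2 * |Q| := by
    have hND : |N * D| ≤ |N| * B := by
      rw [abs_mul, abs_of_nonneg hD0]; gcongr
    have := neg_abs_le (N * D)
    have := le_abs_self Q
    nlinarith [mul_le_mul_of_nonneg_left hN30 (abs_nonneg N), sq_abs N, sq_nonneg D]
  have e : |c| ^ 3 * |N| * D ^ 5 = |Δ| * |Q| ^ 3 := by
    have h := congrArg abs hrel
    rwa [abs_mul, abs_mul, abs_mul, abs_pow, abs_pow, abs_pow, abs_of_nonneg hD0] at h
  have hQ3 : |Q| ^ 3 ≤ 125 * |c| ^ 3 * D ^ 5 := by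
    apply le_of_mul_le_mul_left _ hΔpos
    calc |Δ| * |Q| ^ 3 = |c| ^ 3 * |N| * D ^ 5 := e.symm
      _ ≤ |c| ^ 3 * (125 * |Δ|) * D ^ 5 := by gcongr
      _ = |Δ| * (125 * |c| ^ 3 * D ^ 5) := by ring
  have h6 : |Δ| ^ 6 ≤ 1000 * B ^ 35 * |c| ^ 3 :=
    calc |Δ| ^ 6 ≤ (|N| * D ^ 5) ^ 6 := by gcongr
      _ = (N ^ 2) ^ 3 * D ^ 30 := by rw [← sq_abs N]; ring
      _ ≤ (2 * |Q|) ^ 3 * D ^ 30 := by gcongr
      _ = 8 * |Q| ^ 3 * D ^ 30 := by ring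
      _ ≤ 8 * (125 * |c| ^ 3 * D ^ 5) * D ^ 30 := by gcongr
      _ = 1000 * D ^ 35 * |c| ^ 3 := by ring
      _ ≤ 1000 * B ^ 35 * |c| ^ 3 := by gcongr
  omega

/-- **Irreducibility mod 5 from sizes.** -/
theorem modRepIsIrreducible_five_of_large (W : WeierstrassCurve ℤ) (hW : W.IsSemistableModel)
    (hΔ : W.Δ ≠ 0) (B : ℕ) (hB : ∀ D : ℕ, (D : ℤ) ^ 5 ∣ W.Δ → D ≤ B)
    (hlarge : 30 * (B : ℤ) ^ 6 ≤ |W.Δ|)
    (hbig : 1000 * (B : ℤ) ^ 35 * |W.c₄| ^ 3 < |W.Δ| ^ 6) : W.ModRepIsIrreducible 5 := by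
  classical
  by_contra hred
  set E : WeierstrassCurve ℚ := W.map (Int.castRingHom ℚ) with hE
  have hΔE : E.Δ ≠ 0 := by
    rw [hE, WeierstrassCurve.map_Δ, eq_intCast]; exact_mod_cast hΔ
  have : E.IsElliptic := ⟨isUnit_iff_ne_zero.2 hΔE⟩
  have := Fermat.Agent.Arith.qBar_isGalois
  obtain ⟨P, hP0, hP5, hP⟩ := Mazur.Fifteen.exists_stable_point
    (K := AlgebraicClosure ℚ) E 5 (by norm_num)
    (EC.Torsion.natCard_torsionBy_algebraicClosureRat E (n := 5) (by norm_num)) hred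
  obtain ⟨S, -, h5⟩ := Mazur.Fifteen.exists_hauptmodul_five E hΔE P hP0 hP5 hP
  simp only [hE, WeierstrassCurve.map_Δ, WeierstrassCurve.map_c₄, eq_intCast] at h5
  have hrel : W.c₄ ^ 3 * S.num * (S.den : ℤ) ^ 5
      = W.Δ * (S.num ^ 2 + 10 * S.num * S.den + 5 * (S.den : ℤ) ^ 2) ^ 3 := by
    have hd : (S.den : ℚ) ≠ 0 := by exact_mod_cast S.den_ne_zero
    rw [← Rat.num_div_den S] at h5
    field_simp at h5
    apply Int.cast_injective (α := ℚ)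
    push_cast
    linear_combination h5
  have hred' : IsCoprime S.num (S.den : ℤ) :=
    Int.isCoprime_iff_nat_coprime.2 (by simpa using S.reduced)
  set N := S.num with hN
  set D : ℤ := (S.den : ℤ) with hD
  have hDQ : IsCoprime (D ^ 5) ((N ^ 2 + 10 * N * D + 5 * D ^ 2) ^ 3) := by
    refine IsCoprime.pow ?_
    have h' := (hred'.symm.pow_right (n := 2)).add_mul_left_right (10 * N + 5 * D)
    rwa [show N ^ 2 + D * (10 * N + 5 * D) = N ^ 2 + 10 * N * D + 5 * D ^ 2 by ring] at h'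
  have hD5 : D ^ 5 ∣ W.Δ := hDQ.dvd_of_dvd_mul_right (hrel ▸ dvd_mul_left _ _)
  have hNΔ : N ∣ 125 * W.Δ := by
    have h1 : N ∣ W.Δ * (5 * D ^ 2) ^ 3 := by
      have h2 : N ∣ W.Δ * (N ^ 2 + 10 * N * D + 5 * D ^ 2) ^ 3 :=
        hrel ▸ dvd_mul_of_dvd_left (dvd_mul_left _ _) _
      have h3 : (N ^ 2 + 10 * N * D + 5 * D ^ 2) - 5 * D ^ 2
          ∣ (N ^ 2 + 10 * N * D + 5 * D ^ 2) ^ 3 - (5 * D ^ 2) ^ 3 := sub_dvd_pow_sub_pow _ _ _
      have h4 : N ∣ (N ^ 2 + 10 * N * D + 5 * D ^ 2) - 5 * D ^ 2 := ⟨N + 10 * D, by ring⟩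
      simpa [mul_sub] using dvd_sub h2 ((h4.trans h3).mul_left W.Δ)
    have h5' : N ∣ 125 * W.Δ * D ^ 6 := by convert h1 using 1; ring
    exact (hred'.pow_right (n := 6)).dvd_of_dvd_mul_right h5'
  have hΔN : W.Δ ∣ N * D ^ 5 := by
    have hco : IsCoprime W.Δ W.c₄ := by
      refine isCoprime_of_prime_dvd (fun h => hΔ h.1) fun p hp hd hc => ?_
      have hp' : p.natAbs.Prime := Int.prime_iff_natAbs_prime.mp hp
      exact hW p.natAbs hp' (Int.natAbs_dvd.mpr hd) (Int.natAbs_dvd.mpr hc)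
    refine (hco.pow_right (n := 3)).dvd_of_dvd_mul_left ?_
    rw [← mul_assoc, hrel]
    exact dvd_mul_right _ _
  have hND : N * D ^ 5 ≠ 0 := by
    refine mul_ne_zero (fun h => ?_) (pow_ne_zero _ (Int.natCast_ne_zero.mpr S.den_ne_zero))
    rw [h, mul_zero, zero_mul] at hrel
    rcases mul_eq_zero.mp hrel.symm with h' | h'
    · exact hΔ h'
    · rw [pow_eq_zero_iff three_ne_zero] at h'
      simp only [ne_eq, OfNat.ofNat_ne_zero, not_false_eq_true, zero_pow, mul_zero, zero_mul,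
        zero_add, mul_eq_zero, OfNat.ofNat_ne_zero, false_or, pow_eq_zero_iff] at h'
      exact S.den_ne_zero (Int.natCast_eq_zero.mp h')
  refine false_of_sizes (D := D) (B := (B : ℤ)) (by rw [hD]; exact_mod_cast S.pos)
    (by rw [hD]; exact_mod_cast hB S.den hD5) hlarge hbig hrel ?_ ?_
  · calc |N| ≤ |125 * W.Δ| :=
          Int.le_of_dvd (abs_pos.mpr (mul_ne_zero (by norm_num) hΔ)) ((abs_dvd_abs _ _).mpr hNΔ)
      _ = 125 * |W.Δ| := by rw [abs_mul]; rfl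
  · calc |W.Δ| ≤ |N * D ^ 5| := Int.le_of_dvd (abs_pos.mpr hND) ((abs_dvd_abs _ _).mpr hΔN)
      _ = |N| * D ^ 5 := by rw [abs_mul, abs_pow, hD, Nat.abs_cast]

end Fermat.Agent.SwitchLocal
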