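import Mathlib

/-!
# The binary forms of the twisted `X(3)` family

For invariants `(c, d)` the member with parameter `(t, u)` has invariants `(qF4, qF6)` and its
discriminant is the old one times `qG ^ 3`. `tD`, `tC4`, `tC6` are the tetrahedral forms.
-/

set_option autoImplicit false
set_option linter.unusedSectionVars false

namespace Fermat.Agent.SwitchLocal

variable {R : Type*} [CommRing R]

/-- The 3-division quartic, as a binary form. -/
def qG (c d t u : R) : R :=
  t ^ 4 - 6 * c * t ^ 2 * u ^ 2 - 8 * d * t * u ^ 3 - 3 * c ^ 2 * u ^ 4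

/-- The invariant `c₄` of the family. -/
def qF4 (c d t u : R) : R :=
  c * t ^ 4 + 4 * d * t ^ 3 * u + 6 * c ^ 2 * t ^ 2 * u ^ 2 + 4 * c * d * t * u ^ 3
    + (4 * d ^ 2 - 3 * c ^ 3) * u ^ 4

/-- The invariant `c₆` of the family. -/
def qF6 (c d t u : R) : R :=
  d * t ^ 6 + 6 * c ^ 2 * t ^ 5 * u + 15 * c * d * t ^ 4 * u ^ 2 + 20 * d ^ 2 * t ^ 3 * u ^ 3
    + 15 * c ^ 2 * d * t ^ 2 * u ^ 4 + (18 * c ^ 4 - 12 * c * d ^ 2) * t * u ^ 5
    + (9 * c ^ 3 * d - 8 * d ^ 3) * u ^ 6

theorem qF4_cube_sub_qF6_sq (c d t u : R) :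
    qF4 c d t u ^ 3 - qF6 c d t u ^ 2 = (c ^ 3 - d ^ 2) * qG c d t u ^ 3 := by
  simp only [qF4, qF6, qG]; ring

/-- The image of a root of `qG c d · 1` in the new curve. -/
def qR (c d t u l : R) : R :=
  t ^ 2 * l + t * u * (l ^ 2 - 3 * c) + u ^ 2 * (l ^ 3 - 6 * l * c - 6 * d)

/-- The factor multiplying ordinates. -/
def qS (c d t u l : R) : R :=
  t ^ 3 + l * t ^ 2 * u + (l ^ 2 - 6 * c) * t * u ^ 2 + (l ^ 3 - 6 * c * l - 8 * d) * u ^ 3

theorem qS_mul_sub (c d t u l : R) :
    qS c d t u l * (t - l * u) = qG c d t u - u ^ 4 * qG c d l 1 := by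
  simp only [qS, qG]; ring

theorem qG_one_zero (c d : R) : qG c d 1 0 = 1 := by simp only [qG]; ring
theorem qF4_one_zero (c d : R) : qF4 c d 1 0 = c := by simp only [qF4]; ring
theorem qF6_one_zero (c d : R) : qF6 c d 1 0 = d := by simp only [qF6]; ring

theorem qG_smul (c d k t u : R) : qG c d (k * t) (k * u) = k ^ 4 * qG c d t u := by
  simp only [qG]; ring

theorem qF4_smul (c d k t u : R) : qF4 c d (k * t) (k * u) = k ^ 4 * qF4 c d t u := by
  simp only [qF4]; ring

theorem qF6_smul (c d k t u : R) : qF6 c d (k * t) (k * u) = k ^ 6 * qF6 c d t u := by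
  simp only [qF6]; ring

variable {S : Type*} [CommRing S]

theorem map_qG (f : R →+* S) (c d t u : R) :
    f (qG c d t u) = qG (f c) (f d) (f t) (f u) := by
  simp [qG, map_ofNat]

theorem map_qF4 (f : R →+* S) (c d t u : R) :
    f (qF4 c d t u) = qF4 (f c) (f d) (f t) (f u) := by
  simp [qF4, map_ofNat]

theorem map_qF6 (f : R →+* S) (c d t u : R) :
    f (qF6 c d t u) = qF6 (f c) (f d) (f t) (f u) := by
  simp [qF6, map_ofNat]

theorem map_qR (f : R →+* S) (c d t u l : R) :
    f (qR c d t u l) = qR (f c) (f d) (f t) (f u) (f l) := by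
  simp [qR, map_ofNat]

theorem map_qS (f : R →+* S) (c d t u l : R) :
    f (qS c d t u l) = qS (f c) (f d) (f t) (f u) (f l) := by
  simp [qS, map_ofNat]

/-- The tetrahedral form of degree 4 vanishing at the cusps. -/
def tD (r s : R) : R := r ^ 3 * s - 27 * s ^ 4

/-- The tetrahedral invariant of degree 4. -/
def tC4 (r s : R) : R := r ^ 4 + 216 * r * s ^ 3

/-- The tetrahedral invariant of degree 6. -/
def tC6 (r s : R) : R := r ^ 6 - 540 * r ^ 3 * s ^ 3 - 5832 * s ^ 6

/-- First coordinate of the point with parameter `(t, u)`. -/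
def tMovR (t u r s : R) : R := t * r + u * (r ^ 3 - 108 * s ^ 3)

/-- Second coordinate of the point with parameter `(t, u)`. -/
def tMovS (t u r s : R) : R := t * s - 3 * u * r ^ 2 * s

theorem qF4_tC (t u r s : R) :
    qF4 (tC4 r s) (tC6 r s) t u = tC4 (tMovR t u r s) (tMovS t u r s) := by
  simp only [qF4, tC4, tC6, tMovR, tMovS]; ring

theorem qF6_tC (t u r s : R) :
    qF6 (tC4 r s) (tC6 r s) t u = tC6 (tMovR t u r s) (tMovS t u r s) := by
  simp only [qF6, tC4, tC6, tMovR, tMovS]; ring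

theorem tC4_cube_sub_tC6_sq (r s : R) : tC4 r s ^ 3 - tC6 r s ^ 2 = 1728 * tD r s ^ 3 := by
  simp only [tC4, tC6, tD]; ring

section Field

variable {K : Type*} [Field K] [CharZero K]

/-- Every nondegenerate pair of invariants is a value of the tetrahedral forms. -/
theorem exists_tC_eq [IsAlgClosed K] {c d : K} (h : c ^ 3 - d ^ 2 ≠ 0) :
    ∃ r s : K, tC4 r s = c ∧ tC6 r s = d := by
  obtain ⟨l, hl, hl0⟩ : ∃ l : K, qG c d l 1 = 0 ∧ l ≠ 0 := by
    by_cases hc : c = 0
    · subst hc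
      obtain ⟨l, hl⟩ := IsAlgClosed.exists_pow_nat_eq (8 * d) (show 0 < 3 by norm_num)
      have hd : d ≠ 0 := fun e => h (by simp [e])
      refine ⟨l, by simp only [qG]; linear_combination l * hl, fun e => hd ?_⟩
      simpa [e] using hl.symm
    · open Polynomial in
      obtain ⟨l, hl⟩ := IsAlgClosed.exists_root (X ^ 4 + C (-6 * c) * X ^ 2 + C (-8 * d) * X
          + C (-3 * c ^ 2) : K[X]) (by
        rw [show (X ^ 4 + C (-6 * c) * X ^ 2 + C (-8 * d) * X + C (-3 * c ^ 2) : K[X]).degree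
          = (4 : ℕ) by compute_degree!]
        norm_num)
      simp only [IsRoot.def, eval_add, eval_pow, eval_X, eval_mul, eval_C] at hl
      refine ⟨l, by simp only [qG]; linear_combination hl, fun e => hc ?_⟩
      simpa [e] using hl
  obtain ⟨r, hr⟩ := IsAlgClosed.exists_pow_nat_eq (l / 3) (show 0 < 2 by norm_num)
  have hl3 : 3 * r ^ 2 = l := by rw [hr]; field_simp
  have hr0 : r ≠ 0 := fun e => hl0 (by simp [← hl3, e])
  obtain ⟨s, hs⟩ :=
    IsAlgClosed.exists_pow_nat_eq ((c - r ^ 4) / (216 * r)) (show 0 < 3 by norm_num)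
  have h4 : tC4 r s = c := by
    rw [tC4, hs]; field_simp; ring
  refine ⟨r, s, h4, ?_⟩
  have key : qG (tC4 r s) (tC6 r s) (3 * r ^ 2) 1 = 0 := by
    simp only [qG, tC4, tC6]; ring
  rw [h4, hl3] at key
  apply mul_left_cancel₀ (show 8 * l ≠ 0 by simp [hl0])
  simp only [qG] at key hl
  linear_combination hl - key

end Field

end Fermat.Agent.SwitchLocal
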