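import Mathlib
import Fermat.Prelude.Def_FLTPrelim_Modularity

/-!
# Integral models with prescribed invariants `c₄`, `c₆` (Kraus' conditions, good or nodal at 2)
-/

set_option autoImplicit false

namespace Fermat.Agent.SwitchLocal

open WeierstrassCurve

/-- The condition at `3` on a pair of invariants. -/
def OkAtThree (d : ℤ) : Prop := ¬ (3 : ℤ) ∣ d ∨ (27 : ℤ) ∣ d

/-- The condition at `2` on a pair of invariants: not supersingular. -/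
def OrdAtTwo (c d : ℤ) : Prop := ¬ (2 : ℤ) ∣ c ∧ (4 : ℤ) ∣ d - 3

/-- The condition at `2` on a pair of invariants: supersingular. -/
def SsAtTwo (c d : ℤ) : Prop := (16 : ℤ) ∣ c ∧ (32 : ℤ) ∣ d - 8

theorem mod_three_cases : ∀ b c d : ZMod 27,
    b = -4 ∨ b = 0 ∨ b = 4 ∨ b = -3 ∨ b = 1 ∨ b = 5 → c ^ 3 = d ^ 2 →
    ((3 : ℕ) ∣ (b + d).val) → (¬ (3 : ℕ) ∣ d.val ∨ d = 0) →
    (3 : ℕ) ∣ (b ^ 2 - c).val ∧ b ^ 3 - 3 * b * c - 2 * d = 0 := by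
  have h : ∀ b : ZMod 27, b = -4 ∨ b = 0 ∨ b = 4 ∨ b = -3 ∨ b = 1 ∨ b = 5 → ∀ c d : ZMod 27,
      c ^ 3 = d ^ 2 → ((3 : ℕ) ∣ (b + d).val) → (¬ (3 : ℕ) ∣ d.val ∨ d = 0) →
      (3 : ℕ) ∣ (b ^ 2 - c).val ∧ b ^ 3 - 3 * b * c - 2 * d = 0 := by
    rintro b (rfl | rfl | rfl | rfl | rfl | rfl) <;> decide +kernel
  exact fun b c d hb => h b hb c d

theorem dvd_val_iff {m : ℕ} [NeZero m] {k : ℕ} (hk : k ∣ m) (x : ℤ) :
    k ∣ ((x : ZMod m)).val ↔ (k : ℤ) ∣ x := by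
  rw [← Int.natCast_dvd_natCast, ZMod.val_intCast]
  exact (Int.emod_emod_of_dvd x (Int.natCast_dvd_natCast.mpr hk) ▸ Int.dvd_iff_emod_eq_zero ..).trans
    (Int.dvd_iff_emod_eq_zero ..).symm

theorem at_three {b c d Δ : ℤ} (hb : b ∈ ({-4, 0, 4, -3, 1, 5} : Set ℤ)) (h3 : OkAtThree d)
    (hrel : c ^ 3 - d ^ 2 = 1728 * Δ) (hbd : (3 : ℤ) ∣ b + d) :
    (3 : ℤ) ∣ b ^ 2 - c ∧ (27 : ℤ) ∣ b ^ 3 - 3 * b * c - 2 * d := by
  have key := mod_three_cases (b : ZMod 27) c d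
    (by
      simp only [Set.mem_insert_iff, Set.mem_singleton_iff] at hb
      rcases hb with rfl | rfl | rfl | rfl | rfl | rfl <;> simp)
    (by
      rw [← sub_eq_zero, ← Int.cast_pow, ← Int.cast_pow, ← Int.cast_sub, hrel,
        ZMod.intCast_zmod_eq_zero_iff_dvd]
      exact ⟨64 * Δ, by ring⟩)
    (by
      rw [← Int.cast_add, dvd_val_iff (by norm_num)]
      exact hbd)
    (by
      rw [dvd_val_iff (by norm_num), ZMod.intCast_zmod_eq_zero_iff_dvd]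
      exact_mod_cast h3)
  rw [← Int.cast_pow, ← Int.cast_sub, dvd_val_iff (by norm_num)] at key
  refine ⟨key.1, (ZMod.intCast_zmod_eq_zero_iff_dvd _ 27).mp ?_⟩
  push_cast
  exact key.2

theorem model_of_choices {c d a₁ a₂ a₃ : ℤ} (ha₃ : a₃ = 0 ∨ a₃ = 1)
    (h3 : (3 : ℤ) ∣ (a₁ ^ 2 + 4 * a₂) ^ 2 - c)
    (h27 : (27 : ℤ) ∣ (a₁ ^ 2 + 4 * a₂) ^ 3 - 3 * (a₁ ^ 2 + 4 * a₂) * c - 2 * d)
    (h16 : (16 : ℤ) ∣ (a₁ ^ 2 + 4 * a₂) ^ 2 - c - 24 * (a₁ * a₃))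
    (h64 : (64 : ℤ) ∣ (a₁ ^ 2 + 4 * a₂) ^ 3 - 3 * (a₁ ^ 2 + 4 * a₂) * c - 2 * d - 432 * a₃) :
    ∃ W : WeierstrassCurve ℤ, W.c₄ = c ∧ W.c₆ = d := by
  set b := a₁ ^ 2 + 4 * a₂ with hb
  obtain ⟨a₄, h4⟩ : (48 : ℤ) ∣ b ^ 2 - c - 24 * (a₁ * a₃) := by
    have : (3 : ℤ) ∣ b ^ 2 - c - 24 * (a₁ * a₃) := dvd_sub h3 ⟨8 * (a₁ * a₃), by ring⟩
    omega
  obtain ⟨a₆, h6⟩ : (1728 : ℤ) ∣ b ^ 3 - 3 * b * c - 2 * d - 432 * a₃ := by
    have : (27 : ℤ) ∣ b ^ 3 - 3 * b * c - 2 * d - 432 * a₃ := dvd_sub h27 ⟨16 * a₃, by ring⟩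
    omega
  refine ⟨⟨a₁, a₂, a₃, a₄, a₆⟩, ?_, ?_⟩
  · simp only [WeierstrassCurve.c₄, WeierstrassCurve.b₂, WeierstrassCurve.b₄]
    linear_combination h4
  · have hsq : a₃ ^ 2 = a₃ := by rcases ha₃ with rfl | rfl <;> norm_num
    simp only [WeierstrassCurve.c₆, WeierstrassCurve.b₂, WeierstrassCurve.b₄,
      WeierstrassCurve.b₆, hsq]
    have e : (b : ℤ) ^ 3 - 3 * b * c - 2 * d = 432 * a₃ + 1728 * a₆ := by linarith
    have e4 : c = b ^ 2 - 24 * (a₁ * a₃) - 48 * a₄ := by linarith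
    rw [e4] at e
    apply mul_left_cancel₀ (show (2 : ℤ) ≠ 0 by norm_num)
    rw [hb] at e
    linear_combination e

theorem mod_two_ord : ∀ b c d : ZMod 64, b = -3 ∨ b = 1 ∨ b = 5 →
    c.val % 8 = 1 → d.val % 4 = 3 → c ^ 3 = d ^ 2 →
    ((16 : ℕ) ∣ (b ^ 2 - c).val ∧ b ^ 3 - 3 * b * c - 2 * d = 0) ∨
    ((16 : ℕ) ∣ (b ^ 2 - c - 24).val ∧ b ^ 3 - 3 * b * c - 2 * d - 432 = 0) := by
  have h : ∀ b : ZMod 64, b = -3 ∨ b = 1 ∨ b = 5 → ∀ c : ZMod 64, c.val % 8 = 1 →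
      ∀ d : ZMod 64, d.val % 4 = 3 → c ^ 3 = d ^ 2 →
      ((16 : ℕ) ∣ (b ^ 2 - c).val ∧ b ^ 3 - 3 * b * c - 2 * d = 0) ∨
      ((16 : ℕ) ∣ (b ^ 2 - c - 24).val ∧ b ^ 3 - 3 * b * c - 2 * d - 432 = 0) := by
    rintro b (rfl | rfl | rfl) <;> decide +kernel
  exact fun b c d hb hc => h b hb c hc d

theorem cube_eq_sq_mod_eight : ∀ c d : ZMod 8, c ^ 3 = d ^ 2 → ¬ (2 : ℕ) ∣ c.val →
    c = 1 := by decide +kernel

/-- Integral models exist for nondegenerate invariants satisfying the local conditions. -/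
theorem exists_model {c d Δ : ℤ} (hrel : c ^ 3 - d ^ 2 = 1728 * Δ) (h3 : OkAtThree d)
    (h2 : OrdAtTwo c d ∨ SsAtTwo c d) :
    ∃ W : WeierstrassCurve ℤ, W.c₄ = c ∧ W.c₆ = d ∧ W.Δ = Δ := by
  suffices h : ∃ W : WeierstrassCurve ℤ, W.c₄ = c ∧ W.c₆ = d by
    obtain ⟨W, h4, h6⟩ := h
    refine ⟨W, h4, h6, ?_⟩
    have := W.c_relation
    rw [h4, h6, hrel] at this
    linarith
  rcases h2 with ⟨hc, hd⟩ | ⟨hc, hd⟩
  · -- `a₁ = 1`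
    obtain ⟨a₂, ha₂, hbd⟩ : ∃ a₂ : ℤ, (a₂ = -1 ∨ a₂ = 0 ∨ a₂ = 1) ∧ (3 : ℤ) ∣ 1 + 4 * a₂ + d := by
      rcases (show d % 3 = 0 ∨ d % 3 = 2 ∨ d % 3 = 1 by omega) with h | h | h
      · exact ⟨-1, by simp, by omega⟩
      · exact ⟨0, by simp, by omega⟩
      · exact ⟨1, by simp, by omega⟩
    have hb3 := at_three (b := 1 + 4 * a₂)
      (by rcases ha₂ with rfl | rfl | rfl <;> simp) h3 hrel hbd
    have e64 : ((c : ZMod 64)) ^ 3 = (d : ZMod 64) ^ 2 := by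
      rw [← sub_eq_zero, ← Int.cast_pow, ← Int.cast_pow, ← Int.cast_sub, hrel,
        ZMod.intCast_zmod_eq_zero_iff_dvd]
      exact ⟨27 * Δ, by ring⟩
    have e8 : (c : ZMod 8) = 1 := cube_eq_sq_mod_eight c d (by
      rw [← sub_eq_zero, ← Int.cast_pow, ← Int.cast_pow, ← Int.cast_sub, hrel,
        ZMod.intCast_zmod_eq_zero_iff_dvd]
      exact ⟨216 * Δ, by ring⟩)
      (by rw [dvd_val_iff (by norm_num)]; exact hc)
    have hc8 : (8 : ℤ) ∣ c - 1 := (ZMod.intCast_zmod_eq_zero_iff_dvd _ 8).mp (by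
      push_cast; rw [e8, sub_self])
    have hcv : ((c : ZMod 64)).val % 8 = 1 := by
      have : ((((c : ZMod 64)).val : ℕ) : ℤ) = c % 64 := ZMod.val_intCast c
      omega
    have hdv : ((d : ZMod 64)).val % 4 = 3 := by
      have : ((((d : ZMod 64)).val : ℕ) : ℤ) = d % 64 := ZMod.val_intCast d
      omega
    rcases mod_two_ord ((1 + 4 * a₂ : ℤ) : ZMod 64) c d
      (by rcases ha₂ with rfl | rfl | rfl <;> simp) hcv hdv e64 with ⟨h16, h64⟩ | ⟨h16, h64⟩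
    · rw [← Int.cast_pow, ← Int.cast_sub, dvd_val_iff (by norm_num)] at h16
      refine model_of_choices (a₁ := 1) (a₂ := a₂) (a₃ := 0) (Or.inl rfl) (by simpa using hb3.1)
        (by simpa using hb3.2) (by simpa using h16)
        ((ZMod.intCast_zmod_eq_zero_iff_dvd _ 64).mp ?_)
      push_cast
      push_cast at h64
      simpa using h64
    · rw [← Int.cast_pow, ← Int.cast_sub, show (24 : ZMod 64) = ((24 : ℤ) : ZMod 64) by simp,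
        ← Int.cast_sub, dvd_val_iff (by norm_num)] at h16
      refine model_of_choices (a₁ := 1) (a₂ := a₂) (a₃ := 1) (Or.inr rfl) (by simpa using hb3.1)
        (by simpa using hb3.2) (by simpa using h16)
        ((ZMod.intCast_zmod_eq_zero_iff_dvd _ 64).mp ?_)
      push_cast
      push_cast at h64
      simpa using h64
  · -- `a₁ = 0`
    obtain ⟨a₂, ha₂, hbd⟩ : ∃ a₂ : ℤ, (a₂ = -1 ∨ a₂ = 0 ∨ a₂ = 1) ∧ (3 : ℤ) ∣ 4 * a₂ + d := by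
      rcases (show d % 3 = 1 ∨ d % 3 = 0 ∨ d % 3 = 2 by omega) with h | h | h
      · exact ⟨-1, by simp, by omega⟩
      · exact ⟨0, by simp, by omega⟩
      · exact ⟨1, by simp, by omega⟩
    have hb3 := at_three (b := 4 * a₂) (by rcases ha₂ with rfl | rfl | rfl <;> simp) h3 hrel hbd
    obtain ⟨g, rfl⟩ := hc
    obtain ⟨j, hj⟩ := hd
    refine model_of_choices (a₁ := 0) (a₂ := a₂) (a₃ := 1) (Or.inr rfl) (by simpa using hb3.1)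
      (by simpa using hb3.2) ⟨a₂ ^ 2 - g, by ring⟩
      ⟨a₂ ^ 3 - 3 * a₂ * g - j - 7, by linear_combination -2 * hj⟩

end Fermat.Agent.SwitchLocal
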