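import Mathlib
import Fermat.Agent.SwitchLocal.Forms3
import Fermat.Agent.SwitchLocal.Kraus

/-!
# Local parameter classes of the twisted `X(3)` family
-/

set_option autoImplicit false

namespace Fermat.Agent.SwitchLocal

/-- Exactly `n` factors `q` in `x`. -/
def ExactPow (q : ℕ) (n : ℕ) (x : ℤ) : Prop :=
  (q : ℤ) ^ n ∣ x ∧ ¬ (q : ℤ) ^ (n + 1) ∣ x

theorem dvd_of_congr {M x y : ℤ} (h : M ∣ x - y) {k : ℤ} (hk : k ∣ M) : k ∣ x ↔ k ∣ y :=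
  dvd_iff_dvd_of_dvd_sub (hk.trans h)

theorem ExactPow.congr {q n : ℕ} {M x y : ℤ} (h : M ∣ x - y) (hk : (q : ℤ) ^ (n + 1) ∣ M) :
    ExactPow q n y → ExactPow q n x := fun hy =>
  ⟨(dvd_of_congr h ((pow_dvd_pow _ n.le_succ).trans hk)).mpr hy.1,
    fun hx => hy.2 ((dvd_of_congr h hk).mp hx)⟩

/-- The three forms are congruent at congruent parameters. -/
theorem forms_congr {M t t' u u' : ℤ} (c d : ℤ) (ht : M ∣ t - t') (hu : M ∣ u - u') :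
    M ∣ qG c d t u - qG c d t' u' ∧ M ∣ qF4 c d t u - qF4 c d t' u' ∧
      M ∣ qF6 c d t u - qF6 c d t' u' := by
  rw [← Ideal.mem_span_singleton, ← Ideal.Quotient.eq_zero_iff_mem] at ht hu
  rw [map_sub, sub_eq_zero] at ht hu
  refine ⟨?_, ?_, ?_⟩
  all_goals rw [← Ideal.mem_span_singleton, ← Ideal.Quotient.eq_zero_iff_mem, map_sub, sub_eq_zero]
  · rw [map_qG, map_qG, ht, hu]
  · rw [map_qF4, map_qF4, ht, hu]
  · rw [map_qF6, map_qF6, ht, hu]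

/-- A lifting lemma: exact valuations are attained near a simple root modulo `q`. -/
theorem exists_exactPow {q : ℕ} (hq : q.Prime) (f df : ℤ → ℤ)
    (hf : ∀ y h, h ^ 2 ∣ f (y + h) - f y - df y * h) (y₀ : ℤ)
    (hdf : ∀ y, (q : ℤ) ∣ y - y₀ → ¬ (q : ℤ) ∣ df y) (h0 : (q : ℤ) ∣ f y₀) {n : ℕ} (hn : 1 ≤ n) :
    ∃ y, (q : ℤ) ∣ y - y₀ ∧ ExactPow q n (f y) := by
  have hqi : Prime (q : ℤ) := Nat.prime_iff_prime_int.mp hq
  have hex : ∃ y, (q : ℤ) ∣ y - y₀ ∧ (q : ℤ) ^ n ∣ f y := by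
    induction n, hn using Nat.le_induction with
    | base => exact ⟨y₀, by simp, by simpa using h0⟩
    | succ m hm ih =>
      obtain ⟨y, hy, w, hw⟩ := ih
      obtain ⟨a, b, hab⟩ := (hqi.coprime_iff_not_dvd.mpr (hdf y hy))
      refine ⟨y + (q : ℤ) ^ m * (-(w * b)), ?_, ?_⟩
      · rw [add_sub_right_comm]
        exact dvd_add hy (dvd_mul_of_dvd_left (dvd_pow_self _ (by omega)) _)
      · obtain ⟨R, hR⟩ := hf y ((q : ℤ) ^ m * (-(w * b)))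
        rw [sub_sub, sub_eq_iff_eq_add] at hR
        have h2 : (q : ℤ) ^ (m + 1) ∣ ((q : ℤ) ^ m * (-(w * b))) ^ 2 * R :=
          dvd_mul_of_dvd_left (by
            rw [mul_pow, ← pow_mul]
            exact dvd_mul_of_dvd_left (pow_dvd_pow _ (by omega)) _) _
        rw [hR]
        refine dvd_add h2 ⟨w * a, ?_⟩
        rw [hw, pow_succ]
        linear_combination -((q : ℤ) ^ m * w) * hab
  obtain ⟨y, hy, hyn⟩ := hex
  by_cases hnext : (q : ℤ) ^ (n + 1) ∣ f y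
  · refine ⟨y + (q : ℤ) ^ n, by rw [add_sub_right_comm]; exact dvd_add hy (dvd_pow_self _ (by omega)),
      ?_⟩
    obtain ⟨R, hR⟩ := hf y ((q : ℤ) ^ n)
    rw [sub_sub, sub_eq_iff_eq_add] at hR
    rw [hR]
    have h2 : (q : ℤ) ^ (n + 1) ∣ ((q : ℤ) ^ n) ^ 2 * R :=
      dvd_mul_of_dvd_left (by rw [← pow_mul]; exact pow_dvd_pow _ (by omega)) _
    refine ⟨dvd_add ((pow_dvd_pow _ n.le_succ).trans h2)
      (dvd_add hyn (dvd_mul_left _ _)), fun h => hdf y hy ?_⟩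
    rw [dvd_add_right h2, dvd_add_right hnext, pow_succ, mul_comm (df y)] at h
    exact (mul_dvd_mul_iff_left (pow_ne_zero n hqi.ne_zero)).mp h
  · exact ⟨y, hy, hyn, hnext⟩

section Odd

variable {c d : ℤ}

/-- The data at an odd prime: `q ^ n` exactly divides `qG`, `qF4` is prime to `q`. -/
def CuspClass (q n : ℕ) (c d t u : ℤ) : Prop :=
  ExactPow q n (qG c d t u) ∧ ¬ (q : ℤ) ∣ qF4 c d t u

theorem qG_step (c d y h : ℤ) :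
    h ^ 2 ∣ qG c d (y + h) 1 - qG c d y 1 - (4 * y ^ 3 - 12 * c * y - 8 * d) * h :=
  ⟨6 * y ^ 2 + 4 * y * h + h ^ 2 - 6 * c, by simp only [qG]; ring⟩

/-- Near the rational cusp every valuation is attained. -/
theorem exists_cuspClass {q : ℕ} (hq : q.Prime) (hq2 : q ≠ 2) {Δ : ℤ}
    (hrel : c ^ 3 - d ^ 2 = 1728 * Δ) (hΔ : (q : ℤ) ∣ Δ) (hc : ¬ (q : ℤ) ∣ c) {n : ℕ}
    (hn : 1 ≤ n) : ∃ t₀, CuspClass q n c d t₀ 1 := by
  have : Fact q.Prime := ⟨hq⟩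
  have hz : ∀ x : ℤ, (q : ℤ) ∣ x ↔ (x : ZMod q) = 0 := fun x =>
    (ZMod.intCast_zmod_eq_zero_iff_dvd x q).symm
  rw [hz] at hΔ hc
  have hd2 : (d : ZMod q) ^ 2 = (c : ZMod q) ^ 3 := by
    have := congrArg (Int.cast (R := ZMod q)) hrel
    push_cast at this
    rw [hΔ, mul_zero, sub_eq_zero] at this
    exact this.symm
  have hd : (d : ZMod q) ≠ 0 := fun h => hc (by simpa [h] using hd2.symm)
  have h2 : (2 : ZMod q) ≠ 0 := fun h => hq2 ((Nat.prime_dvd_prime_iff_eq hq Nat.prime_two).mp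
    ((ZMod.natCast_eq_zero_iff 2 q).mp (by simpa using h)))
  obtain ⟨k, hk⟩ := ZMod.intCast_surjective (3 * (d : ZMod q) / (c : ZMod q))
  have hk' : (k : ZMod q) * c = 3 * d := by rw [hk]; field_simp
  have hcongr : ∀ y : ℤ, (q : ℤ) ∣ y - k → (y : ZMod q) = k := fun y hy => by
    rw [← sub_eq_zero, ← Int.cast_sub]; exact (hz _).mp hy
  obtain ⟨t₀, ht, hex⟩ := exists_exactPow hq (fun y => qG c d y 1)
    (fun y => 4 * y ^ 3 - 12 * c * y - 8 * d) (qG_step c d) k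
    (fun y hy => by
      rw [hz]; push_cast; rw [hcongr y hy]
      intro h
      apply mul_ne_zero (pow_ne_zero 6 h2) (mul_ne_zero hd (pow_ne_zero 3 hc))
      linear_combination (c : ZMod q) ^ 3 * h
        - (4 * ((k : ZMod q) ^ 2 * c ^ 2 + 3 * d * k * c + 9 * d ^ 2) - 12 * c ^ 3) * hk'
        - 108 * (d : ZMod q) * hd2)
    ((hz _).mpr (by
      simp only [qG]
      push_cast
      apply mul_left_cancel₀ (pow_ne_zero 4 hc)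
      rw [mul_zero]
      linear_combination ((k * c + 3 * d) * ((k : ZMod q) ^ 2 * c ^ 2 + 9 * d ^ 2)
        - 6 * c ^ 3 * (k * c + 3 * d) - 8 * d * c ^ 3) * hk'
        + (81 * (d : ZMod q) ^ 2 + 3 * c ^ 3) * hd2)) hn
  refine ⟨t₀, hex, fun h => ?_⟩
  rw [hz] at h
  simp only [qF4] at h
  push_cast at h
  rw [hcongr t₀ ht] at h
  apply mul_ne_zero (pow_ne_zero 8 h2) (mul_ne_zero (pow_ne_zero 2 hd) (pow_ne_zero 3 hc))
  linear_combination (c : ZMod q) ^ 3 * h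
    - ((k * c + 3 * d) * ((k : ZMod q) ^ 2 * c ^ 2 + 9 * d ^ 2)
      + 4 * d * ((k : ZMod q) ^ 2 * c ^ 2 + 3 * d * k * c + 9 * d ^ 2)
      + 6 * c ^ 3 * (k * c + 3 * d) + 4 * d * c ^ 3) * hk'
    - (189 * (d : ZMod q) ^ 2 + 3 * c ^ 3) * hd2

end Odd

section Two

variable {c d : ℤ}

/-- The data at 2: new invariants `qF4 / 256`, `qF6 / 4096` are ordinary, `2 ^ n ∥ qG / 256`. -/
def TwoClass (n : ℕ) (c d t u : ℤ) : Prop :=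
  ExactPow 2 (8 + n) (qG c d t u) ∧ ExactPow 2 8 (qF4 c d t u) ∧
    (16384 : ℤ) ∣ qF6 c d t u - 12288

/-- Divisibility through an odd factor. -/
theorem two_pow_dvd_iff {m : ℤ} (hm : ¬ (2 : ℤ) ∣ m) (j : ℕ) (x : ℤ) :
    (2 : ℤ) ^ j ∣ m * x ↔ (2 : ℤ) ^ j ∣ x :=
  ⟨fun h => ((Int.prime_two.coprime_iff_not_dvd.mpr hm).pow_left).dvd_of_dvd_mul_left h,
    fun h => dvd_mul_of_dvd_right h m⟩

theorem exactPow_of_odd_mul {m x : ℤ} (hm : ¬ (2 : ℤ) ∣ m) {n : ℕ}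
    (h : ExactPow 2 n (m * x)) : ExactPow 2 n x := by
  unfold ExactPow at h ⊢
  push_cast at h ⊢
  rw [two_pow_dvd_iff hm, two_pow_dvd_iff hm] at h
  exact h

theorem exactPow_mul_two_pow {n k : ℕ} {x : ℤ} (h : ExactPow 2 n x) :
    ExactPow 2 (k + n) (2 ^ k * x) := by
  unfold ExactPow at h ⊢
  push_cast at h ⊢
  rw [pow_add, add_assoc, pow_add, mul_dvd_mul_iff_left (by positivity),
    mul_dvd_mul_iff_left (by positivity)]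
  exact h

/-- `c ^ 4 * qG / 256` in the coordinate `4 * y = c * t + d`. -/
def qQ (d Δ y : ℤ) : ℤ :=
  y ^ 4 - d * y ^ 3 - 648 * Δ * y ^ 2 + 108 * d * Δ * y - 27 * d ^ 2 * Δ - 34992 * Δ ^ 2

theorem c_pow_four_mul_qG {Δ t y : ℤ} (hrel : c ^ 3 - d ^ 2 = 1728 * Δ) (hy : c * t + d = 4 * y) :
    c ^ 4 * qG c d t 1 = 2 ^ 8 * qQ d Δ y := by
  have hc : c ^ 3 = d ^ 2 + 1728 * Δ := by linarith
  have hh : c ^ 4 * qG c d t 1 = (c * t) ^ 4 - 6 * c ^ 3 * (c * t) ^ 2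
      - 8 * d * c ^ 3 * (c * t) - 3 * (c ^ 3) ^ 2 := by simp only [qG]; ring
  rw [hh, hc, show c * t = 4 * y - d by linarith]
  simp only [qQ]; ring

theorem c_pow_three_mul_qF4 {Δ t y : ℤ} (hrel : c ^ 3 - d ^ 2 = 1728 * Δ)
    (hy : c * t + d = 4 * y) : c ^ 3 * qF4 c d t 1 = 2 ^ 8 * (y ^ 4 + 648 * Δ * y ^ 2
      - 216 * d * Δ * y - 34992 * Δ ^ 2) := by
  have hc : c ^ 3 = d ^ 2 + 1728 * Δ := by linarith
  have hh : c ^ 3 * qF4 c d t 1 = (c * t) ^ 4 + 4 * d * (c * t) ^ 3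
      + 6 * c ^ 3 * (c * t) ^ 2 + 4 * d * c ^ 3 * (c * t) + c ^ 3 * (4 * d ^ 2 - 3 * c ^ 3) := by
    simp only [qF4]; ring
  rw [hh, hc, show c * t = 4 * y - d by linarith]
  ring

theorem c_pow_six_mul_qF6 {Δ t y : ℤ} (hrel : c ^ 3 - d ^ 2 = 1728 * Δ)
    (hy : c * t + d = 4 * y) : ∃ R, c ^ 6 * qF6 c d t 1 = 4096 * (d * y ^ 6 + 4 * R) := by
  have hc : c ^ 3 = d ^ 2 + 1728 * Δ := by linarith
  have hh : c ^ 6 * qF6 c d t 1 = d * (c * t) ^ 6 + 6 * c ^ 3 * (c * t) ^ 5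
      + 15 * d * c ^ 3 * (c * t) ^ 4 + 20 * d ^ 2 * c ^ 3 * (c * t) ^ 3
      + 15 * d * (c ^ 3) ^ 2 * (c * t) ^ 2
      + (18 * (c ^ 3) ^ 3 - 12 * d ^ 2 * (c ^ 3) ^ 2) * (c * t)
      + (c ^ 3) ^ 2 * (9 * d * c ^ 3 - 8 * d ^ 3) := by
    simp only [qF6]; ring
  refine ⟨648 * Δ * y ^ 5 - 405 * d * Δ * y ^ 4 + 135 * d ^ 2 * Δ * y ^ 3
    + 43740 * d * Δ ^ 2 * y ^ 2 + (8748 * d ^ 2 * Δ ^ 2 + 22674816 * Δ ^ 3) * y
    - 1458 * d ^ 3 * Δ ^ 2 - 2834352 * d * Δ ^ 3, ?_⟩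
  rw [hh, hc, show c * t = 4 * y - d by linarith]
  ring

theorem four_dvd_d_sub_three {Δ : ℤ} (W : WeierstrassCurve ℤ) (h4 : W.c₄ = c) (h6 : W.c₆ = d)
    (_hrel : c ^ 3 - d ^ 2 = 1728 * Δ) (hc : ¬ (2 : ℤ) ∣ c) : (4 : ℤ) ∣ d - 3 := by
  subst h4 h6
  have ha : ¬ (2 : ℤ) ∣ W.a₁ := by
    rintro ⟨e, he⟩
    exact hc ⟨8 * (e ^ 2 + W.a₂) ^ 2 - 24 * W.a₄ - 24 * e * W.a₃, by
      simp only [WeierstrassCurve.c₄, WeierstrassCurve.b₂, WeierstrassCurve.b₄, he]; ring⟩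
  obtain ⟨e, he⟩ : ∃ e, W.a₁ = 2 * e + 1 := ⟨W.a₁ / 2, by omega⟩
  obtain ⟨B, hB⟩ : ∃ B, W.b₂ = 4 * B + 1 :=
    ⟨e ^ 2 + e + W.a₂, by simp only [WeierstrassCurve.b₂, he]; ring⟩
  refine ⟨-(16 * B ^ 3 + 12 * B ^ 2 + 3 * B) + 9 * W.b₂ * W.b₄ - 54 * W.b₆ - 1, ?_⟩
  simp only [WeierstrassCurve.c₆]
  rw [hB]
  ring

/-- Building the class at 2 from a value of `y`, for odd `c`. -/
theorem twoClass_of_y {Δ t y : ℤ} {n : ℕ} (hrel : c ^ 3 - d ^ 2 = 1728 * Δ)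
    (hc : ¬ (2 : ℤ) ∣ c) (hd : (4 : ℤ) ∣ d - 3) (hy : c * t + d = 4 * y) (hy2 : ¬ (2 : ℤ) ∣ y)
    (hQ : ExactPow 2 n (qQ d Δ y)) : TwoClass n c d t 1 := by
  have hc3 : ¬ (2 : ℤ) ∣ c ^ 3 := fun h => hc (Int.prime_two.dvd_of_dvd_pow h)
  have hc4 : ¬ (2 : ℤ) ∣ c ^ 4 := fun h => hc (Int.prime_two.dvd_of_dvd_pow h)
  have hc6 : ¬ (2 : ℤ) ∣ c ^ 6 := fun h => hc (Int.prime_two.dvd_of_dvd_pow h)
  refine ⟨exactPow_of_odd_mul hc4 ?_, exactPow_of_odd_mul hc3 ?_, ?_⟩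
  · rw [c_pow_four_mul_qG hrel hy]; exact exactPow_mul_two_pow hQ
  · rw [c_pow_three_mul_qF4 hrel hy]
    refine exactPow_mul_two_pow (n := 0) ⟨by simp, fun h => hy2 ?_⟩
    simp only [zero_add, pow_one, Nat.cast_ofNat] at h
    have h' : (2 : ℤ) ∣ y ^ 4 := by
      obtain ⟨w, hw⟩ := h
      exact ⟨w - 324 * Δ * y ^ 2 + 108 * d * Δ * y + 17496 * Δ ^ 2, by linear_combination hw⟩
    exact Int.prime_two.dvd_of_dvd_pow h'
  · obtain ⟨R, hR⟩ := c_pow_six_mul_qF6 hrel hy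
    obtain ⟨j, hj⟩ := hd
    obtain ⟨C, hC⟩ : ∃ C, c ^ 6 = 4 * C + 1 := by
      obtain ⟨e, he⟩ : ∃ e, c ^ 3 = 2 * e + 1 := ⟨c ^ 3 / 2, by omega⟩
      exact ⟨e ^ 2 + e, by rw [show c ^ 6 = (c ^ 3) ^ 2 by ring, he]; ring⟩
    obtain ⟨Y, hY⟩ : ∃ Y, y ^ 6 = 4 * Y + 1 := by
      obtain ⟨e, he⟩ : ∃ e, y = 2 * e + 1 := ⟨y / 2, by omega⟩
      exact ⟨((2 * e + 1) ^ 2 + 1) * (2 * e + 1) ^ 2 * (e ^ 2 + e) + (e ^ 2 + e),
        by rw [he]; ring⟩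
    rw [show (16384 : ℤ) = 2 ^ 14 by norm_num, ← two_pow_dvd_iff hc6]
    refine ⟨d * Y + j + R - 3 * C, ?_⟩
    rw [mul_sub, hR, hY, hC]
    linear_combination 4096 * hj

theorem exists_t_of_y (hc : ¬ (2 : ℤ) ∣ c) (y : ℤ) (n : ℕ) :
    ∃ t y' : ℤ, c * t + d = 4 * y' ∧ (2 : ℤ) ^ n ∣ y' - y := by
  obtain ⟨a, b, hab⟩ := (Int.prime_two.coprime_iff_not_dvd.mpr hc).pow_left (m := n + 2)
  refine ⟨b * (4 * y - d), y - 2 ^ n * a * (4 * y - d), ?_, ⟨-(a * (4 * y - d)), by ring⟩⟩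
  rw [pow_add] at hab
  linear_combination (4 * y - d) * hab

theorem qQ_step (d Δ y h : ℤ) : h ^ 2 ∣ qQ d Δ (y + h) - qQ d Δ y
    - (4 * y ^ 3 - 3 * d * y ^ 2 - 1296 * Δ * y + 108 * d * Δ) * h :=
  ⟨6 * y ^ 2 + 4 * y * h + h ^ 2 - 3 * d * y - d * h - 648 * Δ, by simp only [qQ]; ring⟩

/-- Multiplicative reduction at 2: every valuation is attained. -/
theorem exists_twoClass_mult {Δ : ℤ} (hrel : c ^ 3 - d ^ 2 = 1728 * Δ) (hc : ¬ (2 : ℤ) ∣ c)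
    (hd : (4 : ℤ) ∣ d - 3) (hΔ : (2 : ℤ) ∣ Δ) {n : ℕ} (hn : 1 ≤ n) :
    ∃ t₀, TwoClass n c d t₀ 1 := by
  obtain ⟨y, hy, hQ⟩ := exists_exactPow Nat.prime_two (qQ d Δ)
    (fun y => 4 * y ^ 3 - 3 * d * y ^ 2 - 1296 * Δ * y + 108 * d * Δ) (qQ_step d Δ) 1
    (fun y hy h => by
      push_cast at hy h
      have : (2 : ℤ) ∣ 3 * d * y ^ 2 := by
        obtain ⟨w, hw⟩ := h
        exact ⟨2 * y ^ 3 - 648 * Δ * y + 54 * d * Δ - w, by linear_combination -hw⟩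
      rcases Int.prime_two.dvd_or_dvd this with h3 | h3
      · omega
      · have := Int.prime_two.dvd_of_dvd_pow h3
        omega)
    (by
      obtain ⟨e, rfl⟩ := hΔ
      obtain ⟨j, hj⟩ := hd
      refine ⟨-2 * j - 1 - 648 * e + 108 * d * e - 27 * d ^ 2 * e - 69984 * e ^ 2, ?_⟩
      push_cast
      simp only [qQ]
      linear_combination -hj) hn
  obtain ⟨t, y', hty, hyy⟩ := exists_t_of_y (d := d) hc y (n + 1)
  have hcongr : (2 : ℤ) ^ (n + 1) ∣ qQ d Δ y' - qQ d Δ y :=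
    hyy.trans ⟨(y' ^ 3 + y' ^ 2 * y + y' * y ^ 2 + y ^ 3) - d * (y' ^ 2 + y' * y + y ^ 2)
      - 648 * Δ * (y' + y) + 108 * d * Δ, by simp only [qQ]; ring⟩
  refine ⟨t, twoClass_of_y hrel hc hd hty ?_ (ExactPow.congr hcongr (by push_cast; rfl) hQ)⟩
  have : (2 : ℤ) ∣ y' - y := (dvd_pow_self 2 (by omega)).trans hyy
  push_cast at hy
  omega

/-- Good ordinary at 2: a class with new discriminant `≡ 5 (mod 8)`. -/
theorem exists_twoClass_ord {Δ : ℤ} (hrel : c ^ 3 - d ^ 2 = 1728 * Δ) (hc : ¬ (2 : ℤ) ∣ c)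
    (hd : (4 : ℤ) ∣ d - 3) (hΔ : ¬ (2 : ℤ) ∣ Δ) :
    ∃ t₀, TwoClass 0 c d t₀ 1 ∧ (2048 : ℤ) ∣ Δ * qG c d t₀ 1 - 1280 := by
  obtain ⟨t, y, hty, hyy⟩ := exists_t_of_y (d := d) hc (5 * d) 3
  have hkey : ∀ d Δ y : ZMod 8, d.val % 4 = 3 → Δ.val % 2 = 1 → y = 5 * d →
      Δ * (y ^ 4 - d * y ^ 3 - 648 * Δ * y ^ 2 + 108 * d * Δ * y - 27 * d ^ 2 * Δ
        - 34992 * Δ ^ 2) = 5 := by decide +kernel
  have hval : ∀ x : ℤ, ((((x : ZMod 8)).val : ℕ) : ℤ) = x % 8 := fun x => ZMod.val_intCast x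
  have h8 : (8 : ℤ) ∣ Δ * qQ d Δ y - 5 := (ZMod.intCast_zmod_eq_zero_iff_dvd _ 8).mp (by
    have h1 := hval d
    have h2 := hval Δ
    have hy8 : (y : ZMod 8) = 5 * d := by
      rw [← sub_eq_zero]
      have := (ZMod.intCast_zmod_eq_zero_iff_dvd (y - 5 * d) 8).mpr (by exact_mod_cast hyy)
      push_cast at this
      exact this
    have := hkey d Δ y (by omega) (by omega) hy8
    simp only [qQ]
    push_cast
    rw [this, sub_self])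
  have hQodd : ¬ (2 : ℤ) ∣ qQ d Δ y := fun h => by
    have : (2 : ℤ) ∣ Δ * qQ d Δ y := h.mul_left Δ
    omega
  refine ⟨t, twoClass_of_y hrel hc hd hty ?_ ⟨by simp, by simpa using hQodd⟩, ?_⟩
  · norm_num at hyy
    omega
  · obtain ⟨C, hC⟩ : ∃ C, c ^ 4 = 8 * C + 1 := by
      obtain ⟨e, he⟩ : ∃ e, c ^ 2 = 2 * e + 1 := ⟨c ^ 2 / 2, by
        have : ¬ (2 : ℤ) ∣ c ^ 2 := fun h => hc (Int.prime_two.dvd_of_dvd_pow h)
        omega⟩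
      obtain ⟨k, hk⟩ : (2 : ℤ) ∣ e * (e + 1) := by
        rw [Int.prime_two.dvd_mul]; omega
      exact ⟨k, by rw [show c ^ 4 = (c ^ 2) ^ 2 by ring, he]; linear_combination 4 * hk⟩
    obtain ⟨m, hm⟩ := h8
    have e := c_pow_four_mul_qG hrel hty
    have hc4 : ¬ (2 : ℤ) ∣ c ^ 4 := fun h => hc (Int.prime_two.dvd_of_dvd_pow h)
    rw [show (2048 : ℤ) = 2 ^ 11 by norm_num, ← two_pow_dvd_iff hc4]
    refine ⟨m - 5 * C, ?_⟩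
    linear_combination Δ * e + 256 * hm - 1280 * hC

/-- Supersingular at 2, in the coordinate `t = 4 * y`: the quotient `qG / 256`. -/
def qP (γ δ y : ℤ) : ℤ := y ^ 4 - 6 * γ * y ^ 2 - δ * y - 3 * γ ^ 2

theorem twoClass_ss {γ δ y : ℤ} {n : ℕ} (hδ : (4 : ℤ) ∣ δ - 1)
    (hP : ExactPow 2 n (qP γ δ y)) : TwoClass n (16 * γ) (8 * δ) (4 * y) 1 := by
  refine ⟨?_, ?_, ?_⟩
  · rw [show qG (16 * γ) (8 * δ) (4 * y) 1 = 2 ^ 8 * qP γ δ y by simp only [qG, qP]; ring]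
    exact exactPow_mul_two_pow hP
  · obtain ⟨R, hR⟩ : ∃ R, qF4 (16 * γ) (8 * δ) (4 * y) 1 = 2 ^ 8 * (δ ^ 2 + 2 * R) :=
      ⟨8 * γ * y ^ 4 + 4 * δ * y ^ 3 + 48 * γ ^ 2 * y ^ 2 + 4 * γ * δ * y - 24 * γ ^ 3,
        by simp only [qF4]; ring⟩
    rw [hR]
    refine exactPow_mul_two_pow (n := 0) ⟨by simp, fun h => ?_⟩
    simp only [zero_add, pow_one, Nat.cast_ofNat] at h
    rw [Int.dvd_add_left ⟨R, rfl⟩] at h
    have := Int.prime_two.dvd_of_dvd_pow h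
    omega
  · obtain ⟨j, hj⟩ := hδ
    refine ⟨2 * δ * y ^ 6 + 96 * γ ^ 2 * y ^ 5 + 30 * γ * δ * y ^ 4 + 5 * δ ^ 2 * y ^ 3
      + 30 * γ ^ 2 * δ * y ^ 2 + (288 * γ ^ 4 - 3 * γ * δ ^ 2) * y + 18 * γ ^ 3 * δ
      - (16 * j ^ 3 + 12 * j ^ 2 + 3 * j + 1), ?_⟩
    simp only [qF6]
    linear_combination -4096 * (δ ^ 2 + δ * (4 * j + 1) + (4 * j + 1) ^ 2) * hj

/-- Supersingular with `a₂ = 0`: every valuation is attained. -/
theorem exists_twoClass_ss_mult {γ δ : ℤ} (hδ : (4 : ℤ) ∣ δ - 1) (hγ : (2 : ℤ) ∣ γ) {n : ℕ}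
    (hn : 1 ≤ n) : ∃ t₀, TwoClass n (16 * γ) (8 * δ) t₀ 1 := by
  obtain ⟨y, -, hP⟩ := exists_exactPow Nat.prime_two (qP γ δ)
    (fun y => 4 * y ^ 3 - 12 * γ * y - δ)
    (fun y h => ⟨6 * y ^ 2 + 4 * y * h + h ^ 2 - 6 * γ, by simp only [qP]; ring⟩) 0
    (fun y _ h => by
      push_cast at h
      have : (2 : ℤ) ∣ δ := by
        obtain ⟨w, hw⟩ := h
        exact ⟨2 * y ^ 3 - 6 * γ * y - w, by linear_combination -hw⟩
      omega)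
    (by obtain ⟨e, rfl⟩ := hγ; exact ⟨-6 * e ^ 2, by simp only [qP]; push_cast; ring⟩) hn
  exact ⟨4 * y, twoClass_ss hδ hP⟩

/-- Supersingular with `a₂ = ±2`: a class with new discriminant `≡ 5 (mod 8)`. -/
theorem exists_twoClass_ss_ord {γ δ Δ : ℤ} (hδ : (4 : ℤ) ∣ δ - 1) (hγ : ¬ (2 : ℤ) ∣ γ)
    (hΔ : ¬ (2 : ℤ) ∣ Δ) :
    ∃ t₀, TwoClass 0 (16 * γ) (8 * δ) t₀ 1 ∧
      (2048 : ℤ) ∣ Δ * qG (16 * γ) (8 * δ) t₀ 1 - 1280 := by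
  have hkey : ∀ g e D : ZMod 8, g.val % 2 = 1 → e.val % 4 = 1 → D.val % 2 = 1 →
      ∃ y : ZMod 8, D * (y ^ 4 - 6 * g * y ^ 2 - e * y - 3 * g ^ 2) = 5 := by decide +kernel
  have hval : ∀ x : ℤ, ((((x : ZMod 8)).val : ℕ) : ℤ) = x % 8 := fun x => ZMod.val_intCast x
  have h1 := hval γ
  have h2 := hval δ
  have h3 := hval Δ
  obtain ⟨w, hw⟩ := hkey γ δ Δ (by omega) (by omega) (by omega)
  obtain ⟨y, rfl⟩ := ZMod.intCast_surjective w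
  have h8 : (8 : ℤ) ∣ Δ * qP γ δ y - 5 := (ZMod.intCast_zmod_eq_zero_iff_dvd _ 8).mp (by
    simp only [qP]; push_cast; rw [hw, sub_self])
  have hodd : ¬ (2 : ℤ) ∣ qP γ δ y := fun h => by
    have : (2 : ℤ) ∣ Δ * qP γ δ y := h.mul_left Δ
    omega
  refine ⟨4 * y, twoClass_ss hδ ⟨by simp, by simpa using hodd⟩, ?_⟩
  obtain ⟨m, hm⟩ := h8
  refine ⟨m, ?_⟩
  have e : qG (16 * γ) (8 * δ) (4 * y) 1 = 256 * qP γ δ y := by simp only [qG, qP]; ring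
  rw [e]
  linear_combination 256 * hm

end Two

end Fermat.Agent.SwitchLocal
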