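import Mathlib
import Fermat.Agent.Switch.Sections
import Fermat.Agent.SwitchLocal.Forms3

/-!
# The points of order three in short coordinates, and the four standard sections
-/

set_option autoImplicit false
set_option linter.unusedSectionVars false

namespace Fermat.Agent.SwitchLocal

open WeierstrassCurve
open Fermat.Agent.Switch (affX affY affX_injective negY_affY)

variable {K : Type*} [Field K] [CharZero K] [DecidableEq K]

/-- Short coordinates `(3 * l, Y)` of a point of order three for the invariants `(c, d)`. -/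
structure IsThreeCoord (c d l Y : K) : Prop where
  root : qG c d l 1 = 0
  sq_eq : Y ^ 2 = 27 * (l ^ 3 - 3 * c * l - 2 * d)

theorem IsThreeCoord.Y_ne {c d l Y : K} (h : IsThreeCoord c d l Y) (hcd : c ^ 3 - d ^ 2 ≠ 0) :
    Y ≠ 0 := by
  intro hY
  have h1 := h.root
  have h2 := h.sq_eq
  simp only [qG] at h1
  rw [hY] at h2
  have h3 : (l ^ 2 - c) ^ 2 = 0 := by linear_combination -h1 / 3 - 4 * l * h2 / 81
  have h4 : l ^ 2 = c := sub_eq_zero.mp ((pow_eq_zero_iff two_ne_zero).mp h3)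
  have h5 : d = -c * l := by
    linear_combination h2 / 54 + l * h4 / 2
  exact hcd (by rw [h5]; linear_combination -c ^ 2 * h4)

theorem IsThreeCoord.neg {c d l Y : K} (h : IsThreeCoord c d l Y) : IsThreeCoord c d l (-Y) :=
  ⟨h.root, by rw [neg_sq]; exact h.sq_eq⟩

variable {E : WeierstrassCurve K}

theorem Δ_ne_zero_of_disc (h : E.c₄ ^ 3 - E.c₆ ^ 2 ≠ 0) : E.Δ ≠ 0 := fun h0 => h (by
  rw [← E.c_relation, h0, mul_zero])

theorem equation_three (hE : E.Δ ≠ 0) {l Y : K} (h : IsThreeCoord E.c₄ E.c₆ l Y) :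
    E.toAffine.Nonsingular (affX E (3 * l)) (affY E (3 * l) Y) := by
  refine (Affine.equation_iff_nonsingular_of_Δ_ne_zero hE).mp
    ((Affine.equation_iff ..).mpr ?_)
  have e := h.sq_eq
  simp only [affX, affY, WeierstrassCurve.b₂, WeierstrassCurve.b₄, WeierstrassCurve.b₆,
    WeierstrassCurve.c₄, WeierstrassCurve.c₆] at e ⊢
  linear_combination e / 46656

/-- The point with short coordinates `(3 * l, Y)`. -/
def threePt (hE : E.Δ ≠ 0) {l Y : K} (h : IsThreeCoord E.c₄ E.c₆ l Y) : E.toAffine.Point :=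
  .some _ _ (equation_three hE h)

theorem threePt_congr (hE : E.Δ ≠ 0) {l Y l' Y' : K} (h : IsThreeCoord E.c₄ E.c₆ l Y)
    (h' : IsThreeCoord E.c₄ E.c₆ l' Y') (hl : l = l') (hY : Y = Y') :
    threePt hE h = threePt hE h' := by
  subst hl hY; rfl

theorem threePt_neg (hE : E.Δ ≠ 0) {l Y : K} (h : IsThreeCoord E.c₄ E.c₆ l Y) :
    threePt hE h.neg = -threePt hE h := by
  simp only [threePt, Affine.Point.neg_some, negY_affY]

/-- The chord rule in short coordinates. -/
theorem threePt_add (hE : E.Δ ≠ 0) {l₁ Y₁ l₂ Y₂ l₃ Y₃ m : K}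
    (h₁ : IsThreeCoord E.c₄ E.c₆ l₁ Y₁) (h₂ : IsThreeCoord E.c₄ E.c₆ l₂ Y₂)
    (h₃ : IsThreeCoord E.c₄ E.c₆ l₃ Y₃) (hne : l₁ ≠ l₂) (hm : Y₂ - Y₁ = m * (3 * l₂ - 3 * l₁))
    (hsq : m ^ 2 = 3 * (l₁ + l₂ + l₃)) (hY : Y₃ = -(Y₁ + m * (3 * l₃ - 3 * l₁))) :
    threePt hE h₁ + threePt hE h₂ = threePt hE h₃ := by
  have hx : affX E (3 * l₁) ≠ affX E (3 * l₂) := fun e =>
    hne (mul_left_cancel₀ (by norm_num) (affX_injective e))
  rw [threePt, threePt, Affine.Point.add_of_X_ne hx, threePt]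
  set L := E.toAffine.slope (affX E (3 * l₁)) (affX E (3 * l₂)) (affY E (3 * l₁) Y₁)
    (affY E (3 * l₂) Y₂) with hL
  have hden : affX E (3 * l₁) - affX E (3 * l₂) ≠ 0 := sub_ne_zero.mpr hx
  have hLval : L = (m / 3 - E.a₁) / 2 := by
    rw [hL, Affine.slope_of_X_ne hx, div_eq_iff hden]
    simp only [affX, affY]
    linear_combination -hm / 216
  simp only [Affine.Point.some.injEq]
  have ex : E.toAffine.addX (affX E (3 * l₁)) (affX E (3 * l₂)) L = affX E (3 * l₃) := by
    rw [hLval]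
    simp only [Affine.addX, affX, WeierstrassCurve.b₂]
    linear_combination hsq / 36
  refine ⟨ex, ?_⟩
  rw [Affine.addY, Affine.negAddY, ← hL, ex, hLval, hY]
  simp only [Affine.negY, affY, affX]
  ring

/-- Points with short abscissa a root of the quartic have order three. -/
theorem three_nsmul_threePt (hE : E.Δ ≠ 0) {l Y : K} (h : IsThreeCoord E.c₄ E.c₆ l Y) :
    3 • threePt hE h = 0 := by
  have hcd : E.c₄ ^ 3 - E.c₆ ^ 2 ≠ 0 := by
    rw [← E.c_relation]; exact mul_ne_zero (by norm_num) hE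
  have hY0 := h.Y_ne hcd
  suffices e : threePt hE h + threePt hE h = -threePt hE h by
    rw [show 3 = 2 + 1 by rfl, succ_nsmul, two_nsmul, e, neg_add_cancel]
  have hne : affY E (3 * l) Y ≠ E.toAffine.negY (affX E (3 * l)) (affY E (3 * l) Y) := by
    rw [negY_affY]
    intro e
    simp only [affY] at e
    exact hY0 (by linear_combination 108 * e)
  rw [threePt, Affine.Point.add_self_of_Y_ne hne, Affine.Point.neg_some]
  set L := E.toAffine.slope (affX E (3 * l)) (affX E (3 * l)) (affY E (3 * l) Y)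
    (affY E (3 * l) Y) with hL
  have hden : affY E (3 * l) Y - E.toAffine.negY (affX E (3 * l)) (affY E (3 * l) Y)
      = Y / 108 := by
    rw [negY_affY]; simp only [affY]; ring
  have hLval : L = ((3 * (3 * l) ^ 2 - 27 * E.c₄) / (2 * Y) / 3 - E.a₁) / 2 := by
    rw [hL, Affine.slope_of_Y_ne rfl hne, hden]
    simp only [affX, affY, WeierstrassCurve.b₂, WeierstrassCurve.b₄, WeierstrassCurve.c₄]
    field_simp
    ring
  have hsq : ((3 * (3 * l) ^ 2 - 27 * E.c₄) / (2 * Y)) ^ 2 = 9 * l := by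
    field_simp
    have h1 := h.root
    have h2 := h.sq_eq
    simp only [qG] at h1
    linear_combination -243 * h1 - 36 * l * h2
  simp only [Affine.Point.some.injEq]
  have ex : E.toAffine.addX (affX E (3 * l)) (affX E (3 * l)) L = affX E (3 * l) := by
    rw [hLval]
    simp only [Affine.addX, affX, WeierstrassCurve.b₂]
    linear_combination hsq / 36
  refine ⟨ex, ?_⟩
  rw [Affine.addY, Affine.negAddY, ← hL, ex, hLval]
  simp only [Affine.negY, affY, affX]
  ring

section Standard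

/-- A cube root of unity and a square root of `-1`. -/
structure Aux3 (K : Type*) [Field K] where
  w : K
  e : K
  hw : w ^ 2 + w + 1 = 0
  he : e ^ 2 = -1

variable (α : Aux3 K)

theorem nonempty_aux3 [IsAlgClosed K] : Nonempty (Aux3 K) := by
  obtain ⟨z, hz⟩ := IsAlgClosed.exists_pow_nat_eq (-3 : K) (show 0 < 2 by norm_num)
  obtain ⟨e, he⟩ := IsAlgClosed.exists_pow_nat_eq (-1 : K) (show 0 < 2 by norm_num)
  exact ⟨⟨(-1 + z) / 2, e, by linear_combination hz / 4, he⟩⟩

theorem Aux3.w_cube : α.w ^ 3 = 1 := by linear_combination (α.w - 1) * α.hw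

theorem Aux3.one_add_two_w_sq : (1 + 2 * α.w) ^ 2 = -3 := by linear_combination 4 * α.hw

/-- Abscissa (divided by 3) of the section at the line `s = 0`. -/
def secL0 (r : K) : K := 3 * r ^ 2

/-- Ordinate of the section at the line `s = 0`. -/
def secY0 (r s : K) : K := α.e * 12 * (1 + 2 * α.w) * (r ^ 3 - 27 * s ^ 3)

/-- Abscissa (divided by 3) of the section at the line `r = 3 v s`. -/
def secL (v r s : K) : K := -(r + 6 * v * s) ^ 2

/-- Ordinate of the section at the line `r = 3 v s`. -/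
def secYv (v r s : K) : K :=
  α.e * 108 * s * (v * r ^ 2 + 3 * v ^ 2 * r * s + 9 * s ^ 2)

theorem isThreeCoord_secL0 (r s : K) :
    IsThreeCoord (tC4 r s) (tC6 r s) (secL0 r) (secY0 α r s) where
  root := by simp only [qG, tC4, tC6, secL0]; ring
  sq_eq := by
    rw [secY0, mul_pow, mul_pow, mul_pow, α.he, α.one_add_two_w_sq]
    simp only [tC4, tC6, secL0]; ring

theorem isThreeCoord_secL {v : K} (hv : v ^ 3 = 1) (r s : K) :
    IsThreeCoord (tC4 r s) (tC6 r s) (secL v r s) (secYv α v r s) where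
  root := by
    have h4 : v ^ 4 = v := by linear_combination v * hv
    have h5 : v ^ 5 = v ^ 2 := by linear_combination v ^ 2 * hv
    have h6 : v ^ 6 = 1 := by linear_combination (v ^ 3 + 1) * hv
    have h7 : v ^ 7 = v := by linear_combination (v ^ 4 + v) * hv
    have h8 : v ^ 8 = v ^ 2 := by linear_combination (v ^ 5 + v ^ 2) * hv
    simp only [qG, tC4, tC6, secL]
    ring_nf
    simp only [hv, h4, h5, h6, h7, h8]
    ring
  sq_eq := by
    have h4 : v ^ 4 = v := by linear_combination v * hv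
    have h5 : v ^ 5 = v ^ 2 := by linear_combination v ^ 2 * hv
    have h6 : v ^ 6 = 1 := by linear_combination (v ^ 3 + 1) * hv
    rw [secYv, mul_pow, mul_pow, mul_pow, α.he]
    simp only [tC4, tC6, secL]
    ring_nf
    simp only [hv, h4, h5, h6]
    ring

theorem secL0_ne_secL {v : K} (hv : v ^ 3 = 1) {r s : K} (hD : tD r s ≠ 0) :
    secL0 r ≠ secL v r s := by
  intro h
  simp only [secL0, secL] at h
  have h0 : r ^ 2 + 3 * v * r * s + 9 * v ^ 2 * s ^ 2 = 0 := by linear_combination h / 4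
  apply hD
  simp only [tD]
  linear_combination s * (r - 3 * v * s) * h0 + 27 * s ^ 4 * hv

variable {r s : K}

/-- The standard sections as points of `E`. -/
def secP0 (hE : E.Δ ≠ 0) (h4 : E.c₄ = tC4 r s) (h6 : E.c₆ = tC6 r s) : E.toAffine.Point :=
  threePt hE (l := secL0 r) (Y := secY0 α r s) (by rw [h4, h6]; exact isThreeCoord_secL0 α r s)

/-- The standard sections as points of `E`. -/
def secPv (hE : E.Δ ≠ 0) (h4 : E.c₄ = tC4 r s) (h6 : E.c₆ = tC6 r s) {v : K} (hv : v ^ 3 = 1) :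
    E.toAffine.Point :=
  threePt hE (l := secL v r s) (Y := secYv α v r s)
    (by rw [h4, h6]; exact isThreeCoord_secL α hv r s)

theorem tD_ne_zero_of_Δ (hE : E.Δ ≠ 0) (h4 : E.c₄ = tC4 r s) (h6 : E.c₆ = tC6 r s) :
    tD r s ≠ 0 := by
  intro h
  have e := E.c_relation
  rw [h4, h6, tC4_cube_sub_tC6_sq, h] at e
  exact hE (by simpa using e)

theorem secP0_add_secPv (hE : E.Δ ≠ 0) (h4 : E.c₄ = tC4 r s) (h6 : E.c₆ = tC6 r s) {v : K}
    (hv : v ^ 3 = 1) (hv' : (v * α.w ^ 2) ^ 3 = 1) :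
    secP0 α hE h4 h6 + secPv α hE h4 h6 hv = secPv α hE h4 h6 hv' := by
  have hw2 : α.w ^ 2 = -1 - α.w := by linear_combination α.hw
  refine threePt_add hE (m := α.e * (1 + 2 * α.w) * (r + 6 * v * α.w * s)) _ _ _
    (secL0_ne_secL hv (tD_ne_zero_of_Δ hE h4 h6)) ?_ ?_ ?_
  · simp only [secL0, secL, secY0, secYv]
    linear_combination (648 * (α.w + 2 * α.w ^ 2) * α.e * s ^ 3) * hv
      + (α.e * s * (144 * v * r ^ 2 + 432 * v ^ 2 * r * s + 1296 * s ^ 2)) * α.hw
  · rw [mul_pow, mul_pow, α.he, α.one_add_two_w_sq]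
    simp only [secL0, secL, hw2]
    linear_combination (216 * v ^ 2 * s ^ 2) * α.hw
  · simp only [secL0, secL, secY0, secYv]
    linear_combination (-648 * α.w ^ 5 * (1 + 2 * α.w) * α.e * s ^ 3) * hv
      + (α.e * s * (-72 * v * α.w * r ^ 2 - 216 * v ^ 2 * α.w ^ 3 * r * s
        + 648 * (-2 * α.w ^ 4 + α.w ^ 3 + α.w ^ 2 - 2 * α.w + 1) * s ^ 2)) * α.hw

end Standard

end Fermat.Agent.SwitchLocal
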