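import Mathlib
import Fermat.Agent.EC.Torsion.Galois
import Fermat.Agent.SwitchLocal.Sections3

/-!
# The frame of `E[3]` given by the standard sections, and the map along the family
-/

set_option autoImplicit false
set_option linter.unusedSectionVars false

namespace Fermat.Agent.SwitchLocal

open WeierstrassCurve
open Fermat.Agent.Switch (affX affY affX_injective negY_affY)

variable {K : Type*} [Field K] [CharZero K] [DecidableEq K]
variable {E : WeierstrassCurve K} {r s : K} (α : Aux3 K)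

theorem one_cube : (1 : K) ^ 3 = 1 := one_pow 3

theorem Aux3.w_sq_cube (v : K) (hv : v ^ 3 = 1) : (v * α.w ^ 2) ^ 3 = 1 := by
  rw [mul_pow, ← pow_mul, show α.w ^ (2 * 3) = (α.w ^ 3) ^ 2 by ring, α.w_cube, hv]; ring

/-- The point attached to a line and a sign. -/
def Aux3.point (hE : E.Δ ≠ 0) (h4 : E.c₄ = tC4 r s) (h6 : E.c₆ = tC6 r s) :
    Option (Fin 3) → E.toAffine.Point
  | none => secP0 α hE h4 h6
  | some i => secPv α hE h4 h6 (v := α.w ^ (i : ℕ))
      (by rw [← pow_mul, mul_comm, pow_mul, α.w_cube, one_pow])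

theorem secPv_congr (hE : E.Δ ≠ 0) (h4 : E.c₄ = tC4 r s) (h6 : E.c₆ = tC6 r s) {v v' : K}
    (hv : v ^ 3 = 1) (hv' : v' ^ 3 = 1) (h : v = v') :
    secPv α hE h4 h6 hv = secPv α hE h4 h6 hv' := by
  subst h; rfl

variable (hE : E.Δ ≠ 0) (h4 : E.c₄ = tC4 r s) (h6 : E.c₆ = tC6 r s)

theorem three_nsmul_point (i : Option (Fin 3)) : 3 • α.point hE h4 h6 i = 0 := by
  cases i with
  | none =>
    exact three_nsmul_threePt hE (l := secL0 r) (Y := secY0 α r s)
      (by rw [h4, h6]; exact isThreeCoord_secL0 α r s)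
  | some i =>
    exact three_nsmul_threePt hE (l := secL (α.w ^ (i : ℕ)) r s)
      (Y := secYv α (α.w ^ (i : ℕ)) r s)
      (by rw [h4, h6]; exact isThreeCoord_secL α (by rw [← pow_mul, mul_comm, pow_mul, α.w_cube, one_pow]) r s)

theorem w_pow_cube (n : ℕ) : (α.w ^ n) ^ 3 = 1 := by
  rw [← pow_mul, mul_comm, pow_mul, α.w_cube, one_pow]

theorem point_none_add_one :
    α.point hE h4 h6 none + α.point hE h4 h6 (some 0) = α.point hE h4 h6 (some 2) := by
  refine (secP0_add_secPv α hE h4 h6 (w_pow_cube α 0) (α.w_sq_cube _ (w_pow_cube α 0))).trans ?_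
  exact secPv_congr α hE h4 h6 _ (w_pow_cube α 2) (by simp)

theorem point_none_sub_one :
    α.point hE h4 h6 none - α.point hE h4 h6 (some 0) = -α.point hE h4 h6 (some 1) := by
  rw [sub_eq_iff_eq_add, eq_neg_add_iff_add_eq, add_comm]
  refine (secP0_add_secPv α hE h4 h6 (w_pow_cube α 1) (α.w_sq_cube _ (w_pow_cube α 1))).trans ?_
  refine secPv_congr α hE h4 h6 _ (w_pow_cube α 0) ?_
  have := α.w_cube
  simp only [pow_one, pow_zero]
  linear_combination this

/-- The homomorphism sending the standard basis to the sections at `s = 0` and `r = 3 * s`. -/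
def Aux3.hom : ZMod 3 × ZMod 3 →+ E.toAffine.Point :=
  AddMonoidHom.coprod
    (ZMod.lift 3 ⟨zmultiplesHom _ (α.point hE h4 h6 none), by
      show ((3 : ℕ) : ℤ) • α.point hE h4 h6 none = 0
      rw [natCast_zsmul]; exact three_nsmul_point α hE h4 h6 none⟩)
    (ZMod.lift 3 ⟨zmultiplesHom _ (α.point hE h4 h6 (some 0)), by
      show ((3 : ℕ) : ℤ) • α.point hE h4 h6 (some 0) = 0
      rw [natCast_zsmul]; exact three_nsmul_point α hE h4 h6 (some 0)⟩)

theorem hom_apply (a b : ℤ) : α.hom hE h4 h6 (a, b)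
    = a • α.point hE h4 h6 none + b • α.point hE h4 h6 (some 0) := by
  simp [Aux3.hom]

/-- Every nonzero vector goes to a standard point up to sign, uniformly in `(r, s)`. -/
theorem hom_cases (a : ZMod 3 × ZMod 3) (ha : a ≠ 0) :
    ∃ (i : Option (Fin 3)) (ε : Bool), ∀ {E : WeierstrassCurve K} {r s : K} (hE : E.Δ ≠ 0)
      (h4 : E.c₄ = tC4 r s) (h6 : E.c₆ = tC6 r s),
      α.hom hE h4 h6 a = cond ε (α.point hE h4 h6 i) (-α.point hE h4 h6 i) := by
  obtain ⟨x, y⟩ := a
  have key : ∀ z : ZMod 3,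
      z = ((0 : ℤ) : ZMod 3) ∨ z = ((1 : ℤ) : ZMod 3) ∨ z = ((-1 : ℤ) : ZMod 3) := by decide
  have hx := key x
  have hy := key y
  rcases hx with rfl | rfl | rfl <;> rcases hy with rfl | rfl | rfl
  · exact absurd (by simp) ha
  · exact ⟨some 0, true, fun hE h4 h6 => by rw [hom_apply]; simp⟩
  · exact ⟨some 0, false, fun hE h4 h6 => by rw [hom_apply]; simp⟩
  · exact ⟨none, true, fun hE h4 h6 => by rw [hom_apply]; simp⟩
  · exact ⟨some 2, true, fun hE h4 h6 => by
      rw [hom_apply]; simp [point_none_add_one α hE h4 h6]⟩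
  · exact ⟨some 1, false, fun hE h4 h6 => by
      rw [hom_apply, cond_false, ← point_none_sub_one α hE h4 h6]; simp [sub_eq_add_neg]⟩
  · exact ⟨none, false, fun hE h4 h6 => by rw [hom_apply]; simp⟩
  · exact ⟨some 1, true, fun hE h4 h6 => by
      rw [hom_apply, cond_true, ← neg_neg (α.point hE h4 h6 (some 1)),
        ← point_none_sub_one α hE h4 h6]
      simp [sub_eq_add_neg, add_comm]⟩
  · exact ⟨some 2, false, fun hE h4 h6 => by
      rw [hom_apply, cond_false, ← point_none_add_one α hE h4 h6]; simp [add_comm]⟩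

theorem point_ne_zero (i : Option (Fin 3)) : α.point hE h4 h6 i ≠ 0 := by
  cases i <;> exact Affine.Point.some_ne_zero _

theorem hom_injective : Function.Injective (α.hom hE h4 h6) := by
  rw [injective_iff_map_eq_zero]
  intro a h
  by_contra ha
  obtain ⟨i, ε, hi⟩ := hom_cases α a ha
  rw [hi hE h4 h6] at h
  cases ε <;> simp [point_ne_zero α hE h4 h6] at h

theorem three_nsmul_hom (a : ZMod 3 × ZMod 3) : 3 • α.hom hE h4 h6 a = 0 := by
  rw [← map_nsmul, show 3 • a = 0 by revert a; decide, map_zero]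

/-- The frame of `E[3]`. -/
noncomputable def Aux3.frame [IsAlgClosed K] :
    (ZMod 3 × ZMod 3) ≃+ Submodule.torsionBy ℤ E.toAffine.Point (3 : ℕ) :=
  AddEquiv.ofBijective
    ((α.hom hE h4 h6).codRestrict
      (Submodule.torsionBy ℤ E.toAffine.Point (3 : ℕ)).toAddSubgroup fun a => by
        rw [Submodule.mem_toAddSubgroup, Submodule.mem_torsionBy_iff, natCast_zsmul]
        exact three_nsmul_hom α hE h4 h6 a)
    (by
      have : E.IsElliptic := ⟨isUnit_iff_ne_zero.mpr hE⟩
      have hc : Nat.card (Submodule.torsionBy ℤ E.toAffine.Point (3 : ℕ)) = 9 :=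
        (EC.Torsion.natCard_torsionBy E.toAffine (n := 3) (by norm_num)).trans (by norm_num)
      have : Finite (Submodule.torsionBy ℤ E.toAffine.Point (3 : ℕ)) :=
        Nat.finite_of_card_ne_zero (by omega)
      rw [Nat.bijective_iff_injective_and_card]
      exact ⟨fun a b h => hom_injective α hE h4 h6 (congrArg Subtype.val h),
        (show Nat.card (ZMod 3 × ZMod 3) = 9 by simp).trans hc.symm⟩)

theorem frame_coe [IsAlgClosed K] (a : ZMod 3 × ZMod 3) :
    (α.frame hE h4 h6 a : E.toAffine.Point) = α.hom hE h4 h6 a := rfl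

section Move

variable (t u : K)

/-- Being the image of a point of order dividing 3 under the map along the family. -/
def IsImg (E E' : WeierstrassCurve K) (P : E.toAffine.Point) (P' : E'.toAffine.Point) : Prop :=
  (P = 0 ∧ P' = 0) ∨ ∃ (x y : K) (h : E.toAffine.Nonsingular x y) (x' y' : K)
    (h' : E'.toAffine.Nonsingular x' y'), P = .some x y h ∧ P' = .some x' y' h' ∧
      x' = affX E' (3 * qR E.c₄ E.c₆ t u (12 * x + E.b₂)) ∧
      y' = affY E' (3 * qR E.c₄ E.c₆ t u (12 * x + E.b₂))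
        (108 * (2 * y + E.a₁ * x + E.a₃) * qS E.c₄ E.c₆ t u (12 * x + E.b₂))

theorem IsImg.unique {E E' : WeierstrassCurve K} {P : E.toAffine.Point}
    {P₁ P₂ : E'.toAffine.Point} (h₁ : IsImg t u E E' P P₁) (h₂ : IsImg t u E E' P P₂) :
    P₁ = P₂ := by
  rcases h₁ with ⟨rfl, rfl⟩ | ⟨x, y, h, x₁, y₁, k₁, rfl, rfl, e₁, f₁⟩
  · rcases h₂ with ⟨-, rfl⟩ | ⟨x, y, h, x₁, y₁, k₁, e, -⟩
    · rfl
    · exact absurd e.symm (Affine.Point.some_ne_zero h)
  · rcases h₂ with ⟨e, -⟩ | ⟨x', y', h', x₂, y₂, k₂, e, rfl, e₂, f₂⟩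
    · exact absurd e (Affine.Point.some_ne_zero h)
    · obtain ⟨rfl, rfl⟩ := Affine.Point.some.inj e
      simp only [Affine.Point.some.injEq]
      exact ⟨e₁.trans e₂.symm, f₁.trans f₂.symm⟩

variable {E' : WeierstrassCurve K}

theorem isImg_threePt (hE' : E'.Δ ≠ 0) {l Y l' Y' : K} (h : IsThreeCoord E.c₄ E.c₆ l Y)
    (h' : IsThreeCoord E'.c₄ E'.c₆ l' Y') (hl : l' = qR E.c₄ E.c₆ t u l)
    (hY : Y' = Y * qS E.c₄ E.c₆ t u l) : IsImg t u E E' (threePt hE h) (threePt hE' h') := by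
  refine Or.inr ⟨_, _, _, _, _, _, rfl, rfl, ?_, ?_⟩
  all_goals
    have e : 12 * affX E (3 * l) + E.b₂ = l := by simp only [affX]; ring
    have f : 108 * (2 * affY E (3 * l) Y + E.a₁ * affX E (3 * l) + E.a₃) = Y := by
      simp only [affY]; ring
    simp only [e, f, hl, hY]

theorem IsImg.neg {E E' : WeierstrassCurve K} {P : E.toAffine.Point} {P' : E'.toAffine.Point}
    (h : IsImg t u E E' P P') : IsImg t u E E' (-P) (-P') := by
  rcases h with ⟨rfl, rfl⟩ | ⟨x, y, k, x', y', k', rfl, rfl, ex, ey⟩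
  · exact Or.inl ⟨neg_zero, neg_zero⟩
  · refine Or.inr ⟨_, _, _, _, _, _, Affine.Point.neg_some k, Affine.Point.neg_some k', ex, ?_⟩
    rw [ey, ex, negY_affY]
    simp only [Affine.negY]
    congr 1
    ring

theorem qR_secL0 (t u r s : K) :
    secL0 (tMovR t u r s) = qR (tC4 r s) (tC6 r s) t u (secL0 r) := by
  simp only [secL0, qR, tC4, tC6, tMovR]; ring

theorem qR_secL {v : K} (hv : v ^ 3 = 1) (t u r s : K) :
    secL v (tMovR t u r s) (tMovS t u r s) = qR (tC4 r s) (tC6 r s) t u (secL v r s) := by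
  have h4 : v ^ 4 = v := by linear_combination v * hv
  have h5 : v ^ 5 = v ^ 2 := by linear_combination v ^ 2 * hv
  have h6 : v ^ 6 = 1 := by linear_combination (v ^ 3 + 1) * hv
  simp only [secL, qR, tC4, tC6, tMovR, tMovS]
  ring_nf
  simp only [hv, h4, h5, h6]
  ring

theorem qS_secY0 (t u r s : K) : secY0 α (tMovR t u r s) (tMovS t u r s)
    = secY0 α r s * qS (tC4 r s) (tC6 r s) t u (secL0 r) := by
  simp only [secY0, secL0, qS, tC4, tC6, tMovR, tMovS]; ring

theorem qS_secYv {v : K} (hv : v ^ 3 = 1) (t u r s : K) :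
    secYv α v (tMovR t u r s) (tMovS t u r s)
      = secYv α v r s * qS (tC4 r s) (tC6 r s) t u (secL v r s) := by
  have h4 : v ^ 4 = v := by linear_combination v * hv
  have h5 : v ^ 5 = v ^ 2 := by linear_combination v ^ 2 * hv
  have h6 : v ^ 6 = 1 := by linear_combination (v ^ 3 + 1) * hv
  have h7 : v ^ 7 = v := by linear_combination (v ^ 4 + v) * hv
  have h8 : v ^ 8 = v ^ 2 := by linear_combination (v ^ 5 + v ^ 2) * hv
  simp only [secYv, secL, qS, tC4, tC6, tMovR, tMovS]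
  ring_nf
  simp only [hv, h4, h5, h6, h7, h8]
  ring

variable (h4' : E'.c₄ = tC4 (tMovR t u r s) (tMovS t u r s))
  (h6' : E'.c₆ = tC6 (tMovR t u r s) (tMovS t u r s))

theorem isImg_point (hE' : E'.Δ ≠ 0) (i : Option (Fin 3)) :
    IsImg t u E E' (α.point hE h4 h6 i) (α.point hE' h4' h6' i) := by
  cases i with
  | none =>
    refine isImg_threePt hE t u hE' (by rw [h4, h6]; exact isThreeCoord_secL0 α r s)
      (by rw [h4', h6']; exact isThreeCoord_secL0 α _ _) ?_ ?_
    · rw [h4, h6]; exact qR_secL0 t u r s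
    · rw [h4, h6]; exact qS_secY0 α t u r s
  | some i =>
    have hv : (α.w ^ (i : ℕ)) ^ 3 = 1 := by rw [← pow_mul, mul_comm, pow_mul, α.w_cube, one_pow]
    refine isImg_threePt hE t u hE' (by rw [h4, h6]; exact isThreeCoord_secL α hv r s)
      (by rw [h4', h6']; exact isThreeCoord_secL α hv _ _) ?_ ?_
    · rw [h4, h6]; exact qR_secL hv t u r s
    · rw [h4, h6]; exact qS_secYv α hv t u r s

theorem isImg_hom (hE' : E'.Δ ≠ 0) (a : ZMod 3 × ZMod 3) :
    IsImg t u E E' (α.hom hE h4 h6 a) (α.hom hE' h4' h6' a) := by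
  by_cases ha : a = 0
  · subst ha; exact Or.inl ⟨map_zero _, map_zero _⟩
  · obtain ⟨i, ε, hi⟩ := hom_cases α a ha
    rw [hi hE h4 h6, hi hE' h4' h6']
    cases ε
    · exact (isImg_point α hE h4 h6 t u h4' h6' hE' i).neg
    · exact isImg_point α hE h4 h6 t u h4' h6' hE' i

end Move

end Fermat.Agent.SwitchLocal
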