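import Mathlib
import Fermat.Prelude.Def_EllipticCurve_FrobeniusTrace
import Fermat.Agent.EC.FrobTrace.Main
import Fermat.Agent.SwitchLocal.Frame3

/-!
# The Galois equivariant identification `E[3] ≅ E'[3]` along the twisted `X(3)` family
-/

set_option autoImplicit false
set_option linter.unusedSectionVars false

namespace Fermat.Agent.SwitchLocal

open WeierstrassCurve WeierstrassCurve.Affine
open scoped WeierstrassCurve.Affine
open Fermat.Agent.Switch (affX affY)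

local notation "Qb" => AlgebraicClosure ℚ

theorem IsImg.smul {V V' : WeierstrassCurve ℚ} {t u : ℚ} (σ : Qb ≃ₐ[ℚ] Qb)
    {P : (V⁄Qb).toAffine.Point} {P' : (V'⁄Qb).toAffine.Point}
    (h : IsImg (t : Qb) (u : Qb) (V⁄Qb) (V'⁄Qb) P P') :
    IsImg (t : Qb) (u : Qb) (V⁄Qb) (V'⁄Qb) (σ • P) (σ • P') := by
  rcases h with ⟨rfl, rfl⟩ | ⟨x, y, k, x', y', k', rfl, rfl, ex, ey⟩
  · exact Or.inl ⟨smul_zero σ, smul_zero σ⟩
  · have e : σ • (Point.some x y k : (V⁄Qb).toAffine.Point) = Point.map σ.toAlgHom _ := rfl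
    have e' : σ • (Point.some x' y' k' : (V'⁄Qb).toAffine.Point) = Point.map σ.toAlgHom _ := rfl
    rw [e, e', Point.map_some, Point.map_some]
    refine Or.inr ⟨_, _, _, _, _, _, rfl, rfl, ?_, ?_⟩
    · have := congrArg σ ex
      simpa [qR, affX, map_ofNat, WeierstrassCurve.b₂, WeierstrassCurve.b₄,
        WeierstrassCurve.c₄, WeierstrassCurve.c₆, WeierstrassCurve.b₆] using this
    · have := congrArg σ ey
      simpa [qR, qS, affX, affY, map_ofNat, WeierstrassCurve.b₂, WeierstrassCurve.b₄,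
        WeierstrassCurve.c₄, WeierstrassCurve.c₆, WeierstrassCurve.b₆] using this

theorem c₄_baseChange (V : WeierstrassCurve ℚ) : (V⁄Qb).c₄ = (V.c₄ : Qb) :=
  (V.map_c₄ _).trans (eq_ratCast _ _)

theorem c₆_baseChange (V : WeierstrassCurve ℚ) : (V⁄Qb).c₆ = (V.c₆ : Qb) :=
  (V.map_c₆ _).trans (eq_ratCast _ _)

/-- **Twisted `X(3)`**: curves with invariants `(qF4, qF6)` have the same 3-torsion. -/
theorem exists_torsion_three_equiv (V V' : WeierstrassCurve ℚ) (t u : ℚ) (hV : V.Δ ≠ 0)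
    (hV' : V'.Δ ≠ 0) (h4 : V'.c₄ = qF4 V.c₄ V.c₆ t u) (h6 : V'.c₆ = qF6 V.c₄ V.c₆ t u) :
    ∃ φ : Submodule.torsionBy ℤ (V⁄Qb).toAffine.Point (3 : ℕ)
        ≃+ Submodule.torsionBy ℤ (V'⁄Qb).toAffine.Point (3 : ℕ),
      ∀ (σ : Qb ≃ₐ[ℚ] Qb) x, φ (σ • x) = σ • φ x := by
  have hE : (V⁄Qb).Δ ≠ 0 := fun h => hV ((map_eq_zero _).mp ((V.map_Δ _).symm.trans h))
  have hE' : (V'⁄Qb).Δ ≠ 0 := fun h => hV' ((map_eq_zero _).mp ((V'.map_Δ _).symm.trans h))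
  have hd : (V⁄Qb).c₄ ^ 3 - (V⁄Qb).c₆ ^ 2 ≠ 0 := by
    rw [← (V⁄Qb).c_relation]; exact mul_ne_zero (by norm_num) hE
  obtain ⟨r, s, e4, e6⟩ := exists_tC_eq hd
  obtain ⟨α⟩ := nonempty_aux3 (K := Qb)
  have e4' : (V'⁄Qb).c₄ = tC4 (tMovR (t : Qb) u r s) (tMovS (t : Qb) u r s) := by
    rw [← qF4_tC, e4, e6, c₄_baseChange, c₄_baseChange, c₆_baseChange, h4]
    exact map_qF4 (Rat.castHom Qb) _ _ _ _
  have e6' : (V'⁄Qb).c₆ = tC6 (tMovR (t : Qb) u r s) (tMovS (t : Qb) u r s) := by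
    rw [← qF6_tC, e4, e6, c₆_baseChange, c₄_baseChange, c₆_baseChange, h6]
    exact map_qF6 (Rat.castHom Qb) _ _ _ _
  set φ := (α.frame hE e4.symm e6.symm).symm.trans (α.frame hE' e4' e6') with hφ
  have himg : ∀ x, IsImg (t : Qb) (u : Qb) (V⁄Qb) (V'⁄Qb) x.1 (φ x).1 := by
    intro x
    obtain ⟨a, rfl⟩ := (α.frame hE e4.symm e6.symm).surjective x
    rw [hφ, AddEquiv.trans_apply, AddEquiv.symm_apply_apply, frame_coe, frame_coe]
    exact isImg_hom α hE e4.symm e6.symm _ _ e4' e6' hE' a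
  exact ⟨φ, fun σ x => Subtype.ext ((himg (σ • x)).unique _ _ ((himg x).smul σ))⟩

/-- Curves along the family have the same mod 3 Frobenius traces. -/
theorem galoisTrace_three_eq (V V' : WeierstrassCurve ℚ) (t u : ℚ) (hV : V.Δ ≠ 0)
    (hV' : V'.Δ ≠ 0) (h4 : V'.c₄ = qF4 V.c₄ V.c₆ t u) (h6 : V'.c₆ = qF6 V.c₄ V.c₆ t u)
    (σ : Qb ≃ₐ[ℚ] Qb) :
    Point.galoisTrace (K := Qb) ℚ V.toAffine 3 σ
      = Point.galoisTrace (K := Qb) ℚ V'.toAffine 3 σ := by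
  obtain ⟨φ, hφ⟩ := exists_torsion_three_equiv V V' t u hV hV' h4 h6
  let φl : Submodule.torsionBy ℤ (V⁄Qb).toAffine.Point (3 : ℕ) ≃ₗ[ZMod 3]
      Submodule.torsionBy ℤ (V'⁄Qb).toAffine.Point (3 : ℕ) :=
    { φ with map_smul' := fun c x => ZMod.map_smul φ.toAddMonoidHom c x }
  rw [Point.galoisTrace_def, Point.galoisTrace_def,
    ← LinearMap.trace_conj' (Point.galoisRepModuleEnd (K := Qb) ℚ V.toAffine 3 σ) φl]
  congr 1
  refine LinearMap.ext fun y => ?_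
  rw [LinearEquiv.conj_apply_apply, Point.galoisRepModuleEnd_apply,
    Point.galoisRepModuleEnd_apply]
  show φ (σ • φl.symm y) = _
  rw [hφ, show φ (φl.symm y) = y from φl.apply_symm_apply y]

/-- Integral models along the family: `aₗ' ≡ aₗ (mod 3)`. -/
theorem three_dvd_apOfModel_sub {W W' : WeierstrassCurve ℤ} (t u : ℚ) (hΔ : W.Δ ≠ 0)
    (hΔ' : W'.Δ ≠ 0) (h4 : (W'.c₄ : ℚ) = qF4 (W.c₄ : ℚ) W.c₆ t u)
    (h6 : (W'.c₆ : ℚ) = qF6 (W.c₄ : ℚ) W.c₆ t u) {ℓ : ℕ} (hℓ : ℓ.Prime)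
    (hg : W.IsGoodPrimeFor ℓ) (hg' : W'.IsGoodPrimeFor ℓ) (h3 : ℓ ≠ 3) :
    (3 : ℤ) ∣ (W'.apOfModel ℓ - W.apOfModel ℓ) := by
  have : Fact (Nat.Prime 3) := ⟨by norm_num⟩
  obtain ⟨A, hA⟩ := Arith.exists_liesOverPrime hℓ
  obtain ⟨σ, hσ⟩ := Arith.exists_isFrobeniusAt hA hℓ
  have e := EC.FrobTrace.galoisTrace_frobenius (p := 3) W hℓ hg h3 hA hσ
  have e' := EC.FrobTrace.galoisTrace_frobenius (p := 3) W' hℓ hg' h3 hA hσ
  have key := galoisTrace_three_eq (W.map (Int.castRingHom ℚ)) (W'.map (Int.castRingHom ℚ)) t u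
    (by simpa using hΔ) (by simpa using hΔ') (by simpa using h4) (by simpa using h6) σ
  rw [show (W.map (Int.castRingHom ℚ)).toAffine = W.map (Int.castRingHom ℚ) from rfl, e,
    show (W'.map (Int.castRingHom ℚ)).toAffine = W'.map (Int.castRingHom ℚ) from rfl, e'] at key
  exact (ZMod.intCast_zmod_eq_zero_iff_dvd _ 3).mp (by push_cast; rw [key, sub_self])

end Fermat.Agent.SwitchLocal
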