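import Mathlib
import Fermat.Agent.SwitchLocal.Iso3
import Fermat.Agent.SwitchLocal.Classes3

/-!
# A member of the twisted `X(3)` family with prescribed local classes, as a semistable model
-/

set_option autoImplicit false

namespace Fermat.Agent.SwitchLocal

open WeierstrassCurve

/-- The two invariants have no common zero away from the discriminant and `6`. -/
theorem eq_zero_of_qG_qF4 {K : Type*} [Field K] {c d t u : K} (h2 : (2 : K) ≠ 0)
    (h3 : (3 : K) ≠ 0) (hcd : c ^ 3 - d ^ 2 ≠ 0) (hG : qG c d t u = 0) (hF : qF4 c d t u = 0) :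
    t = 0 ∧ u = 0 := by
  simp only [qG, qF4] at hG hF
  by_cases hu : u = 0
  · subst hu
    exact ⟨by simpa using hG, rfl⟩
  have h4u : 4 * u ≠ 0 := mul_ne_zero (by rw [show (4 : K) = 2 * 2 by norm_num]; simp [h2]) hu
  have hH : d * t ^ 3 + 3 * c ^ 2 * t ^ 2 * u + 3 * c * d * t * u ^ 2 + d ^ 2 * u ^ 3 = 0 := by
    apply mul_left_cancel₀ h4u
    linear_combination hF - c * hG
  have hH' : c ^ 2 * t ^ 3 + 3 * c * d * t ^ 2 * u + 3 * d ^ 2 * t * u ^ 2 + c ^ 2 * d * u ^ 3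
      = 0 := by
    apply mul_left_cancel₀ (mul_ne_zero h3 hu)
    linear_combination -d * hG + t * hH
  have h0 : t * ((c ^ 3 - d ^ 2) * (c * t + d * u)) = 0 := by
    apply mul_left_cancel₀ (mul_ne_zero h3 hu)
    linear_combination c ^ 2 * hH - d * hH'
  rcases mul_eq_zero.mp h0 with ht | hx
  · subst ht
    exfalso
    have hd : d ^ 2 * u ^ 3 = 0 := by linear_combination hH
    have hd0 : d = 0 := by simpa [hu] using hd
    have hc : 3 * c ^ 2 * u ^ 4 = 0 := by linear_combination -hG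
    exact hcd (by simp [show c = 0 by simpa [hu, h3] using hc, hd0])
  · exfalso
    have hx' := (mul_eq_zero.mp hx).resolve_left hcd
    have hd : (c ^ 3 - d ^ 2) * (4 * d ^ 2 + 3 * (c ^ 3 - d ^ 2)) * u ^ 4 = 0 := by
      linear_combination -c ^ 4 * hG + (((c * t + d * u) - 2 * d * u) * ((c * t + d * u) ^ 2
        - 2 * d * u * (c * t + d * u) + 2 * d ^ 2 * u ^ 2) - 6 * c ^ 3 * u ^ 2
        * ((c * t + d * u) - 2 * d * u) - 8 * d * c ^ 3 * u ^ 3) * hx'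
    have hf : 3 * (c ^ 3 - d ^ 2) ^ 2 * u ^ 4 = 0 := by
      linear_combination -c ^ 3 * hF + (((c * t + d * u) - 2 * d * u) * ((c * t + d * u) ^ 2
        - 2 * d * u * (c * t + d * u) + 2 * d ^ 2 * u ^ 2)
        + 4 * d * u * ((c * t + d * u) ^ 2 - 3 * d * u * (c * t + d * u) + 3 * d ^ 2 * u ^ 2)
        + 6 * c ^ 3 * u ^ 2 * ((c * t + d * u) - 2 * d * u) + 4 * d * c ^ 3 * u ^ 3) * hx'
    simp [h3, hcd, hu] at hf

variable (W : WeierstrassCurve ℤ)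

theorem okAtThree_c₆ : OkAtThree W.c₆ := by
  by_cases h : (3 : ℤ) ∣ W.c₆
  · refine Or.inr ?_
    have hb : (3 : ℤ) ∣ W.b₂ := by
      refine Int.prime_three.dvd_of_dvd_pow (n := 3) ?_
      obtain ⟨w, hw⟩ := h
      exact ⟨-w + 12 * W.b₂ * W.b₄ - 72 * W.b₆, by
        simp only [WeierstrassCurve.c₆] at hw; linear_combination -hw⟩
    obtain ⟨w, hw⟩ := hb
    exact ⟨-w ^ 3 + 4 * w * W.b₄ - 8 * W.b₆, by simp only [WeierstrassCurve.c₆, hw]; ring⟩
  · exact Or.inl h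

theorem okAtThree_iff_of_dvd {x y : ℤ} (h : (27 : ℤ) ∣ x - y) : OkAtThree x ↔ OkAtThree y := by
  unfold OkAtThree
  rw [dvd_of_congr h (dvd_refl _), dvd_of_congr h (by norm_num : (3 : ℤ) ∣ 27)]

/-- **The member of the family at a parameter satisfying the local conditions.** -/
theorem exists_member {t u : ℤ} {n : ℕ} (hΔ : W.Δ ≠ 0) (hco : IsCoprime t u)
    (hG0 : qG W.c₄ W.c₆ t u ≠ 0) (h2 : TwoClass n W.c₄ W.c₆ t u)
    (h3 : OkAtThree (qF6 W.c₄ W.c₆ t u))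
    (hbad : ∀ q : ℕ, q.Prime → q ≠ 2 → ((q : ℤ) ∣ W.Δ ∨ q = 3) →
      (q : ℤ) ∣ qF4 W.c₄ W.c₆ t u → ¬ (q : ℤ) ∣ W.Δ * qG W.c₄ W.c₆ t u) :
    ∃ (W' : WeierstrassCurve ℤ) (g : ℤ), qG W.c₄ W.c₆ t u = 256 * g ∧
      W'.Δ = W.Δ * g ^ 3 ∧ 256 * W'.c₄ = qF4 W.c₄ W.c₆ t u ∧ W'.Δ ≠ 0 ∧
      W'.IsSemistableModel ∧ ¬ (2 : ℤ) ∣ W'.c₄ ∧
      ∀ ℓ : ℕ, ℓ.Prime → W.IsGoodPrimeFor ℓ → W'.IsGoodPrimeFor ℓ → ℓ ≠ 3 →
        (3 : ℤ) ∣ W'.apOfModel ℓ - W.apOfModel ℓ := by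
  obtain ⟨hG, hF4, j, hj⟩ := h2
  obtain ⟨g, hg⟩ : (256 : ℤ) ∣ qG W.c₄ W.c₆ t u :=
    Dvd.dvd.trans (by norm_num [pow_add]) hG.1
  obtain ⟨c', hc'⟩ := hF4.1
  norm_num at hc'
  have hc'odd : ¬ (2 : ℤ) ∣ c' := fun ⟨e, he⟩ => hF4.2 ⟨e, by rw [hc', he]; push_cast; ring⟩
  set d' : ℤ := 4 * j + 3 with hd'
  have hd6 : qF6 W.c₄ W.c₆ t u = 4096 * d' := by rw [hd']; linarith
  have hrel : c' ^ 3 - d' ^ 2 = 1728 * (W.Δ * g ^ 3) := by
    have e := qF4_cube_sub_qF6_sq W.c₄ W.c₆ t u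
    rw [hc', hd6, ← W.c_relation, hg] at e
    apply mul_left_cancel₀ (show (16777216 : ℤ) ≠ 0 by norm_num)
    linear_combination e
  have h3' : OkAtThree d' := by
    rw [hd6] at h3
    rcases h3 with h | h
    · exact Or.inl fun hd => h (hd.mul_left _)
    · exact Or.inr (Int.dvd_of_dvd_mul_right_of_gcd_one h (by norm_num))
  obtain ⟨W', hc4, hc6, hD⟩ := exists_model hrel h3' (Or.inl ⟨hc'odd, ⟨j, by rw [hd']; ring⟩⟩)
  have hg0 : g ≠ 0 := fun h => hG0 (by rw [hg, h, mul_zero])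
  have hD0 : W'.Δ ≠ 0 := by rw [hD]; exact mul_ne_zero hΔ (pow_ne_zero 3 hg0)
  refine ⟨W', g, hg, hD, by rw [hc4, hc'], hD0, ?_, by rw [hc4]; exact hc'odd, ?_⟩
  · intro q hq hqΔ hqc
    rw [hc4] at hqc
    rw [hD] at hqΔ
    have hqi : Prime (q : ℤ) := Nat.prime_iff_prime_int.mp hq
    rcases eq_or_ne q 2 with rfl | hq2
    · exact hc'odd hqc
    have hqF : (q : ℤ) ∣ qF4 W.c₄ W.c₆ t u := hc' ▸ hqc.mul_left _
    have hqG : (q : ℤ) ∣ W.Δ * qG W.c₄ W.c₆ t u := by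
      rcases hqi.dvd_or_dvd hqΔ with h | h
      · exact dvd_mul_of_dvd_left h _
      · exact (hg ▸ (hqi.dvd_of_dvd_pow h).mul_left 256).mul_left _
    by_cases hb : (q : ℤ) ∣ W.Δ ∨ q = 3
    · exact hbad q hq hq2 hb hqF hqG
    rw [not_or] at hb
    have : Fact q.Prime := ⟨hq⟩
    have hz : ∀ x : ℤ, (q : ℤ) ∣ x → (x : ZMod q) = 0 := fun x =>
      (ZMod.intCast_zmod_eq_zero_iff_dvd x q).mpr
    have hne : ∀ p : ℕ, p.Prime → q ≠ p → (p : ZMod q) ≠ 0 := fun p hp hqp h =>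
      hqp ((Nat.prime_dvd_prime_iff_eq hq hp).mp ((ZMod.natCast_eq_zero_iff p q).mp h))
    have h2' : (2 : ZMod q) ≠ 0 := by exact_mod_cast hne 2 Nat.prime_two hq2
    have h3'' : (3 : ZMod q) ≠ 0 := by exact_mod_cast hne 3 Nat.prime_three hb.2
    have hcd : (W.c₄ : ZMod q) ^ 3 - (W.c₆ : ZMod q) ^ 2 ≠ 0 := by
      rw [show (W.c₄ : ZMod q) ^ 3 - (W.c₆ : ZMod q) ^ 2 = 2 ^ 6 * 3 ^ 3 * (W.Δ : ZMod q) by
        rw [show (2 : ZMod q) ^ 6 * 3 ^ 3 = 1728 by norm_num]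
        exact_mod_cast congrArg (Int.cast (R := ZMod q)) W.c_relation.symm]
      exact mul_ne_zero (mul_ne_zero (pow_ne_zero _ h2') (pow_ne_zero _ h3''))
        fun h => hb.1 ((ZMod.intCast_zmod_eq_zero_iff_dvd _ q).mp h)
    obtain ⟨et, eu⟩ := eq_zero_of_qG_qF4 (t := (t : ZMod q)) (u := (u : ZMod q)) h2' h3'' hcd
      (by
        have h := hz _ ((hqi.dvd_or_dvd hqG).resolve_left hb.1)
        rw [← eq_intCast (Int.castRingHom (ZMod q)), map_qG] at h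
        simpa using h)
      (by
        have h := hz _ hqF
        rw [← eq_intCast (Int.castRingHom (ZMod q)), map_qF4] at h
        simpa using h)
    exact hqi.not_isUnit (hco.isUnit_of_dvd' ((ZMod.intCast_zmod_eq_zero_iff_dvd _ q).mp et)
      ((ZMod.intCast_zmod_eq_zero_iff_dvd _ q).mp eu))
  · intro ℓ hℓ hgood hgood' hℓ3
    refine three_dvd_apOfModel_sub ((t : ℚ) / 4) ((u : ℚ) / 4) hΔ hD0 ?_ ?_ hℓ hgood hgood' hℓ3
    · rw [hc4, show (t : ℚ) / 4 = (1 / 4) * t by ring, show (u : ℚ) / 4 = (1 / 4) * u by ring,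
        qF4_smul]
      have h := congrArg (Int.castRingHom ℚ) hc'
      rw [map_qF4] at h
      simp only [eq_intCast] at h
      rw [h]; push_cast; ring
    · rw [hc6, show (t : ℚ) / 4 = (1 / 4) * t by ring, show (u : ℚ) / 4 = (1 / 4) * u by ring,
        qF6_smul]
      have h := congrArg (Int.castRingHom ℚ) hd6
      rw [map_qF6] at h
      simp only [eq_intCast] at h
      rw [h]; push_cast; ring

/-- Simultaneous congruences at finitely many primes. -/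
theorem exists_forall_congr (S : Finset ℕ) (hS : ∀ q ∈ S, q.Prime) (N : ℕ → ℕ) (f : ℕ → ℤ) :
    ∃ z : ℤ, ∀ q ∈ S, (q : ℤ) ^ N q ∣ z - f q := by
  classical
  induction S using Finset.induction_on with
  | empty => exact ⟨0, by simp⟩
  | insert p S hp ih =>
    obtain ⟨z, hz⟩ := ih fun q hq => hS q (Finset.mem_insert_of_mem hq)
    have hcop : IsCoprime ((p : ℤ) ^ N p) (∏ q ∈ S, (q : ℤ) ^ N q) := by
      refine IsCoprime.prod_right fun q hq => IsCoprime.pow ?_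
      rw [Int.isCoprime_iff_nat_coprime, Int.natAbs_natCast, Int.natAbs_natCast]
      exact (Nat.coprime_primes (hS p (Finset.mem_insert_self _ _))
        (hS q (Finset.mem_insert_of_mem hq))).mpr fun h => hp (h ▸ hq)
    obtain ⟨a, b, hab⟩ := hcop
    refine ⟨z + (f p - z) * b * ∏ q ∈ S, (q : ℤ) ^ N q, fun q hq => ?_⟩
    rcases Finset.mem_insert.mp hq with rfl | hq'
    · exact ⟨-(f q - z) * a, by linear_combination (f q - z) * hab⟩
    · rw [add_sub_right_comm]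
      exact dvd_add (hz q hq') (dvd_mul_of_dvd_right (Finset.dvd_prod_of_mem _ hq') _)

end Fermat.Agent.SwitchLocal
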