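import Mathlib
import Fermat.Agent.Squarefree.Quartic
import Fermat.Agent.SwitchLocal.Member3

/-!
# Choosing the parameter of the twisted `X(3)` family
-/

set_option autoImplicit false

namespace Fermat.Agent.SwitchLocal

open WeierstrassCurve

theorem qForm_eq_qG (c d t u : ℤ) :
    Squarefree.qForm 1 0 (-6 * c) (-8 * d) (-3 * c ^ 2) t u = qG c d t u := by
  simp only [Squarefree.qForm, qG]; ring

theorem qDisc_eq (c d Δ : ℤ) (hrel : c ^ 3 - d ^ 2 = 1728 * Δ) :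
    Squarefree.qDisc 1 0 (-6 * c) (-8 * d) (-3 * c ^ 2) = -(2 ^ 24 * 3 ^ 9) * Δ ^ 2 := by
  have h := Squarefree.qDisc_invariants (R := ℤ) 1 0 (-6 * c) (-8 * d) (-3 * c ^ 2)
  have e : 27 * Squarefree.qDisc 1 0 (-6 * c) (-8 * d) (-3 * c ^ 2) = -(1728 * (1728 * Δ)) ^ 2 := by
    rw [h, ← hrel]; ring
  apply mul_left_cancel₀ (show (27 : ℤ) ≠ 0 by norm_num)
  rw [e]; ring

theorem ExactPow.not_dvd {q : ℕ} {x : ℤ} (h : ExactPow q 0 x) : ¬ (q : ℤ) ∣ x := by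
  simpa [ExactPow] using h

theorem ExactPow.padicValInt_eq {q n : ℕ} [Fact q.Prime] {x : ℤ} (h : ExactPow q n x) :
    padicValInt q x = n := by
  have hx : x ≠ 0 := fun e => h.2 (e ▸ dvd_zero _)
  refine le_antisymm ?_ (((padicValInt_dvd_iff n x).mp h.1).resolve_left hx)
  by_contra hlt
  exact h.2 ((padicValInt_dvd_iff (n + 1) x).mpr (Or.inr (by omega)))

theorem exactPow_of_256_mul {q n : ℕ} (hq : q.Prime) (hq2 : q ≠ 2) {g : ℤ}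
    (h : ExactPow q n (256 * g)) : ExactPow q n g := by
  have hco : ∀ j : ℕ, IsCoprime ((q : ℤ) ^ j) (256 : ℤ) := fun j => by
    refine IsCoprime.pow_left ?_
    rw [show (256 : ℤ) = ((2 : ℕ) : ℤ) ^ 8 by norm_num]
    refine IsCoprime.pow_right ?_
    rw [Int.isCoprime_iff_nat_coprime, Int.natAbs_natCast, Int.natAbs_natCast]
    exact (Nat.coprime_primes hq Nat.prime_two).mpr hq2
  exact ⟨(hco n).dvd_of_dvd_mul_left h.1, fun e => h.2 (e.mul_left _)⟩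

theorem exactPow_two_of_256_mul {n : ℕ} {g : ℤ} (h : ExactPow 2 (8 + n) (256 * g)) :
    ExactPow 2 n g := by
  unfold ExactPow at h ⊢
  push_cast at h ⊢
  rw [show (256 : ℤ) = 2 ^ 8 by norm_num, pow_add, add_assoc, pow_add,
    mul_dvd_mul_iff_left (by positivity), mul_dvd_mul_iff_left (by positivity)] at h
  exact h

variable (W : WeierstrassCurve ℤ)

/-- A valuation is attainable at an odd prime: `0` always, `n ≥ 1` at a multiplicative prime. -/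
theorem exists_oddClass (hW : W.IsSemistableModel) {q : ℕ} (hq : q.Prime) (hq2 : q ≠ 2)
    (n : ℕ) (hn : (q : ℤ) ∣ W.Δ ∨ n = 0) :
    ∃ t₀ u₀ : ℤ, ¬ ((q : ℤ) ∣ t₀ ∧ (q : ℤ) ∣ u₀) ∧ (n = 0 → t₀ = 1 ∧ u₀ = 0) ∧
      ExactPow q n (qG W.c₄ W.c₆ t₀ u₀) ∧
      ((q : ℤ) ∣ W.Δ → ¬ (q : ℤ) ∣ qF4 W.c₄ W.c₆ t₀ u₀) ∧
      (q = 3 → OkAtThree (qF6 W.c₄ W.c₆ t₀ u₀)) := by
  have hq1 : ¬ (q : ℤ) ∣ 1 := (Nat.prime_iff_prime_int.mp hq).not_dvd_one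
  rcases Nat.eq_zero_or_pos n with rfl | hpos
  · refine ⟨1, 0, fun h => hq1 h.1, fun _ => ⟨rfl, rfl⟩, ?_, fun h => ?_, fun _ => ?_⟩
    · rw [qG_one_zero]; exact ⟨by simp, by simpa using hq1⟩
    · rw [qF4_one_zero]; exact hW q hq h
    · rw [qF6_one_zero]; exact okAtThree_c₆ W
  · have hΔ : (q : ℤ) ∣ W.Δ := hn.resolve_right (by omega)
    obtain ⟨t₀, hG, hF⟩ :=
      exists_cuspClass hq hq2 W.c_relation.symm hΔ (hW q hq hΔ) (d := W.c₆) (n := n) hpos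
    refine ⟨t₀, 1, fun h => hq1 h.2, fun h => absurd h (by omega), hG, fun _ => hF,
      fun h3 => Or.inl ?_⟩
    subst h3
    push_cast at hF hΔ
    intro h6
    refine hF (Int.prime_three.dvd_of_dvd_pow (n := 3) ?_)
    have e := qF4_cube_sub_qF6_sq W.c₄ W.c₆ t₀ 1
    rw [← W.c_relation, sub_eq_iff_eq_add] at e
    rw [e]
    exact dvd_add ((hΔ.mul_left _).mul_right _) (dvd_pow h6 two_ne_zero)

/-- A good parameter: all conclusions on the member it gives. -/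
structure Result3 (W W' : WeierstrassCurve ℤ) (n : ℕ) (m : ℕ → ℕ) (S : Finset ℕ) (t u g : ℤ) :
    Prop where
  cop : IsCoprime t u
  upos : 0 < u
  qG_eq : qG W.c₄ W.c₆ t u = 256 * g
  qF4_eq : 256 * W'.c₄ = qF4 W.c₄ W.c₆ t u
  Δ_eq : W'.Δ = W.Δ * g ^ 3
  Δ_ne : W'.Δ ≠ 0
  semistable : W'.IsSemistableModel
  c₄_odd : ¬ (2 : ℤ) ∣ W'.c₄
  congr_three : ∀ ℓ : ℕ, ℓ.Prime → W.IsGoodPrimeFor ℓ → W'.IsGoodPrimeFor ℓ → ℓ ≠ 3 →
    (3 : ℤ) ∣ W'.apOfModel ℓ - W.apOfModel ℓ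
  val_two : ExactPow 2 n g
  val_odd : ∀ q ∈ S, q ≠ 2 → ExactPow q (m q) g
  sqfree : ∀ q : ℕ, q.Prime → q ∉ S → ¬ (q : ℤ) ^ 2 ∣ g

/-- **The engine**: prescribed valuations of `g` on `S`, squarefree elsewhere, slope in `(α, β)`. -/
theorem exists_param (hΔ : W.Δ ≠ 0) (hW : W.IsSemistableModel) {t₂ : ℤ} {n : ℕ}
    (h2 : TwoClass n W.c₄ W.c₆ t₂ 1) (S : Finset ℕ) (hS : ∀ q ∈ S, q.Prime) (hS2 : 2 ∈ S)
    (hS3 : 3 ∈ S) (hSΔ : ∀ q : ℕ, q.Prime → (q : ℤ) ∣ W.Δ → q ∈ S) (m : ℕ → ℕ)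
    (hm : ∀ q ∈ S, q ≠ 2 → (q : ℤ) ∣ W.Δ ∨ m q = 0) (α β : ℝ) (hαβ : α < β) :
    ∃ (W' : WeierstrassCurve ℤ) (t u g : ℤ), Result3 W W' n m S t u g ∧
      α < (t : ℝ) / u ∧ (t : ℝ) / u < β ∧ (2 : ℤ) ^ (n + 14) ∣ t - t₂ ∧
      (2 : ℤ) ^ (n + 14) ∣ u - 1 ∧ ∀ q ∈ S, q ≠ 2 → m q = 0 → (q : ℤ) ∣ u := by
  classical
  have hcls : ∀ q, ∃ p : ℤ × ℤ, q ∈ S → q ≠ 2 →
      ¬ ((q : ℤ) ∣ p.1 ∧ (q : ℤ) ∣ p.2) ∧ (m q = 0 → p = (1, 0)) ∧
      ExactPow q (m q) (qG W.c₄ W.c₆ p.1 p.2) ∧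
      ((q : ℤ) ∣ W.Δ → ¬ (q : ℤ) ∣ qF4 W.c₄ W.c₆ p.1 p.2) ∧
      (q = 3 → OkAtThree (qF6 W.c₄ W.c₆ p.1 p.2)) := by
    intro q
    by_cases h : q ∈ S ∧ q ≠ 2
    · obtain ⟨a, b, h1, h2', h3⟩ := exists_oddClass W hW (hS q h.1) h.2 (m q) (hm q h.1 h.2)
      exact ⟨(a, b), fun _ _ => ⟨h1, fun e => Prod.ext (h2' e).1 (h2' e).2, h3⟩⟩
    · exact ⟨0, fun h1 h2' => absurd ⟨h1, h2'⟩ h⟩
  choose cls hcls using hcls
  set N : ℕ → ℕ := fun q => if q = 2 then n + 14 else m q + 3 with hN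
  obtain ⟨t₀, ht₀⟩ := exists_forall_congr S hS N fun q => if q = 2 then t₂ else (cls q).1
  obtain ⟨u₀, hu₀⟩ := exists_forall_congr S hS N fun q => if q = 2 then 1 else (cls q).2
  set M : ℕ := ∏ q ∈ S, q ^ N q with hM
  have hN0 : ∀ q, N q ≠ 0 := fun q => by simp only [hN]; split <;> omega
  have hqN : ∀ q ∈ S, ((q : ℤ) ^ N q) ∣ (M : ℤ) := fun q hq => by
    exact_mod_cast Finset.dvd_prod_of_mem (fun q => q ^ N q) hq
  have hprim : ∀ p : ℕ, p.Prime → p ∣ M → ¬ ((p : ℤ) ∣ t₀ ∧ (p : ℤ) ∣ u₀) := by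
    intro p hp hd h
    obtain ⟨q, hq, hpq⟩ := (hp.prime.dvd_finsetProd_iff _).mp hd
    obtain rfl := (Nat.prime_dvd_prime_iff_eq hp (hS q hq)).mp (hp.dvd_of_dvd_pow hpq)
    have h1 := (dvd_of_congr (ht₀ p hq) (dvd_pow_self _ (hN0 p))).mp h.1
    have h2' := (dvd_of_congr (hu₀ p hq) (dvd_pow_self _ (hN0 p))).mp h.2
    by_cases hp2 : p = 2
    · subst hp2; simp only [if_pos] at h2'; norm_num at h2'
    · simp only [if_neg hp2] at h1 h2'; exact (hcls p hq hp2).1 ⟨h1, h2'⟩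
  have hdisc : ∀ p : ℕ, p.Prime →
      (p : ℤ) ∣ Squarefree.qDisc 1 0 (-6 * W.c₄) (-8 * W.c₆) (-3 * W.c₄ ^ 2) → p ∈ S := by
    intro p hp hd
    rw [qDisc_eq _ _ _ W.c_relation.symm] at hd
    have hpi : Prime (p : ℤ) := Nat.prime_iff_prime_int.mp hp
    rcases hpi.dvd_or_dvd hd with h | h
    · rcases hpi.dvd_or_dvd (dvd_neg.mp h) with h | h
      · have := hpi.dvd_of_dvd_pow h
        exact (Nat.prime_dvd_prime_iff_eq hp Nat.prime_two).mp (by exact_mod_cast this) ▸ hS2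
      · have := hpi.dvd_of_dvd_pow h
        exact (Nat.prime_dvd_prime_iff_eq hp Nat.prime_three).mp (by exact_mod_cast this) ▸ hS3
    · exact hSΔ p hp (hpi.dvd_of_dvd_pow h)
  obtain ⟨t, u, hco, htM, huM, hu, hα, hβ, hne, hsf⟩ := Squarefree.exists_squarefree_value
    1 0 (-6 * W.c₄) (-8 * W.c₆) (-3 * W.c₄ ^ 2) S hS2 hS3
    (fun p hp h => absurd h (Nat.prime_iff_prime_int.mp hp).not_dvd_one) hdisc M
    (Finset.prod_pos fun q hq => pow_pos (hS q hq).pos _)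
    (fun p hp hd => by
      obtain ⟨q, hq, hpq⟩ := (hp.prime.dvd_finsetProd_iff _).mp hd
      exact (Nat.prime_dvd_prime_iff_eq hp (hS q hq)).mp (hp.dvd_of_dvd_pow hpq) ▸ hq)
    t₀ u₀ hprim α β hαβ
  rw [qForm_eq_qG] at hne
  simp only [qForm_eq_qG] at hsf
  have htq : ∀ q ∈ S, (q : ℤ) ^ N q ∣ t - (if q = 2 then t₂ else (cls q).1) := fun q hq => by
    simpa using dvd_add ((hqN q hq).trans htM) (ht₀ q hq)
  have huq : ∀ q ∈ S, (q : ℤ) ^ N q ∣ u - (if q = 2 then 1 else (cls q).2) := fun q hq => by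
    simpa using dvd_add ((hqN q hq).trans huM) (hu₀ q hq)
  have ht2' := htq 2 hS2
  have hu2' := huq 2 hS2
  simp only [hN, if_pos, Nat.cast_ofNat] at ht2' hu2'
  obtain ⟨cG, cF, c6⟩ := forms_congr W.c₄ W.c₆ ht2' hu2'
  have h2' : TwoClass n W.c₄ W.c₆ t u := by
    refine ⟨ExactPow.congr cG (pow_dvd_pow _ (by omega)) h2.1,
      ExactPow.congr cF (pow_dvd_pow _ (by omega)) h2.2.1, ?_⟩
    have : (16384 : ℤ) ∣ qF6 W.c₄ W.c₆ t u - qF6 W.c₄ W.c₆ t₂ 1 :=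
      Dvd.dvd.trans (by rw [show (16384 : ℤ) = 2 ^ 14 by norm_num]; exact pow_dvd_pow _ (by omega)) c6
    simpa using dvd_add this h2.2.2
  have hodd : ∀ q ∈ S, q ≠ 2 → ExactPow q (m q) (qG W.c₄ W.c₆ t u) ∧
      ((q : ℤ) ∣ W.Δ → ¬ (q : ℤ) ∣ qF4 W.c₄ W.c₆ t u) ∧
      (q = 3 → OkAtThree (qF6 W.c₄ W.c₆ t u)) ∧ (m q = 0 → (q : ℤ) ∣ u) := by
    intro q hq hq2
    have ht' := htq q hq
    have hu' := huq q hq
    simp only [hN, if_neg hq2] at ht' hu'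
    obtain ⟨eG, eF, e6⟩ := forms_congr W.c₄ W.c₆ ht' hu'
    obtain ⟨-, h10, hG, hF, h3⟩ := hcls q hq hq2
    refine ⟨ExactPow.congr eG (pow_dvd_pow _ (by omega)) hG,
      fun h h' => hF h ((dvd_of_congr eF (dvd_pow_self _ (by omega))).mp h'),
      fun h => ?_, fun h => ?_⟩
    · refine (okAtThree_iff_of_dvd ?_).mpr (h3 h)
      refine Dvd.dvd.trans ?_ e6
      subst h
      rw [show (27 : ℤ) = 3 ^ 3 by norm_num]
      exact pow_dvd_pow _ (by omega)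
    · rw [h10 h] at hu'
      simpa using (dvd_pow_self (q : ℤ) (by omega : m q + 3 ≠ 0)).trans hu'
  obtain ⟨W', g, hg, hD, hF4, hD0, hss, hc4, hcong⟩ := exists_member W hΔ hco hne h2'
    ((hodd 3 hS3 (by norm_num)).2.2.1 rfl)
    (fun q hq hq2 hb hqF hqG => by
      have hqS : q ∈ S := hb.elim (hSΔ q hq) fun h => h ▸ hS3
      obtain ⟨hG, hF, -, hu0⟩ := hodd q hqS hq2
      have hqi : Prime (q : ℤ) := Nat.prime_iff_prime_int.mp hq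
      rcases hqi.dvd_or_dvd hqG with h | h
      · exact hF h hqF
      · rcases hm q hqS hq2 with h' | h'
        · exact hF h' hqF
        · rw [h'] at hG
          exact hG.not_dvd h)
  refine ⟨W', t, u, g, ⟨hco, hu, hg, hF4, hD, hD0, hss, hc4, hcong, ?_, fun q hq hq2 => ?_,
    fun q hq hqS h => hsf q hq hqS ?_⟩, hα, hβ, ht2', hu2',
    fun q hq hq2 => (hodd q hq hq2).2.2.2⟩
  · exact exactPow_two_of_256_mul (hg ▸ h2'.1)
  · exact exactPow_of_256_mul (hS q hq) hq2 (hg ▸ (hodd q hq hq2).1)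
  · exact hg ▸ h.mul_left _

end Fermat.Agent.SwitchLocal
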