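import Mathlib
import Fermat.Agent.SwitchLocal.Param3
import Fermat.Agent.SwitchLocal.Big5

/-!
# The two `X(3)` switches of the two-adic route

`exists_switch_three_classC`: to a curve of class C (good ordinary at 2, `Δ ≡ 5 (mod 8)`, `Δ < 0`,
all bad valuations odd). `exists_switch_three_mult_five`: to a curve multiplicative at 2 with
`5 ∣ v₂(Δ)` and irreducible 5-torsion.
-/

set_option autoImplicit false

namespace Fermat.Agent.SwitchLocal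

open WeierstrassCurve

/-- Class C of the two-adic modularity theorem. -/
def ClassC (W : WeierstrassCurve ℤ) : Prop :=
  W.Δ < 0 ∧ ¬ (2 : ℤ) ∣ W.Δ ∧ ¬ (2 : ℤ) ∣ W.c₄ ∧ (8 : ℤ) ∣ W.Δ - 5 ∧
    ∀ q : ℕ, q.Prime → (q : ℤ) ∣ W.Δ → Odd (padicValInt q W.Δ)

/-- `W'` is good at 3 and 5 where `W` is, and its valuation at 3 is that of `W` modulo 3. -/
def KeepsOddPlaces (W W' : WeierstrassCurve ℤ) : Prop :=
  (W.IsGoodPrimeFor 3 → W'.IsGoodPrimeFor 3) ∧ (W.IsGoodPrimeFor 5 → W'.IsGoodPrimeFor 5) ∧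
    (¬ 3 ∣ padicValInt 3 W.Δ → ¬ 3 ∣ padicValInt 3 W'.Δ)

variable {W : WeierstrassCurve ℤ}

/-- The invariants of a model with good reduction at 2 and even `c₄`. -/
theorem exists_ss_invariants (W : WeierstrassCurve ℤ) (hg : ¬ (2 : ℤ) ∣ W.Δ)
    (hc : (2 : ℤ) ∣ W.c₄) :
    ∃ γ δ : ℤ, W.c₄ = 16 * γ ∧ W.c₆ = 8 * δ ∧ (4 : ℤ) ∣ δ - 1 := by
  obtain ⟨e, he⟩ : (2 : ℤ) ∣ W.a₁ := by
    by_contra ha
    have ha4 : ¬ (2 : ℤ) ∣ W.a₁ ^ 4 := fun h => ha (Int.prime_two.dvd_of_dvd_pow h)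
    refine ha4 ?_
    obtain ⟨w, hw⟩ := hc
    exact ⟨w - 4 * W.a₁ ^ 2 * W.a₂ - 8 * W.a₂ ^ 2 + 24 * W.a₄ + 12 * W.a₁ * W.a₃, by
      simp only [WeierstrassCurve.c₄, WeierstrassCurve.b₂, WeierstrassCurve.b₄] at hw
      linear_combination hw⟩
  set B := e ^ 2 + W.a₂ with hB
  set C := W.a₄ + e * W.a₃ with hC
  have hb2 : W.b₂ = 4 * B := by simp only [WeierstrassCurve.b₂, he, hB]; ring
  have hb4 : W.b₄ = 2 * C := by simp only [WeierstrassCurve.b₄, he, hC]; ring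
  have ha3 : ¬ (2 : ℤ) ∣ W.a₃ := by
    rintro ⟨f, hf⟩
    refine hg ⟨-8 * B ^ 2 * W.b₈ - 32 * C ^ 3 - 216 * (f ^ 2 + W.a₆) ^ 2
      + 144 * B * C * (f ^ 2 + W.a₆), ?_⟩
    have hb6 : W.b₆ = 4 * (f ^ 2 + W.a₆) := by simp only [WeierstrassCurve.b₆, hf]; ring
    simp only [WeierstrassCurve.Δ, hb2, hb4, hb6]; ring
  obtain ⟨f, hf⟩ : ∃ f, W.a₃ = 2 * f + 1 := ⟨W.a₃ / 2, by omega⟩
  have hb6 : W.b₆ = 4 * (f ^ 2 + f + W.a₆) + 1 := by simp only [WeierstrassCurve.b₆, hf]; ring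
  exact ⟨B ^ 2 - 3 * C, -8 * B ^ 3 + 36 * B * C - 27 * W.b₆,
    by simp only [WeierstrassCurve.c₄, hb2, hb4]; ring,
    by simp only [WeierstrassCurve.c₆, hb2, hb4]; ring,
    ⟨-2 * B ^ 3 + 9 * B * C - 27 * (f ^ 2 + f + W.a₆) - 7, by rw [hb6]; ring⟩⟩

theorem qG_pos (c d t u : ℤ) (hu : 0 < u)
    (ht : (6 * |c| + 8 * |d| + 3 * c ^ 2 + 2) * u < t) : 0 < qG c d t u := by
  set R := 6 * |c| + 8 * |d| + 3 * c ^ 2 + 2 with hR
  have hR2 : 2 ≤ R := by rw [hR]; linarith [abs_nonneg c, abs_nonneg d, sq_nonneg c]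
  have hut : u ≤ t := by nlinarith
  have h0 : 0 ≤ t := by omega
  have h4 : R * (u * t ^ 3) < t ^ 4 := by
    calc R * (u * t ^ 3) = R * u * t ^ 3 := by ring
      _ < t * t ^ 3 := mul_lt_mul_of_pos_right ht (pow_pos (by omega) 3)
      _ = t ^ 4 := by ring
  have e2 : t ^ 2 * u ^ 2 ≤ u * t ^ 3 := by
    nlinarith [mul_le_mul_of_nonneg_left hut (mul_nonneg hu.le (sq_nonneg t))]
  have e3 : t * u ^ 3 ≤ u * t ^ 3 := by
    nlinarith [pow_le_pow_left₀ hu.le hut 2, mul_nonneg h0 hu.le]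
  have e4 : u ^ 4 ≤ u * t ^ 3 := by
    nlinarith [pow_le_pow_left₀ hu.le hut 3]
  have c1 : c * (t ^ 2 * u ^ 2) ≤ |c| * (u * t ^ 3) :=
    (mul_le_mul_of_nonneg_right (le_abs_self c) (by positivity)).trans
      (mul_le_mul_of_nonneg_left e2 (abs_nonneg _))
  have d1 : d * (t * u ^ 3) ≤ |d| * (u * t ^ 3) :=
    (mul_le_mul_of_nonneg_right (le_abs_self d) (by positivity)).trans
      (mul_le_mul_of_nonneg_left e3 (abs_nonneg _))
  have c2 : c ^ 2 * u ^ 4 ≤ c ^ 2 * (u * t ^ 3) := mul_le_mul_of_nonneg_left e4 (sq_nonneg _)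
  have hpos : (0 : ℤ) ≤ u * t ^ 3 := by positivity
  simp only [qG]
  rw [hR] at h4
  nlinarith

theorem qG_le (c d t u : ℤ) (hc : c ≠ 0) (hu : 0 < u)
    (ht : |t| * (1 + 6 * |c| + 8 * |d|) < u) : qG c d t u ≤ -2 * u ^ 4 := by
  have hc2 : 1 ≤ c ^ 2 := by nlinarith [sq_abs c, abs_pos.mpr hc]
  have htu : |t| ≤ u := by nlinarith [abs_nonneg t, abs_nonneg c, abs_nonneg d]
  have e1 : t ^ 4 ≤ |t| * u ^ 3 := by
    calc t ^ 4 = |t| ^ 4 := (Even.pow_abs ⟨2, rfl⟩ t).symm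
      _ = |t| * |t| ^ 3 := by ring
      _ ≤ |t| * u ^ 3 := by gcongr
  have e2' : t ^ 2 * u ^ 2 ≤ |t| * u ^ 3 := by
    calc t ^ 2 * u ^ 2 = |t| * |t| * u ^ 2 := by rw [← sq, sq_abs]
      _ ≤ |t| * u * u ^ 2 := by gcongr
      _ = |t| * u ^ 3 := by ring
  have e2 : -(c * (t ^ 2 * u ^ 2)) ≤ |c| * (|t| * u ^ 3) := by
    calc -(c * (t ^ 2 * u ^ 2)) ≤ |c * (t ^ 2 * u ^ 2)| := neg_le_abs _
      _ = |c| * (t ^ 2 * u ^ 2) := by
        rw [abs_mul, abs_of_nonneg (by positivity : (0 : ℤ) ≤ t ^ 2 * u ^ 2)]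
      _ ≤ |c| * (|t| * u ^ 3) := by gcongr
  have e3 : -(d * (t * u ^ 3)) ≤ |d| * (|t| * u ^ 3) := by
    calc -(d * (t * u ^ 3)) ≤ |d * (t * u ^ 3)| := neg_le_abs _
      _ = |d| * (|t| * u ^ 3) := by rw [abs_mul, abs_mul, abs_of_nonneg (pow_nonneg hu.le 3)]
  have e4 : |t| * u ^ 3 * (1 + 6 * |c| + 8 * |d|) ≤ u ^ 4 := by
    calc |t| * u ^ 3 * (1 + 6 * |c| + 8 * |d|) = |t| * (1 + 6 * |c| + 8 * |d|) * u ^ 3 := by ring
      _ ≤ u * u ^ 3 := by gcongr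
      _ = u ^ 4 := by ring
  have e5 : u ^ 4 ≤ c ^ 2 * u ^ 4 := le_mul_of_one_le_left (by positivity) hc2
  simp only [qG]
  nlinarith

theorem abs_qF4_le (c d t u : ℤ) (ht : |t| ≤ u) : |qF4 c d t u|
    ≤ (|c| + 4 * |d| + 6 * c ^ 2 + 4 * |c| * |d| + 4 * d ^ 2 + 3 * |c| ^ 3) * u ^ 4 := by
  have hu : 0 ≤ u := (abs_nonneg t).trans ht
  have key : ∀ i j : ℕ, i + j = 4 → |t ^ i * u ^ j| ≤ u ^ 4 := by
    intro i j h
    rw [abs_mul, abs_pow, abs_pow, abs_of_nonneg hu, ← h, pow_add]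
    gcongr
  have h0 : ∀ a b x : ℤ, |x| ≤ b → |a * x| ≤ |a| * b := fun a b x h => by
    rw [abs_mul]; exact mul_le_mul_of_nonneg_left h (abs_nonneg a)
  have k0 := abs_le.mp (h0 c _ _ (key 4 0 rfl))
  have k1 := abs_le.mp (h0 (4 * d) _ _ (key 3 1 rfl))
  have k2 := abs_le.mp (h0 (6 * c ^ 2) _ _ (key 2 2 rfl))
  have k3 := abs_le.mp (h0 (4 * c * d) _ _ (key 1 3 rfl))
  have k4 := abs_le.mp (h0 (4 * d ^ 2 - 3 * c ^ 3) _ _ (key 0 4 rfl))
  have hd : |4 * d ^ 2 - 3 * c ^ 3| ≤ 4 * d ^ 2 + 3 * |c| ^ 3 := by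
    refine (abs_sub _ _).trans (le_of_eq ?_)
    rw [abs_mul, abs_mul, abs_pow, abs_pow, sq_abs]; norm_num
  have hu4 : 0 ≤ u ^ 4 := by positivity
  have hd' := mul_le_mul_of_nonneg_right hd hu4
  simp only [abs_mul, Nat.abs_ofNat, abs_pow, sq_abs] at k1 k2 k3
  simp only [qF4]
  rw [abs_le]
  constructor <;> nlinarith

theorem padicValInt_mul_cube {q : ℕ} [Fact q.Prime] {a g : ℤ} (ha : a ≠ 0) (hg : g ≠ 0) :
    padicValInt q (a * g ^ 3) = padicValInt q a + 3 * padicValInt q g := by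
  rw [padicValInt.mul ha (pow_ne_zero 3 hg), pow_three, padicValInt.mul hg (mul_ne_zero hg hg),
    padicValInt.mul hg hg]
  ring

section Members

variable {W' : WeierstrassCurve ℤ} {n : ℕ} {m : ℕ → ℕ} {S : Finset ℕ} {t u g : ℤ}

theorem Result3.g_ne (R : Result3 W W' n m S t u g) : g ≠ 0 := fun h => R.Δ_ne (by
  rw [R.Δ_eq, h, zero_pow three_ne_zero, mul_zero])

/-- Good primes in `S` with valuation zero stay good. -/
theorem Result3.good_of_good (R : Result3 W W' n m S t u g) {q : ℕ} (hq : q.Prime) (hqS : q ∈ S)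
    (hq2 : q ≠ 2) (hm : m q = 0) (h : W.IsGoodPrimeFor q) : W'.IsGoodPrimeFor q := by
  intro hd
  rw [R.Δ_eq] at hd
  have hg := R.val_odd q hqS hq2
  rw [hm] at hg
  rcases (Nat.prime_iff_prime_int.mp hq).dvd_or_dvd hd with hd | hd
  · exact h hd
  · exact hg.not_dvd ((Nat.prime_iff_prime_int.mp hq).dvd_of_dvd_pow hd)

theorem Result3.padicValInt_eq (R : Result3 W W' n m S t u g) (hΔ : W.Δ ≠ 0) {q : ℕ}
    [Fact q.Prime] (hqS : q ∈ S) (hq2 : q ≠ 2) :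
    padicValInt q W'.Δ = padicValInt q W.Δ + 3 * m q := by
  rw [R.Δ_eq, padicValInt_mul_cube hΔ R.g_ne, (R.val_odd q hqS hq2).padicValInt_eq]

theorem Result3.keeps (R : Result3 W W' n m S t u g) (hΔ : W.Δ ≠ 0) (h3 : 3 ∈ S) (h5 : 5 ∈ S)
    (hm : ∀ q, W.IsGoodPrimeFor q → m q = 0) : KeepsOddPlaces W W' := by
  refine ⟨fun h => R.good_of_good Nat.prime_three h3 (by norm_num) (hm 3 h) h,
    fun h => R.good_of_good (by norm_num) h5 (by norm_num) (hm 5 h) h, fun h => ?_⟩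
  have : Fact (Nat.Prime 3) := ⟨Nat.prime_three⟩
  rw [R.padicValInt_eq hΔ h3 (by norm_num)]
  omega

end Members

/-- The primes controlled by the switches. -/
def baseSet (W : WeierstrassCurve ℤ) : Finset ℕ := {2, 3, 5} ∪ W.Δ.natAbs.primeFactors

theorem mem_baseSet_prime {q : ℕ} (h : q ∈ baseSet W) : q.Prime := by
  rcases Finset.mem_union.mp h with h | h
  · simp only [Finset.mem_insert, Finset.mem_singleton] at h
    rcases h with rfl | rfl | rfl <;> norm_num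
  · exact (Nat.mem_primeFactors.mp h).1

theorem mem_baseSet_of_dvd (hΔ : W.Δ ≠ 0) {q : ℕ} (hq : q.Prime) (h : (q : ℤ) ∣ W.Δ) :
    q ∈ baseSet W :=
  Finset.mem_union_right _
    (Nat.mem_primeFactors.mpr ⟨hq, Int.natCast_dvd.mp h, Int.natAbs_ne_zero.mpr hΔ⟩)

open Classical in
/-- **X(3) switch to class C**, from good reduction at 2 with `a₂ ≢ 0 (mod 3)`. -/
theorem exists_switch_three_classC (W : WeierstrassCurve ℤ) (hΔ : W.Δ ≠ 0)
    (hW : W.IsSemistableModel) (h2 : W.IsGoodPrimeFor 2)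
    (hc : ¬ (2 : ℤ) ∣ W.c₄ ∨ ¬ (32 : ℤ) ∣ W.c₄) :
    ∃ W' : WeierstrassCurve ℤ, W'.Δ ≠ 0 ∧ W'.IsSemistableModel ∧ ClassC W' ∧ KeepsOddPlaces W W' ∧
      ∀ ℓ : ℕ, ℓ.Prime → W.IsGoodPrimeFor ℓ → W'.IsGoodPrimeFor ℓ → ℓ ≠ 3 →
        (3 : ℤ) ∣ W'.apOfModel ℓ - W.apOfModel ℓ := by
  have hΔ2 : ¬ (2 : ℤ) ∣ W.Δ := fun h => h2 (by exact_mod_cast h)
  obtain ⟨t₂, hcl, h8⟩ : ∃ t₂, TwoClass 0 W.c₄ W.c₆ t₂ 1 ∧
      (2048 : ℤ) ∣ W.Δ * qG W.c₄ W.c₆ t₂ 1 - 1280 := by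
    by_cases h : (2 : ℤ) ∣ W.c₄
    · obtain ⟨γ, δ, hγ, hδ, hδ1⟩ := exists_ss_invariants W hΔ2 h
      rw [hγ, hδ]
      refine exists_twoClass_ss_ord hδ1 ?_ hΔ2
      rintro ⟨w, rfl⟩
      exact (hc.resolve_left (not_not.mpr h)) ⟨w, by rw [hγ]; ring⟩
    · exact exists_twoClass_ord W.c_relation.symm h
        (four_dvd_d_sub_three W rfl rfl W.c_relation.symm h) hΔ2
  set m : ℕ → ℕ := fun q =>
    if (q : ℤ) ∣ W.Δ ∧ ¬ Odd (padicValInt q W.Δ) then 1 else 0 with hm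
  obtain ⟨α, β, hαβ, hsign⟩ : ∃ α β : ℝ, α < β ∧ ∀ t u : ℤ, 0 < u → α < (t : ℝ) / u →
      (t : ℝ) / u < β → W.Δ * qG W.c₄ W.c₆ t u < 0 := by
    have hc0 : W.c₄ ≠ 0 := fun h => (hc.elim (fun k => k (h ▸ dvd_zero _))
      fun k => k (h ▸ dvd_zero _))
    rcases lt_or_gt_of_ne hΔ with hneg | hpos
    · set R : ℤ := 6 * |W.c₄| + 8 * |W.c₆| + 3 * W.c₄ ^ 2 + 2 with hR
      refine ⟨(R : ℝ), R + 1, by linarith, fun t u hu hα _ => mul_neg_of_neg_of_pos hneg ?_⟩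
      refine qG_pos _ _ _ _ hu ?_
      have huR : (0 : ℝ) < u := by exact_mod_cast hu
      rw [lt_div_iff₀ huR] at hα
      exact_mod_cast hα
    · set R : ℤ := 1 + 6 * |W.c₄| + 8 * |W.c₆| with hR
      have hR0 : (0 : ℝ) < R := by exact_mod_cast (show (0 : ℤ) < R by
        rw [hR]; linarith [abs_nonneg W.c₄, abs_nonneg W.c₆])
      refine ⟨-(1 / (R : ℝ)), 1 / R, by linarith [one_div_pos.mpr hR0],
        fun t u hu hα hβ => mul_neg_of_pos_of_neg hpos ?_⟩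
      have huR : (0 : ℝ) < u := by exact_mod_cast hu
      have hlt : |(t : ℝ) / u| < 1 / R := abs_lt.mpr ⟨hα, hβ⟩
      rw [abs_div, abs_of_pos huR, div_lt_div_iff₀ huR hR0, one_mul] at hlt
      have := qG_le W.c₄ W.c₆ t u hc0 hu (by exact_mod_cast hlt)
      have : (0 : ℤ) < u ^ 4 := by positivity
      omega
  obtain ⟨W', t, u, g, R, hα, hβ, ht2, hu2, -⟩ := exists_param W hΔ hW hcl (baseSet W)
    (fun q hq => mem_baseSet_prime hq) (by simp [baseSet]) (by simp [baseSet])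
    (fun q hq h => mem_baseSet_of_dvd hΔ hq h) m
    (fun q _ _ => by simp only [hm]; split_ifs with h <;> simp [h]) α β hαβ
  have hg2 : ¬ (2 : ℤ) ∣ g := by exact_mod_cast R.val_two.not_dvd
  have hneg : W'.Δ < 0 := by
    have h := hsign t u R.upos hα hβ
    rw [R.qG_eq] at h
    have hΔg : W.Δ * g < 0 := by linarith
    rw [R.Δ_eq, show W.Δ * g ^ 3 = W.Δ * g * (g * g) by ring]
    exact mul_neg_of_neg_of_pos hΔg (mul_self_pos.mpr R.g_ne)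
  refine ⟨W', R.Δ_ne, R.semistable, ⟨hneg, ?_, R.c₄_odd, ?_, ?_⟩,
    R.keeps hΔ (by simp [baseSet]) (by simp [baseSet]) (fun q h => if_neg fun h' => h h'.1),
    R.congr_three⟩
  · rw [R.Δ_eq]
    exact fun h => (Int.prime_two.dvd_or_dvd h).elim hΔ2 fun h => hg2 (Int.prime_two.dvd_of_dvd_pow h)
  · obtain ⟨cG, -, -⟩ := forms_congr W.c₄ W.c₆ ht2 hu2
    have h' : (2048 : ℤ) ∣ W.Δ * qG W.c₄ W.c₆ t u - 1280 := by
      have : (2048 : ℤ) ∣ W.Δ * (qG W.c₄ W.c₆ t u - qG W.c₄ W.c₆ t₂ 1) :=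
        ((by norm_num : (2048 : ℤ) ∣ 2 ^ (0 + 14)).trans cG).mul_left _
      have h3 := dvd_add this h8
      rwa [show W.Δ * (qG W.c₄ W.c₆ t u - qG W.c₄ W.c₆ t₂ 1)
        + (W.Δ * qG W.c₄ W.c₆ t₂ 1 - 1280) = W.Δ * qG W.c₄ W.c₆ t u - 1280 by ring] at h3
    rw [R.qG_eq] at h'
    obtain ⟨w, hw⟩ := h'
    obtain ⟨e, he⟩ : ∃ e, g = 2 * e + 1 := ⟨g / 2, by omega⟩
    obtain ⟨k, hk⟩ : (2 : ℤ) ∣ e * (e + 1) := by rw [Int.prime_two.dvd_mul]; omega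
    rw [R.Δ_eq]
    refine ⟨g ^ 2 * w + 5 * k, ?_⟩
    have hsq : g ^ 2 = 8 * k + 1 := by rw [he]; linear_combination 4 * hk
    have h9 : W.Δ * g = 8 * w + 5 := by linarith
    linear_combination g ^ 2 * h9 + 5 * hsq
  · intro q hq hqd
    have : Fact q.Prime := ⟨hq⟩
    have hq2 : q ≠ 2 := by
      rintro rfl
      rw [R.Δ_eq] at hqd
      rcases Int.prime_two.dvd_or_dvd (show (2 : ℤ) ∣ W.Δ * g ^ 3 by exact_mod_cast hqd) with h | h
      · exact hΔ2 h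
      · exact hg2 (Int.prime_two.dvd_of_dvd_pow h)
    by_cases hqS : q ∈ baseSet W
    · rw [R.padicValInt_eq hΔ hqS hq2]
      by_cases hd : (q : ℤ) ∣ W.Δ
      · by_cases ho : Odd (padicValInt q W.Δ)
        · have : m q = 0 := if_neg fun h => h.2 ho
          rw [this]; simpa using ho
        · have : m q = 1 := if_pos ⟨hd, ho⟩
          rw [this, mul_one]
          exact (Nat.not_odd_iff_even.mp ho).add_odd (by decide)
      · exact absurd hqd (R.good_of_good hq hqS hq2 (if_neg fun h => hd h.1) hd)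
    · have hd : ¬ (q : ℤ) ∣ W.Δ := fun h => hqS (mem_baseSet_of_dvd hΔ hq h)
      have hqg : (q : ℤ) ∣ g := by
        rw [R.Δ_eq] at hqd
        exact (Nat.prime_iff_prime_int.mp hq).dvd_of_dvd_pow
          (((Nat.prime_iff_prime_int.mp hq).dvd_or_dvd hqd).resolve_left hd)
      have hex : ExactPow q 1 g := ⟨by simpa using hqg, R.sqfree q hq hqS⟩
      rw [R.Δ_eq, padicValInt_mul_cube hΔ R.g_ne, hex.padicValInt_eq,
        padicValInt.eq_zero_of_not_dvd hd]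
      decide

/-- **X(3) switch to a curve multiplicative at 2 with `5 ∣ v₂(Δ)` and irreducible 5-torsion**,
from multiplicative reduction at 2 or good supersingular reduction with `a₂ = 0`. -/
theorem exists_switch_three_mult_five (W : WeierstrassCurve ℤ) (hΔ : W.Δ ≠ 0)
    (hW : W.IsSemistableModel)
    (h2 : (2 : ℤ) ∣ W.Δ ∨ (32 : ℤ) ∣ W.c₄) :
    ∃ W' : WeierstrassCurve ℤ, W'.Δ ≠ 0 ∧ W'.IsSemistableModel ∧ (2 : ℤ) ∣ W'.Δ ∧
      5 ∣ padicValInt 2 W'.Δ ∧ W'.ModRepIsIrreducible 5 ∧ KeepsOddPlaces W W' ∧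
      ∀ ℓ : ℕ, ℓ.Prime → W.IsGoodPrimeFor ℓ → W'.IsGoodPrimeFor ℓ → ℓ ≠ 3 →
        (3 : ℤ) ∣ W'.apOfModel ℓ - W.apOfModel ℓ := by
  set v := padicValInt 2 W.Δ with hv
  set n := 3 * v % 5 + 5 with hn
  obtain ⟨t₂, hcl⟩ : ∃ t₂, TwoClass n W.c₄ W.c₆ t₂ 1 := by
    by_cases hd : (2 : ℤ) ∣ W.Δ
    · have hc : ¬ (2 : ℤ) ∣ W.c₄ := fun h => hW 2 Nat.prime_two (by exact_mod_cast hd)
        (by exact_mod_cast h)
      exact exists_twoClass_mult W.c_relation.symm hc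
        (four_dvd_d_sub_three W rfl rfl W.c_relation.symm hc) hd (by omega)
    · have h32 := h2.resolve_left hd
      obtain ⟨γ, δ, hγ, hδ, hδ1⟩ := exists_ss_invariants W hd (Dvd.dvd.trans (by norm_num) h32)
      rw [hγ, hδ]
      exact exists_twoClass_ss_mult hδ1 (by omega) (by omega)
  have hc0 : W.c₄ ≠ 0 := by
    intro h
    rcases h2 with h2 | h2
    · exact hW 2 Nat.prime_two (by exact_mod_cast h2) (h ▸ dvd_zero _)
    · -- `c₄ = 0` forces `|Δ| = 1`, impossible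
      have hunit : W.Δ.natAbs = 1 := by
        by_contra hne
        obtain ⟨p, hp, hdvd⟩ := Nat.exists_prime_and_dvd hne
        exact hW p hp (Int.natCast_dvd.mpr hdvd) (h ▸ dvd_zero _)
      have hrel := W.c_relation
      rw [h, zero_pow three_ne_zero, zero_sub] at hrel
      rcases Int.natAbs_eq W.Δ with h' | h' <;> rw [h', hunit] at hrel <;> push_cast at hrel
      · nlinarith [sq_nonneg W.c₆]
      · have h1 : W.c₆ ≤ 42 := by nlinarith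
        have h3 : -42 ≤ W.c₆ := by nlinarith
        interval_cases hc : W.c₆ <;> norm_num at hrel
  set R₀ : ℤ := 1 + 6 * |W.c₄| + 8 * |W.c₆| with hR₀
  set K : ℤ := |W.c₄| + 4 * |W.c₆| + 6 * W.c₄ ^ 2 + 4 * |W.c₄| * |W.c₆| + 4 * W.c₆ ^ 2
    + 3 * |W.c₄| ^ 3 with hK
  have hK0 : 0 ≤ K := by positivity
  set B : ℕ := W.Δ.natAbs * 8 ^ n with hB
  set T : ℕ := 30 * B ^ 6 + 1000 * B ^ 35 * K.natAbs ^ 3 + 1 with hT
  obtain ⟨P, hP, hPp⟩ := Nat.exists_infinite_primes (128 * T + W.Δ.natAbs + 6)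
  have hPΔ : ¬ (P : ℤ) ∣ W.Δ := fun h => by
    have := Nat.le_of_dvd (Int.natAbs_pos.mpr hΔ) (Int.natCast_dvd.mp h)
    omega
  have hR0 : (0 : ℝ) < R₀ := by exact_mod_cast (show (0 : ℤ) < R₀ by
    rw [hR₀]; linarith [abs_nonneg W.c₄, abs_nonneg W.c₆])
  obtain ⟨W', t, u, g, R, hα, hβ, -, -, hu0⟩ := exists_param W hΔ hW hcl (insert P (baseSet W))
    (fun q hq => (Finset.mem_insert.mp hq).elim (fun e => e ▸ hPp) mem_baseSet_prime)
    (by simp [baseSet]) (by simp [baseSet])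
    (fun q hq h => Finset.mem_insert_of_mem (mem_baseSet_of_dvd hΔ hq h)) (fun _ => 0)
    (fun q _ _ => Or.inr rfl) (-(1 / (R₀ : ℝ))) (1 / R₀) (by linarith [one_div_pos.mpr hR0])
  have hupos := R.upos
  have huP : (P : ℤ) ≤ u :=
    Int.le_of_dvd hupos (hu0 P (Finset.mem_insert_self _ _) (by omega) rfl)
  have htu : |t| * R₀ < u := by
    have huR : (0 : ℝ) < u := by exact_mod_cast hupos
    have hlt : |(t : ℝ) / u| < 1 / R₀ := abs_lt.mpr ⟨hα, hβ⟩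
    rw [abs_div, abs_of_pos huR, div_lt_div_iff₀ huR hR0, one_mul] at hlt
    exact_mod_cast hlt
  have hG := qG_le W.c₄ W.c₆ t u hc0 hupos htu
  rw [R.qG_eq] at hG
  have hu4 : u ^ 4 ≤ 128 * |g| := by linarith [neg_le_abs g]
  have hgT : (T : ℤ) ≤ |g| := by
    have h1 : 128 * (T : ℤ) ≤ u := le_trans (by exact_mod_cast (by omega : 128 * T ≤ P)) huP
    have h2' : u ≤ u ^ 4 := le_self_pow₀ (by omega) (by norm_num)
    omega
  have hv2 : padicValInt 2 W'.Δ = v + 3 * n := by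
    rw [R.Δ_eq, padicValInt_mul_cube hΔ R.g_ne, R.val_two.padicValInt_eq]
  have h2d : (2 : ℤ) ∣ W'.Δ := by
    rw [R.Δ_eq]
    exact dvd_mul_of_dvd_right (dvd_pow
      ((dvd_pow_self (2 : ℤ) (by omega : n ≠ 0)).trans R.val_two.1) three_ne_zero) _
  refine ⟨W', R.Δ_ne, R.semistable, h2d, by rw [hv2, hn]; omega, ?_,
    R.keeps hΔ (by simp [baseSet]) (by simp [baseSet]) (fun _ _ => rfl), R.congr_three⟩
  refine modRepIsIrreducible_five_of_large W' R.semistable R.Δ_ne B ?_ ?_ ?_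
  · intro D hD
    obtain ⟨g', hg'⟩ := R.val_two.1
    push_cast at hg'
    have hg'2 : ¬ (2 : ℤ) ∣ g' := fun ⟨w, hw⟩ => R.val_two.2 ⟨w, by
      rw [hg', hw]; push_cast; ring⟩
    have hcop : IsCoprime ((D : ℤ) ^ 5) (g' ^ 3) := by
      refine IsCoprime.pow (isCoprime_of_prime_dvd ?_ fun p hp hpD hpg => ?_)
      · rintro ⟨h, -⟩
        rw [h, zero_pow (by norm_num)] at hD
        exact R.Δ_ne (zero_dvd_iff.mp hD)
      have hq : p.natAbs.Prime := Int.prime_iff_natAbs_prime.mp hp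
      set q := p.natAbs
      have hqi : Prime (q : ℤ) := Nat.prime_iff_prime_int.mp hq
      have hqD : (q : ℤ) ∣ D := Int.natAbs_dvd.mpr hpD
      have hqg' : (q : ℤ) ∣ g' := Int.natAbs_dvd.mpr hpg
      have hqg : (q : ℤ) ∣ g := hg' ▸ hqg'.mul_left _
      have hqS : q ∉ insert P (baseSet W) := by
        intro hqS
        by_cases hq2 : q = 2
        · exact hg'2 (by exact_mod_cast hq2 ▸ hqg')
        · exact (R.val_odd q hqS hq2).not_dvd hqg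
      have hqΔ : ¬ (q : ℤ) ∣ W.Δ := fun h =>
        hqS (Finset.mem_insert_of_mem (mem_baseSet_of_dvd hΔ hq h))
      have h5 : (q : ℤ) ^ 5 ∣ W.Δ * g ^ 3 := R.Δ_eq ▸ (pow_dvd_pow_of_dvd hqD 5).trans hD
      have h5' : (q : ℤ) ^ 5 ∣ g ^ 3 :=
        ((hqi.coprime_iff_not_dvd.mpr hqΔ).pow_left).dvd_of_dvd_mul_left h5
      obtain ⟨k, hk⟩ := hqg
      have hk' : (q : ℤ) ∣ k := by
        rw [hk, mul_pow, show (q : ℤ) ^ 5 = q ^ 3 * q ^ 2 by ring,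
          mul_dvd_mul_iff_left (pow_ne_zero 3 hqi.ne_zero)] at h5'
        exact hqi.dvd_of_dvd_pow ((dvd_pow_self _ two_ne_zero).trans h5')
      exact R.sqfree q hq hqS (by rw [hk, sq]; exact mul_dvd_mul_left _ hk')
    have hDΔ : (D : ℤ) ^ 5 ∣ W.Δ * 8 ^ n := by
      refine hcop.dvd_of_dvd_mul_right ?_
      rw [R.Δ_eq, hg'] at hD
      rwa [show W.Δ * 8 ^ n * g' ^ 3 = W.Δ * (2 ^ n * g') ^ 3 by
        rw [show (8 : ℤ) = 2 ^ 3 by norm_num, ← pow_mul, mul_comm 3 n, pow_mul]; ring]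
    have hle := Nat.le_of_dvd (by positivity) (Int.natAbs_dvd_natAbs.mpr hDΔ)
    rw [Int.natAbs_pow, Int.natAbs_natCast, Int.natAbs_mul, Int.natAbs_pow] at hle
    exact (Nat.le_self_pow (by norm_num) D).trans hle
  all_goals
    have hB0 : (0 : ℤ) ≤ B := Int.natCast_nonneg B
    have hTe : (T : ℤ) = 30 * (B : ℤ) ^ 6 + 1000 * (B : ℤ) ^ 35 * K ^ 3 + 1 := by
      rw [hT]; push_cast; rw [abs_of_nonneg hK0]
    have hK3 : (0 : ℤ) ≤ 1000 * (B : ℤ) ^ 35 * K ^ 3 := by positivity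
    have hB6 : (0 : ℤ) ≤ 30 * (B : ℤ) ^ 6 := by positivity
    have hg1 : 1 ≤ |g| := abs_pos.mpr R.g_ne
    have hΔ' : |g| ^ 3 ≤ |W'.Δ| := by
      rw [R.Δ_eq, abs_mul, abs_pow]
      exact le_mul_of_one_le_left (by positivity) (abs_pos.mpr hΔ)
  · have : |g| ≤ |g| ^ 3 := le_self_pow₀ hg1 (by norm_num)
    omega
  · have hF : 256 * |W'.c₄| ≤ K * u ^ 4 := by
      have hR1 : (1 : ℤ) ≤ R₀ := by rw [hR₀]; linarith [abs_nonneg W.c₄, abs_nonneg W.c₆]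
      have := abs_qF4_le W.c₄ W.c₆ t u ((le_mul_of_one_le_right (abs_nonneg t) hR1).trans htu.le)
      rwa [← R.qF4_eq, abs_mul, Nat.abs_ofNat, ← hK] at this
    have hc' : |W'.c₄| ≤ K * |g| := by nlinarith [mul_le_mul_of_nonneg_left hu4 hK0, abs_nonneg g]
    calc 1000 * (B : ℤ) ^ 35 * |W'.c₄| ^ 3 ≤ 1000 * (B : ℤ) ^ 35 * (K * |g|) ^ 3 := by gcongr
      _ = 1000 * (B : ℤ) ^ 35 * K ^ 3 * |g| ^ 3 := by ring
      _ < |g| * |g| ^ 3 := mul_lt_mul_of_pos_right (by omega) (by positivity)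
      _ = |g| ^ 4 := by ring
      _ ≤ |g| ^ 18 := pow_le_pow_right₀ hg1 (by norm_num)
      _ = (|g| ^ 3) ^ 6 := by ring
      _ ≤ |W'.Δ| ^ 6 := by gcongr

end Fermat.Agent.SwitchLocal
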