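import Mathlib
import Fermat.Agent.Top.GoodClass
import Fermat.Agent.SwitchLocal.Switch3

/-!
# Class C is the predicate of the two-adic theorem
-/

set_option autoImplicit false

namespace Fermat.Agent.SwitchLocal

open WeierstrassCurve

/-- With good reduction and odd `c₄` the trace at 2 is odd. -/
theorem odd_apOfModel_two (W : WeierstrassCurve ℤ) (hΔ : ¬ (2 : ℤ) ∣ W.Δ)
    (hc : ¬ (2 : ℤ) ∣ W.c₄) : Odd (W.apOfModel 2) := by
  classical
  set V := W.reductionMod 2 with hV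
  have hVΔ : V.Δ ≠ 0 := by
    rw [hV, WeierstrassCurve.reductionMod, map_Δ, eq_intCast]
    exact fun h => hΔ (by exact_mod_cast (ZMod.intCast_zmod_eq_zero_iff_dvd _ 2).mp h)
  have ha1 : V.a₁ = 1 := by
    have h4 : V.c₄ ≠ 0 := by
      rw [hV, WeierstrassCurve.reductionMod, map_c₄, eq_intCast]
      exact fun h => hc (by exact_mod_cast (ZMod.intCast_zmod_eq_zero_iff_dvd _ 2).mp h)
    simp only [WeierstrassCurve.c₄, WeierstrassCurve.b₂, WeierstrassCurve.b₄] at h4
    revert h4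
    generalize V.a₁ = a
    generalize V.a₂ = b
    generalize V.a₃ = c
    generalize V.a₄ = e
    revert a b c e
    decide
  have hiff : ∀ x y : ZMod 2, V.toAffine.Nonsingular x y ↔
      y ^ 2 + V.a₁ * x * y + V.a₃ * y = x ^ 3 + V.a₂ * x ^ 2 + V.a₄ * x + V.a₆ := fun x y => by
    rw [← Affine.equation_iff_nonsingular_of_Δ_ne_zero hVΔ, Affine.equation_iff]
  have hcard : V.card = (Finset.univ.filter fun xy : ZMod 2 × ZMod 2 =>
      xy.2 ^ 2 + V.a₁ * xy.1 * xy.2 + V.a₃ * xy.2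
        = xy.1 ^ 3 + V.a₂ * xy.1 ^ 2 + V.a₄ * xy.1 + V.a₆).card + 1 := by
    rw [WeierstrassCurve.card, Nat.card_congr V.toAffine.nonsingularPointEquiv, WithZero,
      Finite.card_option, Nat.card_eq_fintype_card, Fintype.card_subtype]
    simp only [hiff]
  have hodd : ∀ a b c e f : ZMod 2, a = 1 → Odd (Finset.univ.filter fun xy : ZMod 2 × ZMod 2 =>
      xy.2 ^ 2 + a * xy.1 * xy.2 + c * xy.2
        = xy.1 ^ 3 + b * xy.1 ^ 2 + e * xy.1 + f).card := by decide
  obtain ⟨k, hk⟩ := hodd V.a₁ V.a₂ V.a₃ V.a₄ V.a₆ ha1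
  refine ⟨-(k : ℤ) + 0, ?_⟩
  rw [WeierstrassCurve.apOfModel, WeierstrassCurve.traceOfFrobenius, ← hV, hcard, hk,
    Nat.card_zmod]
  push_cast
  ring

/-- Class C gives the predicate of the two-adic theorem. -/
theorem ClassC.isTwoAdicGood {W : WeierstrassCurve ℤ} (h : ClassC W) : Top.IsTwoAdicGood W where
  Δ_neg := h.1
  Δ_emod_eight := by obtain ⟨w, hw⟩ := h.2.2.2.1; omega
  ap_two_odd := odd_apOfModel_two W h.2.1 h.2.2.1
  odd_valuation := h.2.2.2.2

end Fermat.Agent.SwitchLocal
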