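import Fermat.Agent.Mazur.Small.Frey
import Fermat.Agent.EC.Reduction.Frey
import Fermat.Prelude.Def_FLTPrelim_ModularRep

/-!
# The mod five representation of a Frey curve is irreducible

The discriminant is a square, and no curve with square discriminant has a Galois stable line in
its five torsion.
-/

set_option autoImplicit false

open WeierstrassCurve WeierstrassCurve.Affine WeierstrassCurve.Affine.Point

namespace Fermat.Agent.SwitchLocal

/-- The mod five representation of every Frey curve is irreducible. -/
theorem freyCurveInt_irreducible_five (P : FreyPackage) :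
    P.freyCurveInt.ModRepIsIrreducible 5 := by
  unfold WeierstrassCurve.ModRepIsIrreducible
  rw [← EC.Reduction.Frey.freyCurve_eq_map P]
  haveI := Mazur.Small.frey_isElliptic P
  refine ⟨?_, fun N hN => ?_⟩
  · have hcard := EC.Torsion.natCard_torsionBy_algebraicClosureRat P.freyCurve
      (n := 5) (by norm_num)
    haveI : Finite (Submodule.torsionBy ℤ (P.freyCurve⁄(AlgebraicClosure ℚ)).Point ((5 : ℕ) : ℤ)) :=
      Nat.finite_of_card_ne_zero (by rw [hcard]; norm_num)
    rw [← Finite.one_lt_card_iff_nontrivial, hcard]
    norm_num
  by_contra h
  rw [not_or] at h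
  exact Mazur.Small.frey_no_stable_line_five P rfl hN h.1 h.2

end Fermat.Agent.SwitchLocal
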