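import Mathlib
import Fermat.Agent.Top.Inputs
import Fermat.Agent.RT.Frey.Modular
import Fermat.Agent.SwitchLocal.ClassGood
import Fermat.Agent.SwitchLocal.FreyFive

/-!
# The switch chains of the two-adic route

From the two `X(5)` switches: `FreyChainInput` and `ResidualSwitchInput` for `IsTwoAdicGood`.
A curve with irreducible `E[3]`, très ramifiée at 3, goes by `X(3)` either to class C, or to a curve
multiplicative at 2 with `5 ∣ v₂(Δ)`, then by `X(5)` to good supersingular `a₂ = ±2`, then by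
`X(3)` to class C.
-/

set_option autoImplicit false

namespace Fermat.Agent.SwitchLocal

open WeierstrassCurve

/-- The `X(5)` switch from multiplicative `5 ∣ v₂(Δ)` to good supersingular `a₂ = ±2`. -/
def SwitchFiveSsInput : Prop :=
  ∀ W : WeierstrassCurve ℤ, W.Δ ≠ 0 → W.IsSemistableModel → (2 : ℤ) ∣ W.Δ →
    5 ∣ padicValInt 2 W.Δ →
    ∃ W' : WeierstrassCurve ℤ, W'.Δ ≠ 0 ∧ W'.IsSemistableModel ∧ W'.IsGoodPrimeFor 2 ∧
      (16 : ℤ) ∣ W'.c₄ ∧ ¬ (32 : ℤ) ∣ W'.c₄ ∧ W'.ModRepIsIrreducible 3 ∧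
      Top.Congruent 5 W W' ∧ (W.IsGoodPrimeFor 5 → W'.IsGoodPrimeFor 5) ∧
      (Top.TresAtThree W → Top.TresAtThree W')

/-- The `X(5)` switch making 3 très ramifiée. -/
def SwitchFiveThreeInput : Prop :=
  ∀ W : WeierstrassCurve ℤ, W.Δ ≠ 0 → W.IsSemistableModel →
    ∃ W' : WeierstrassCurve ℤ, W'.Δ ≠ 0 ∧ W'.IsSemistableModel ∧ W'.ModRepIsIrreducible 3 ∧
      Top.Congruent 5 W W' ∧ (W.IsGoodPrimeFor 5 → W'.IsGoodPrimeFor 5) ∧ Top.TresAtThree W'

theorem KeepsOddPlaces.tresAtThree {W W' : WeierstrassCurve ℤ} (h : KeepsOddPlaces W W')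
    (ht : Top.TresAtThree W) : Top.TresAtThree W' := by
  intro hd
  by_cases hW : (3 : ℤ) ∣ W.Δ
  · exact h.2.2 (ht hW)
  · exact absurd hd (by exact_mod_cast h.1 fun hd => hW (by exact_mod_cast hd))

/-- A semistable curve, good at 2 with `a₂ ≢ 0 (mod 3)`, irreducible mod 3, tres at 3. -/
theorem chain_of_ordinary {W : WeierstrassCurve ℤ} (hΔ : W.Δ ≠ 0) (hW : W.IsSemistableModel)
    (h3 : W.ModRepIsIrreducible 3) (ht : Top.TresAtThree W) (h2 : W.IsGoodPrimeFor 2)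
    (hc : ¬ (2 : ℤ) ∣ W.c₄ ∨ ¬ (32 : ℤ) ∣ W.c₄) : Top.SwitchChain Top.IsTwoAdicGood W := by
  obtain ⟨W', hΔ', hW', hC, hk, hcong⟩ := exists_switch_three_classC W hΔ hW h2 hc
  exact .step 3 (Or.inl rfl) hΔ hW h3 hcong hk.1 (fun _ _ => ht)
    (.base hΔ' hW' hC.isTwoAdicGood)

/-- From a curve multiplicative at 2 with `5 ∣ v₂(Δ)`, irreducible mod 5, tres at 3. -/
theorem chain_of_mult_five (h5s : SwitchFiveSsInput) {W : WeierstrassCurve ℤ} (hΔ : W.Δ ≠ 0)
    (hW : W.IsSemistableModel) (h5 : W.ModRepIsIrreducible 5) (ht : Top.TresAtThree W)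
    (h2 : (2 : ℤ) ∣ W.Δ) (hv : 5 ∣ padicValInt 2 W.Δ) : Top.SwitchChain Top.IsTwoAdicGood W := by
  obtain ⟨W', hΔ', hW', hg2, -, h32, h3, hcong, hk5, htk⟩ := h5s W hΔ hW h2 hv
  exact .step 5 (Or.inr rfl) hΔ hW h5 hcong hk5 (fun h => absurd h (by norm_num))
    (chain_of_ordinary hΔ' hW' h3 (htk ht) hg2 (Or.inr h32))

/-- Every semistable curve irreducible mod 3 and tres at 3 starts a chain. -/
theorem chain_of_three (h5s : SwitchFiveSsInput) {W : WeierstrassCurve ℤ} (hΔ : W.Δ ≠ 0)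
    (hW : W.IsSemistableModel) (h3 : W.ModRepIsIrreducible 3) (ht : Top.TresAtThree W) :
    Top.SwitchChain Top.IsTwoAdicGood W := by
  by_cases h : (2 : ℤ) ∣ W.Δ ∨ (32 : ℤ) ∣ W.c₄
  · obtain ⟨W', hΔ', hW', h2', hv, h5, hk, hcong⟩ := exists_switch_three_mult_five W hΔ hW h
    exact .step 3 (Or.inl rfl) hΔ hW h3 hcong hk.1 (fun _ _ => ht)
      (chain_of_mult_five h5s hΔ' hW' h5 (hk.tresAtThree ht) h2' hv)
  · rw [not_or] at h
    exact chain_of_ordinary hΔ hW h3 ht (fun hd => h.1 (by exact_mod_cast hd)) (Or.inr h.2)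

/-- Every semistable curve irreducible mod 5 starts a chain. -/
theorem chain_of_five (h5s : SwitchFiveSsInput) (h53 : SwitchFiveThreeInput)
    {W : WeierstrassCurve ℤ} (hΔ : W.Δ ≠ 0) (hW : W.IsSemistableModel)
    (h5 : W.ModRepIsIrreducible 5) : Top.SwitchChain Top.IsTwoAdicGood W := by
  obtain ⟨W', hΔ', hW', h3, hcong, hk5, ht⟩ := h53 W hΔ hW
  exact .step 5 (Or.inr rfl) hΔ hW h5 hcong hk5 (fun h => absurd h (by norm_num))
    (chain_of_three h5s hΔ' hW' h3 ht)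

/-- **The chains of the Frey curves.** -/
theorem freyChainInput_of (h5s : SwitchFiveSsInput) (h53 : SwitchFiveThreeInput) :
    Top.FreyChainInput Top.IsTwoAdicGood := fun P =>
  chain_of_five h5s h53 (EC.Reduction.Frey.Δ_ne_zero P)
    (RT.Frey.freyCurveInt_isSemistableModel P) (freyCurveInt_irreducible_five P)

/-- **The switches of milestone 50.** -/
theorem residualSwitchInput_of (h5s : SwitchFiveSsInput) (h53 : SwitchFiveThreeInput) :
    Top.ResidualSwitchInput Top.IsTwoAdicGood := by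
  intro W hΔ hW _
  by_cases h : (2 : ℤ) ∣ W.Δ ∨ (32 : ℤ) ∣ W.c₄
  · obtain ⟨W', hΔ', hW', -, -, h5, -, hcong⟩ := exists_switch_three_mult_five W hΔ hW h
    exact ⟨W', hcong, chain_of_five h5s h53 hΔ' hW' h5⟩
  · rw [not_or] at h
    obtain ⟨W', hΔ', hW', hC, -, hcong⟩ := exists_switch_three_classC W hΔ hW
      (fun hd => h.1 (by exact_mod_cast hd)) (Or.inr h.2)
    exact ⟨W', hcong, .base hΔ' hW' hC.isTwoAdicGood⟩

end Fermat.Agent.SwitchLocal
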