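import Fermat.Agent.SwitchLocal.FiveValues

/-!
# Moving the base vector of the icosahedral family to slope zero at a bad prime
-/

set_option autoImplicit false

namespace Fermat.Agent.SwitchLocal

open IsLocalRing
open Fermat.Agent.Switch

local notation "Qb" => AlgebraicClosure ℚ

section Identities

variable {R : Type*} [CommRing R]

theorem fC4_line (r σ : R) : fC4 r (σ * r)
    = r ^ 20 * (1 - 228 * σ ^ 5 + 494 * (σ ^ 5) ^ 2 + 228 * (σ ^ 5) ^ 3 + (σ ^ 5) ^ 4) := by
  simp only [fC4]; ring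

theorem fC6_line (r σ : R) : fC6 r (σ * r)
    = r ^ 30 * (-1 - 522 * σ ^ 5 + 10005 * (σ ^ 5) ^ 2 + 10005 * (σ ^ 5) ^ 4
        + 522 * (σ ^ 5) ^ 5 - (σ ^ 5) ^ 6) := by
  simp only [fC6]; ring

theorem fD_line (r σ : R) :
    fD r (σ * r) = -(r ^ 12 * σ * (1 + 11 * σ ^ 5 - (σ ^ 5) ^ 2)) := by
  simp only [fD]; ring

theorem fDs_line (r σ : R) :
    -fDs r (σ * r) = r * (r ^ 10 * (1 + 66 * σ ^ 5 - 11 * (σ ^ 5) ^ 2)) := by
  simp only [fDs]; ring

theorem fDr_line (r σ : R) :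
    fDr r (σ * r) = -(σ * r * (r ^ 10 * (11 + 66 * σ ^ 5 - (σ ^ 5) ^ 2))) := by
  simp only [fDr]; ring

end Identities

variable {A : ValuationSubring Qb}

theorem residue_five_ne {p : ℕ} (hp : p.Prime) (hp5 : p ≠ 5) (hA : A.LiesOverPrime p) :
    (5 : ResidueField A) ≠ 0 := by
  intro h
  exact hp5 ((Nat.prime_dvd_prime_iff_eq hp Nat.prime_five).mp (Int.natCast_dvd_natCast.mp
    ((intCast_residue_eq_zero_iff hA hp (5 : ℤ)).mp (by exact_mod_cast h))))

theorem fD_pow_five_eq (r s : Qb) : fD r s ^ 5 = (fC4 r s ^ 3 - fC6 r s ^ 2) / 1728 := by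
  rw [fC4_cube_sub_fC6_sq]; field_simp

/-- Over a prime other than `5` a vector with integral invariants is integral. -/
theorem vector_mem {p : ℕ} (hp : p.Prime) (hp5 : p ≠ 5) (hA : A.LiesOverPrime p) {r₀ s₀ : Qb}
    {c Δ : ℤ} (h4 : fC4 r₀ s₀ = (c : Qb)) (hD5 : fD r₀ s₀ ^ 5 = (Δ : Qb)) (hΔ : Δ ≠ 0) :
    r₀ ∈ A ∧ s₀ ∈ A := by
  have hfD : fD r₀ s₀ ≠ 0 := fun h => hΔ (by simpa [h] using hD5.symm)
  have hr : r₀ ≠ 0 := fun h => hfD (by simp [fD, h])
  have hs : s₀ ≠ 0 := fun h => hfD (by simp [fD, h])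
  have h5 : (3125 : ResidueField A) ≠ 0 := by
    intro h
    have h' : ((3125 : ℤ) : ResidueField A) = 0 := by exact_mod_cast h
    rw [intCast_residue_eq_zero_iff hA hp, show (3125 : ℤ) = 5 ^ 5 by norm_num] at h'
    exact hp5 ((Nat.prime_dvd_prime_iff_eq hp Nat.prime_five).mp
      (Int.natCast_dvd_natCast.mp ((Nat.prime_iff_prime_int.mp hp).dvd_of_dvd_pow h')))
  have key : ∀ a b : Qb, a ≠ 0 → b / a ∈ A → fC4 a b = (c : Qb) →
      fD a b ^ 5 = (Δ : Qb) → a ∈ A := by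
    intro a b ha hx h4 hD
    by_contra hnot
    have hinv : a⁻¹ ∈ A := (A.mem_or_inv_mem a).resolve_left hnot
    set i : A := ⟨a⁻¹, hinv⟩ with hi
    set x : A := ⟨b / a, hx⟩ with hxdef
    have hi0 : residue A i = 0 := by
      by_contra hne
      have hu : IsUnit i := (residue_ne_zero_iff_isUnit i).mp hne
      obtain ⟨j, hj⟩ := isUnit_iff_exists_inv.mp hu
      have : a⁻¹ * (j : Qb) = 1 := congrArg Subtype.val hj
      exact hnot (by
        have hja : (j : Qb) = a := by field_simp at this; linear_combination this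
        exact hja ▸ j.2)
    have e4 : fC4 1 x = (c : A) * i ^ 20 := by
      apply Subtype.ext
      show A.subtype (fC4 1 x) = A.subtype ((c : A) * i ^ 20)
      rw [map_fC4, map_mul, map_intCast, map_pow, map_one]
      show fC4 1 (b / a) = (c : Qb) * a⁻¹ ^ 20
      rw [← h4, mul_comm (fC4 a b), ← fC4_smul]
      field_simp
    have eD : fD 1 x ^ 5 = (Δ : A) * i ^ 60 := by
      apply Subtype.ext
      show A.subtype (fD 1 x ^ 5) = A.subtype ((Δ : A) * i ^ 60)
      rw [map_pow, map_fD, map_mul, map_intCast, map_pow, map_one]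
      show fD 1 (b / a) ^ 5 = (Δ : Qb) * a⁻¹ ^ 60
      rw [← hD, show a⁻¹ ^ 60 = (a⁻¹ ^ 12) ^ 5 by ring, ← mul_pow, mul_comm (fD a b), ← fD_smul]
      field_simp
    have z4 : fC4 1 (residue A x) = 0 := by
      rw [← map_one (residue A), ← map_fC4, e4]; simp [hi0]
    have zD : fD 1 (residue A x) = 0 := by
      have : fD 1 (residue A x) ^ 5 = 0 := by
        rw [← map_one (residue A), ← map_fD, ← map_pow, eD]; simp [hi0]
      simpa using this
    have hb := bezout_fst (1 : ResidueField A) (residue A x)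
    rw [z4, zD] at hb
    simp [h5] at hb
  rcases A.mem_or_inv_mem (s₀ / r₀) with h | h
  · have hrA := key _ _ hr h h4 hD5
    refine ⟨hrA, ?_⟩
    have := mul_mem hrA h
    rwa [mul_div_cancel₀ _ hr] at this
  · rw [inv_div] at h
    have h' : -r₀ / s₀ ∈ A := by rw [neg_div]; exact neg_mem h
    have hsA := key s₀ (-r₀) hs h' (by rw [fC4_swap]; exact h4) (by rw [fD_swap]; exact hD5)
    refine ⟨?_, hsA⟩
    have := mul_mem hsA h
    rwa [mul_div_cancel₀ _ hs] at this

/-- A symmetry moves the base vector to one whose slope reduces to `0`. -/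
theorem exists_normal_position {p : ℕ} (hp : p.Prime) (hp5 : p ≠ 5) (hA : A.LiesOverPrime p) {r₀ s₀ : Qb} {c Δ : ℤ}
    (h4 : fC4 r₀ s₀ = (c : Qb)) (hD5 : fD r₀ s₀ ^ 5 = (Δ : Qb)) (hΔ : Δ ≠ 0)
    (h2 : (p : ℤ) ∣ Δ) :
    ∃ a b m n : Qb, IsSym a b m n ∧ ∃ r s : A, (r : Qb) = a * r₀ + b * s₀ ∧
      (s : Qb) = m * r₀ + n * s₀ ∧ residue A s = 0 := by
  obtain ⟨hr, hs⟩ := vector_mem hp hp5 hA h4 hD5 hΔ
  set r : A := ⟨r₀, hr⟩ with hrdef
  set s : A := ⟨s₀, hs⟩ with hsdef
  have hfive : (5 : ResidueField A) ≠ 0 := residue_five_ne hp hp5 hA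
  have e4 : fC4 r s = (c : A) := by
    apply subtype_ext
    rw [map_fC4, map_intCast]
    exact h4
  have eD : fD r s ^ 5 = (Δ : A) := by
    apply subtype_ext
    rw [map_pow, map_fD, map_intCast]
    exact hD5
  have zD : fD (residue A r) (residue A s) = 0 := by
    have : fD (residue A r) (residue A s) ^ 5 = 0 := by
      rw [← map_fD, ← map_pow, eD, map_intCast]
      exact (intCast_residue_eq_zero_iff hA hp Δ).mpr h2
    simpa using this
  rcases eq_or_ne (residue A s) 0 with hs0 | hs0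
  · exact ⟨1, 0, 0, 1, (IsUni.isSym ⟨by ring, fun _ _ => by simp⟩), r, s, by simp [hrdef],
      by simp [hsdef], hs0⟩
  rcases eq_or_ne (residue A r) 0 with hr0 | hr0
  · exact ⟨0, 1, -1, 0, isUni_swap.isSym, s, -r, by simp [hsdef], by simp [hrdef],
      by rw [map_neg, hr0, neg_zero]⟩
  -- both coordinates are units
  set R := residue A r
  set S := residue A s
  set q := S ^ 5 / R ^ 5 with hq
  have hq' : q ^ 2 - 11 * q - 1 = 0 := by
    simp only [fD] at zD
    rw [hq]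
    field_simp
    apply mul_left_cancel₀ (mul_ne_zero hr0 hs0)
    linear_combination zD
  obtain ⟨z, hz⟩ : ∃ z : Qb, IsPrimitiveRoot z 5 := by
    have : NeZero (5 : Qb) := ⟨by norm_num⟩
    obtain ⟨z, hz⟩ := IsAlgClosed.exists_root (Polynomial.cyclotomic 5 Qb)
      (Polynomial.degree_cyclotomic_pos 5 _ (by norm_num)).ne'
    exact ⟨z, Polynomial.isRoot_cyclotomic_iff.mp hz⟩
  set zA : A := ⟨z, Arith.mem_of_isIntegral A (hz.isIntegral (by norm_num))⟩ with hzA
  set Z := residue A zA with hZ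
  have hZsum : 1 + Z + Z ^ 2 + Z ^ 3 + Z ^ 4 = 0 := by
    have : 1 + zA + zA ^ 2 + zA ^ 3 + zA ^ 4 = 0 :=
      Subtype.ext (eq_one_add_pow_primitiveRoot hz)
    have := congrArg (residue A) this
    simpa only [map_add, map_pow, map_one, map_zero] using this
  have hZ5 : Z ^ 5 = 1 := by linear_combination (Z - 1) * hZsum
  have hZ1 : Z ≠ 1 := by
    intro h
    rw [h] at hZsum
    exact hfive (by linear_combination hZsum)
  have hZprim : IsPrimitiveRoot Z 5 := by
    have : Fact (Nat.Prime 5) := ⟨by norm_num⟩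
    rw [IsPrimitiveRoot.iff_orderOf]
    exact orderOf_eq_prime hZ5 hZ1
  -- choose the parameter so that `q = 3 - 5k`
  obtain ⟨π, hπk, hπc⟩ : ∃ π : Param Qb, (∃ kA : A, (kA : Qb) = π.k ∧ q = 3 - 5 * residue A kA) ∧
      π.c ∈ A := by
    have five : IsUnit ((5 : ℤ) : A) :=
      isUnit_intCast_of_not_dvd hA hp fun h =>
        hp5 ((Nat.prime_dvd_prime_iff_eq hp Nat.prime_five).mp (Int.natCast_dvd_natCast.mp h))
    rw [Int.cast_ofNat] at five
    obtain ⟨f, hf⟩ := five.exists_right_inv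
    have hc' : ∀ (π : Param Qb), π.p ∈ A → π.k ∈ A → π.c ∈ A := by
      intro π hp hk
      have e : π.c = π.p * (1 + 2 * π.k) * (f : Qb) := by
        have : (5 : Qb) * f = 1 := by
          have := congrArg A.subtype hf
          simpa [map_mul, map_ofNat] using this
        simp only [Param.c]
        field_simp
        linear_combination -(1 + 2 * π.k) * π.p * this
      rw [e]
      exact mul_mem (mul_mem hp (add_mem (one_mem A) (mul_mem (natCast_mem A 2) hk))) f.2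
    have hprod : (q - 3 + 5 * (-1 - Z ^ 2 - Z ^ 3)) * (q - 3 + 5 * (-1 - Z ^ 4 - Z ^ 6)) = 0 := by
      rw [show Z ^ 6 = Z by linear_combination Z * hZ5]
      linear_combination hq' + (50 - 5 * (q - 3)) * hZsum + 25 * (Z ^ 2 + Z) * hZ5
    rcases mul_eq_zero.mp hprod with h | h
    · refine ⟨paramOfRoot hz, ⟨-1 - zA ^ 2 - zA ^ 3, rfl, ?_⟩,
        hc' _ (sub_mem zA.2 (pow_mem zA.2 4)) ((-1 - zA ^ 2 - zA ^ 3 : A)).2⟩
      simp only [map_sub, map_neg, map_one, map_pow]
      linear_combination h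
    · have hz2 : IsPrimitiveRoot (z ^ 2) 5 := hz.pow_of_coprime 2 (by norm_num)
      refine ⟨paramOfRoot hz2, ⟨-1 - (zA ^ 2) ^ 2 - (zA ^ 2) ^ 3, rfl, ?_⟩,
        hc' _ (sub_mem (pow_mem zA.2 2) (pow_mem (pow_mem zA.2 2) 4))
          ((-1 - (zA ^ 2) ^ 2 - (zA ^ 2) ^ 3 : A)).2⟩
      simp only [map_sub, map_neg, map_one, map_pow, ← pow_mul]
      linear_combination h
  obtain ⟨kA, hkA, hk⟩ := hπk
  set cA : A := ⟨π.c, hπc⟩ with hcA
  have hk2 : residue A kA ^ 2 + residue A kA = 1 := by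
    have : kA ^ 2 + kA = 1 := by
      apply subtype_ext
      rw [map_add, map_pow, map_one]
      show (kA : Qb) ^ 2 + (kA : Qb) = 1
      rw [hkA, π.hk]
    have := congrArg (residue A) this
    simpa only [map_add, map_pow, map_one] using this
  have hpow : (-(residue A kA) * R / S) ^ 5 = 1 := by
    have hqS : S ^ 5 = q * R ^ 5 := by rw [hq]; field_simp
    rw [div_pow, mul_pow, div_eq_one_iff_eq (pow_ne_zero _ hs0), hqS, hk]
    linear_combination (-R ^ 5) * (residue A kA ^ 3 - residue A kA ^ 2 + 2 * residue A kA - 3) * hk2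
  obtain ⟨m, -, hm⟩ := hZprim.eq_pow_of_pow_eq_one hpow
  set w : Qb := z ^ (2 * m) with hw
  have hw5 : w ^ 5 = 1 := by rw [hw, ← pow_mul, mul_comm, pow_mul, hz.pow_eq_one, one_pow]
  have hU := (π.isUni_T.mul (isUni_diag hw5)).isSym
  set wA : A := zA ^ (2 * m) with hwA
  have hwv : (wA : Qb) = w := by rw [coe_eq_subtype]; rw [hwA, map_pow]; rfl
  refine ⟨_, _, _, _, hU, -cA * wA * r + cA * kA * wA ^ 4 * s,
    cA * kA * wA * r + cA * wA ^ 4 * s, ?_, ?_, ?_⟩
  · rw [coe_eq_subtype]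
    simp only [map_add, map_mul, map_neg, map_pow]
    show -(π.c) * (wA : Qb) * r₀ + π.c * (kA : Qb) * (wA : Qb) ^ 4 * s₀ = _
    rw [hwv, hkA]; ring
  · rw [coe_eq_subtype]
    simp only [map_add, map_mul, map_pow]
    show π.c * (kA : Qb) * (wA : Qb) * r₀ + π.c * (wA : Qb) ^ 4 * s₀ = _
    rw [hwv, hkA]; ring
  · have e : residue A wA ^ 3 = -(residue A kA) * R / S := by
      rw [← hm, hwA, map_pow, ← hZ, ← pow_mul,
        show 2 * m * 3 = 5 * m + m by ring, pow_add, pow_mul Z 5 m, hZ5, one_pow, one_mul]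
    have e' : residue A wA ^ 3 * S = -(residue A kA) * R := by rw [e]; field_simp
    simp only [map_add, map_mul, map_pow]
    linear_combination residue A cA * residue A wA * e'

/-- A base point in normal position, with the transport of the members of the family. -/
theorem exists_position {W : WeierstrassCurve ℤ} (F : FamilyData W) (hΔ : W.Δ ≠ 0) {p : ℕ}
    (hp : p.Prime) (hp5 : p ≠ 5) (hA : A.LiesOverPrime p) (hpΔ : (p : ℤ) ∣ W.Δ) :
    ∃ r s : A, residue A s = 0 ∧ fC4 r s = (W.c₄ : A) ∧ fC6 r s = (W.c₆ : A) ∧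
      fD r s ^ 5 = (W.Δ : A) ∧
      ∀ (a b : ℤ) (e : ℕ), e ≠ 0 → ∀ R S : A,
        (e : A) * R = ((a + b * F.α : ℤ) : A) * r + (b : A) * (-fDs r s) →
        (e : A) * S = ((a + b * F.α : ℤ) : A) * s + (b : A) * fDr r s →
        (fC4 R S : A).1 = fC4 (memR F a b e) (memS F a b e) ∧
        (fC6 R S : A).1 = fC6 (memR F a b e) (memS F a b e) ∧
        (fD R S ^ 5 : A).1 = fD (memR F a b e) (memS F a b e) ^ 5 := by
  obtain ⟨ga, gb, gm, gn, hS, r, s, hr, hs, hs0⟩ :=
    exists_normal_position hp hp5 hA F.c4_base (fD_base_pow F) hΔ hpΔ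
  refine ⟨r, s, hs0, ?_, ?_, ?_, fun a b e he R S hR hS' => ?_⟩
  · apply subtype_ext
    rw [map_fC4, map_intCast]
    show fC4 (r : Qb) (s : Qb) = _
    rw [hr, hs, hS.c4_eq, F.c4_base]
  · apply subtype_ext
    rw [map_fC6, map_intCast]
    show fC6 (r : Qb) (s : Qb) = _
    rw [hr, hs, hS.c6_eq, F.c6_base]
  · apply subtype_ext
    rw [map_pow, map_fD, map_intCast, ← fD_base_pow F]
    show fD (r : Qb) (s : Qb) ^ 5 = _
    rw [fD_pow_five_eq, fD_pow_five_eq, hr, hs, hS.c4_eq, hS.c6_eq]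
  have heQ : (e : Qb) ≠ 0 := Nat.cast_ne_zero.mpr he
  set R₀ := memR F a b e with hR₀
  set S₀ := memS F a b e with hS₀
  have hRv : (R : Qb) = ga * R₀ + gb * S₀ := by
    have h := congrArg A.subtype hR
    simp only [map_add, map_mul, map_neg, map_intCast, map_natCast, map_fDs] at h
    change (e : Qb) * (R : Qb) = _ * (r : Qb) + _ * -fDs (r : Qb) (s : Qb) at h
    rw [hr, hs, hS.k1_eq] at h
    simp only [hR₀, hS₀, memR, memS, F.hu, F.hv]
    push_cast at h ⊢
    field_simp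
    linear_combination h
  have hSv : (S : Qb) = gm * R₀ + gn * S₀ := by
    have h := congrArg A.subtype hS'
    simp only [map_add, map_mul, map_intCast, map_natCast, map_fDr] at h
    change (e : Qb) * (S : Qb) = _ * (s : Qb) + _ * fDr (r : Qb) (s : Qb) at h
    rw [hr, hs, hS.k2_eq] at h
    simp only [hR₀, hS₀, memR, memS, F.hu, F.hv]
    push_cast at h ⊢
    field_simp
    linear_combination h
  refine ⟨?_, ?_, ?_⟩
  · rw [coe_eq_subtype, map_fC4]
    show fC4 (R : Qb) (S : Qb) = _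
    rw [hRv, hSv, hS.c4_eq]
  · rw [coe_eq_subtype, map_fC6]
    show fC6 (R : Qb) (S : Qb) = _
    rw [hRv, hSv, hS.c6_eq]
  · rw [coe_eq_subtype, map_pow, map_fD]
    show fD (R : Qb) (S : Qb) ^ 5 = _
    rw [fD_pow_five_eq, fD_pow_five_eq, hRv, hSv, hS.c4_eq, hS.c6_eq]

end Fermat.Agent.SwitchLocal
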