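import Fermat.Agent.LevelRaising.Residual
import Fermat.Agent.ConductorLevel.FreyLevel
import Fermat.Agent.Switch.Iso

/-!
# Changes of coordinates: traces on torsion, and traces of congruent models
-/

set_option autoImplicit false

open WeierstrassCurve WeierstrassCurve.Affine WeierstrassCurve.Affine.Point
open scoped WeierstrassCurve.Affine

namespace Fermat.Agent.SwitchLocal

open Fermat.Agent.LevelRaising (pointCongr pointCongr_some point_some_congr)

local notation "Qb" => AlgebraicClosure ℚ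

/-- Isomorphic curves have the same traces on their torsion. -/
theorem galoisTrace_variableChange (E : WeierstrassCurve ℚ) [E.IsElliptic]
    (C : VariableChange ℚ) (p : ℕ) [Fact p.Prime] (σ : Qb ≃ₐ[ℚ] Qb) :
    galoisTrace (K := Qb) ℚ (C • E) p σ = galoisTrace (K := Qb) ℚ E p σ := by
  set φ : ℚ →+* Qb := algebraMap ℚ Qb
  have hXY : (C • E).map φ = C.map φ • E.map φ := (map_variableChange E C φ).symm
  have : (E.map φ).IsElliptic := inferInstance
  let Φ : ((C • E)⁄Qb).Point ≃+ (E⁄Qb).Point :=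
    (pointCongr hXY).trans (Carayol.Omega.pointEquiv (C.map φ) (E.map φ))
  have hΦ : ∀ P : ((C • E)⁄Qb).Point, Φ (σ • P) = σ • Φ P := by
    intro P
    cases P with
    | zero =>
      rw [algEquiv_smul_def, algEquiv_smul_def]
      change Φ (Point.map σ.toAlgHom 0) = Point.map σ.toAlgHom (Φ 0)
      rw [_root_.map_zero, _root_.map_zero, _root_.map_zero]
    | some x y h =>
      rw [algEquiv_smul_def, algEquiv_smul_def, Point.map_some]
      show Carayol.Omega.pointEquiv (C.map φ) (E.map φ) (pointCongr hXY (.some _ _ _)) =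
        Point.map σ.toAlgHom
          (Carayol.Omega.pointEquiv (C.map φ) (E.map φ) (pointCongr hXY (.some _ _ h)))
      erw [pointCongr_some, pointCongr_some, Carayol.Omega.pointEquiv_some,
        Carayol.Omega.pointEquiv_some]
      refine Eq.trans ?_ (Point.map_some (f := σ.toAlgHom) _).symm
      refine point_some_congr (X := E.map φ) ?_ ?_ _ _ <;>
        simp [Carayol.Omega.oldX, Carayol.Omega.oldY, φ]
  let e : Submodule.torsionBy ℤ ((C • E)⁄Qb).Point p ≃+ Submodule.torsionBy ℤ (E⁄Qb).Point p :=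
    { toFun := fun x => ⟨Φ x.1, by
        rw [Submodule.mem_torsionBy_iff, ← map_zsmul, (Submodule.mem_torsionBy_iff _ _).mp x.2,
          _root_.map_zero]⟩
      invFun := fun x => ⟨Φ.symm x.1, by
        rw [Submodule.mem_torsionBy_iff, ← map_zsmul, (Submodule.mem_torsionBy_iff _ _).mp x.2,
          _root_.map_zero]⟩
      left_inv := fun x => Subtype.ext (Φ.symm_apply_apply x.1)
      right_inv := fun x => Subtype.ext (Φ.apply_symm_apply x.1)
      map_add' := fun x y => Subtype.ext (map_add Φ x.1 y.1) }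
  let eL : Submodule.torsionBy ℤ ((C • E)⁄Qb).Point p ≃ₗ[ZMod p]
      Submodule.torsionBy ℤ (E⁄Qb).Point p :=
    LinearEquiv.ofBijective (e.toAddMonoidHom.toZModLinearMap p) e.bijective
  have he : galoisRepModuleEnd ℚ E p σ = eL.conj (galoisRepModuleEnd ℚ (C • E) p σ) := by
    refine LinearMap.ext fun x => ?_
    obtain ⟨y, rfl⟩ := eL.surjective x
    rw [LinearEquiv.conj_apply_apply, eL.symm_apply_apply]
    exact (Subtype.ext (hΦ y.1)).symm
  show LinearMap.trace _ _ (galoisRepModuleEnd ℚ (C • E) p σ) =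
    LinearMap.trace _ _ (galoisRepModuleEnd ℚ E p σ)
  rw [he, LinearMap.trace_conj']

/-- Curves whose invariants differ by a scaling are isomorphic. -/
theorem exists_variableChange {K : Type*} [Field K] [CharZero K] (E E' : WeierstrassCurve K)
    {μ : K} (hμ : μ ≠ 0) (h4 : E'.c₄ = μ ^ 4 * E.c₄) (h6 : E'.c₆ = μ ^ 6 * E.c₆) :
    ∃ C : VariableChange K, C • E = E' := by
  set s := (E'.a₁ / μ - E.a₁) / 2 with hs
  set r := (E'.a₂ / μ ^ 2 - E.a₂ + s * E.a₁ + s ^ 2) / 3 with hr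
  set t := (E'.a₃ / μ ^ 3 - E.a₃ - r * E.a₁) / 2 with ht
  refine ⟨⟨(Units.mk0 μ hμ)⁻¹, r, s, t⟩, Switch.curve_ext ?_ ?_ ?_ ?_ ?_⟩
  · rw [variableChange_a₁, inv_inv, Units.val_mk0]
    simp only [hs]; field_simp; ring
  · rw [variableChange_a₂, inv_inv, Units.val_mk0]
    simp only [hr]; field_simp; ring
  · rw [variableChange_a₃, inv_inv, Units.val_mk0]
    simp only [ht]; field_simp; ring
  · rw [variableChange_c₄, inv_inv, Units.val_mk0, h4]
  · rw [variableChange_c₆, inv_inv, Units.val_mk0, h6]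

theorem exists_mul_add_dvd {m : ℤ} {ℓ : ℕ} (hℓ : ℓ.Prime) (hm : ¬ (ℓ : ℤ) ∣ m) (x : ℤ) :
    ∃ y : ℤ, (ℓ : ℤ) ∣ m * y + x := by
  have hco : IsCoprime m (ℓ : ℤ) :=
    ((Nat.prime_iff_prime_int.mp hℓ).coprime_iff_not_dvd.mpr hm).symm
  obtain ⟨a, b, hab⟩ := hco
  exact ⟨-(a * x), b * x, by linear_combination -x * hab⟩

/-- Models with invariants congruent modulo a prime `ℓ ≥ 5` have the same trace at `ℓ`. -/
theorem apOfModel_eq_of_congr (W₁ W₂ : WeierstrassCurve ℤ) {ℓ : ℕ} (hℓ : ℓ.Prime) (h5 : 5 ≤ ℓ)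
    (hg : W₁.IsGoodPrimeFor ℓ) (h4 : (ℓ : ℤ) ∣ W₁.c₄ - W₂.c₄) (h6 : (ℓ : ℤ) ∣ W₁.c₆ - W₂.c₆) :
    W₁.apOfModel ℓ = W₂.apOfModel ℓ := by
  have := Fact.mk hℓ
  have hnd : ∀ m : ℕ, 0 < m → m < 5 → ¬ (ℓ : ℤ) ∣ (m : ℤ) := fun m hm0 hm h => by
    have := Nat.le_of_dvd hm0 (Int.natCast_dvd_natCast.mp h)
    omega
  obtain ⟨s, hs⟩ := exists_mul_add_dvd hℓ (hnd 2 (by norm_num) (by norm_num)) (W₁.a₁ - W₂.a₁)
  obtain ⟨r, hr⟩ := exists_mul_add_dvd hℓ (hnd 3 (by norm_num) (by norm_num))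
    (W₁.a₂ - s * W₁.a₁ - s ^ 2 - W₂.a₂)
  obtain ⟨t, ht⟩ := exists_mul_add_dvd hℓ (hnd 2 (by norm_num) (by norm_num))
    (W₁.a₃ + r * W₁.a₁ - W₂.a₃)
  set C : VariableChange ℤ := ⟨1, r, s, t⟩ with hC
  have hgood : (C • W₁).IsGoodPrimeFor ℓ := by
    simpa [WeierstrassCurve.IsGoodPrimeFor, variableChange_Δ, hC] using hg
  have hΔ : W₁.Δ ≠ 0 := fun h0 => hg (by rw [h0]; exact dvd_zero _)
  have : (W₁.map (Int.castRingHom ℚ)).IsElliptic :=
    ⟨isUnit_iff_ne_zero.mpr (by simpa using hΔ)⟩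
  have h1 : W₁.IsIntegralModelOf (W₁.map (Int.castRingHom ℚ)) := ⟨1, one_smul _ _⟩
  have h2 : (C • W₁).IsIntegralModelOf (W₁.map (Int.castRingHom ℚ)) :=
    ⟨C.map (Int.castRingHom ℚ), map_variableChange W₁ C _⟩
  rw [ConductorLevel.apOfModel_eq_of_models h1 h2 hℓ hg hgood]
  suffices h : (C • W₁).reductionMod ℓ = W₂.reductionMod ℓ by
    unfold WeierstrassCurve.apOfModel
    rw [h]
  have e : ∀ x y : ℤ, (ℓ : ℤ) ∣ x - y → (x : ZMod ℓ) = y := fun x y h => by
    rw [← sub_eq_zero, ← Int.cast_sub, ZMod.intCast_zmod_eq_zero_iff_dvd]; exact h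
  set E₁ := (C • W₁).reductionMod ℓ
  set E₂ := W₂.reductionMod ℓ
  have a1 : E₁.a₁ = E₂.a₁ := e _ _ (by
    simp only [hC, variableChange_a₁, inv_one, Units.val_one, one_mul]
    convert hs using 1; ring)
  have a2 : E₁.a₂ = E₂.a₂ := e _ _ (by
    simp only [hC, variableChange_a₂, inv_one, Units.val_one, one_pow, one_mul]
    convert hr using 1; ring)
  have a3 : E₁.a₃ = E₂.a₃ := e _ _ (by
    simp only [hC, variableChange_a₃, inv_one, Units.val_one, one_pow, one_mul]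
    convert ht using 1; ring)
  have c4 : E₁.c₄ = E₂.c₄ := by
    simp only [E₁, E₂, WeierstrassCurve.reductionMod, map_c₄, eq_intCast]
    exact e _ _ (by simpa [hC, variableChange_c₄] using h4)
  have c6 : E₁.c₆ = E₂.c₆ := by
    simp only [E₁, E₂, WeierstrassCurve.reductionMod, map_c₆, eq_intCast]
    exact e _ _ (by simpa [hC, variableChange_c₆] using h6)
  simp only [WeierstrassCurve.c₄, WeierstrassCurve.c₆, WeierstrassCurve.b₂, WeierstrassCurve.b₄,
    WeierstrassCurve.b₆, a1, a2, a3] at c4 c6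
  have n48 : (48 : ZMod ℓ) ≠ 0 := by
    intro h
    have h' : (ℓ : ℤ) ∣ 2 ^ 4 * 3 :=
      (ZMod.intCast_zmod_eq_zero_iff_dvd _ _).mp (by norm_num; exact h)
    rcases (Nat.prime_iff_prime_int.mp hℓ).dvd_or_dvd h' with h | h
    · exact hnd 2 (by norm_num) (by norm_num) ((Nat.prime_iff_prime_int.mp hℓ).dvd_of_dvd_pow h)
    · exact hnd 3 (by norm_num) (by norm_num) h
  have n864 : (864 : ZMod ℓ) ≠ 0 := by
    intro h
    have h' : (ℓ : ℤ) ∣ 2 ^ 5 * 3 ^ 3 :=
      (ZMod.intCast_zmod_eq_zero_iff_dvd _ _).mp (by norm_num; exact h)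
    rcases (Nat.prime_iff_prime_int.mp hℓ).dvd_or_dvd h' with h | h
    · exact hnd 2 (by norm_num) (by norm_num) ((Nat.prime_iff_prime_int.mp hℓ).dvd_of_dvd_pow h)
    · exact hnd 3 (by norm_num) (by norm_num) ((Nat.prime_iff_prime_int.mp hℓ).dvd_of_dvd_pow h)
  have a4 : E₁.a₄ = E₂.a₄ := mul_left_cancel₀ n48 (by linear_combination -c4)
  refine WeierstrassCurve.ext a1 a2 a3 a4 (mul_left_cancel₀ n864 ?_)
  rw [a4] at c6
  linear_combination -c6

end Fermat.Agent.SwitchLocal
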