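import Fermat.Agent.Switch.Main
import Fermat.Agent.SwitchLocal.Irreducible
import Fermat.Agent.SwitchLocal.Kraus
import Fermat.Agent.SwitchLocal.FiveTrace
import Fermat.Agent.SwitchLocal.FiveNormal
import Fermat.Agent.Top.Inputs

/-!
# The 5-switch with a prescribed member at one multiplicative prime
-/

set_option autoImplicit false

namespace Fermat.Agent.SwitchLocal

open WeierstrassCurve IsLocalRing
open Fermat.Agent.Switch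

local notation "Qb" => AlgebraicClosure ℚ

theorem exists_coprime_shift {a b Q : ℤ} (hb : b ≠ 0)
    (h : ∀ p : ℕ, p.Prime → (p : ℤ) ∣ a → (p : ℤ) ∣ b → ¬ (p : ℤ) ∣ Q) :
    ∃ t : ℤ, ∀ p : ℕ, p.Prime → (p : ℤ) ∣ a + Q * t → ¬ (p : ℤ) ∣ b := by
  classical
  set S : Finset ℕ := Finset.filter (fun q : ℕ => ¬ (q : ℤ) ∣ a) b.natAbs.primeFactors with hSdef
  refine ⟨∏ q ∈ S, (q : ℤ), fun p hp hpa hpb => ?_⟩
  have hp' := Nat.prime_iff_prime_int.mp hp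
  by_cases ha : (p : ℤ) ∣ a
  · have hQ := h p hp ha hpb
    rcases hp'.dvd_or_dvd ((dvd_add_right ha).mp hpa) with h' | h'
    · exact hQ h'
    · obtain ⟨q, hq, hdvd⟩ := hp'.exists_mem_finset_dvd h'
      obtain ⟨hq1, hq2⟩ := Finset.mem_filter.mp hq
      have : p = q := (Nat.prime_dvd_prime_iff_eq hp (Nat.prime_of_mem_primeFactors hq1)).mp
        (Int.natCast_dvd_natCast.mp hdvd)
      exact hq2 (this ▸ ha)
  · have hS : p ∈ S := Finset.mem_filter.mpr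
      ⟨Nat.mem_primeFactors.mpr ⟨hp, Int.natCast_dvd.mp hpb, Int.natAbs_ne_zero.mpr hb⟩, ha⟩
    exact ha ((dvd_add_left ((Finset.dvd_prod_of_mem (fun q : ℕ => (q : ℤ)) hS).mul_left Q)).mp hpa)

theorem c₆_local (W : WeierstrassCurve ℤ) :
    OkAtThree W.c₆ ∧ (¬ (2 : ℤ) ∣ W.c₄ → (4 : ℤ) ∣ W.c₆ - 3) := by
  have h4 : W.c₄ = W.b₂ ^ 2 - 24 * W.b₄ := rfl
  have h6 : W.c₆ = -W.b₂ ^ 3 + 36 * W.b₂ * W.b₄ - 216 * W.b₆ := rfl
  constructor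
  · by_cases h : (3 : ℤ) ∣ W.b₂
    · right
      obtain ⟨j, hj⟩ := h
      exact ⟨-j ^ 3 + 4 * j * W.b₄ - 8 * W.b₆, by rw [h6, hj]; ring⟩
    · left
      intro h'
      refine h (Int.prime_three.dvd_of_dvd_pow (n := 3) ?_)
      obtain ⟨j, hj⟩ := h'
      exact ⟨-j + 12 * W.b₂ * W.b₄ - 72 * W.b₆, by rw [h6] at hj; linarith⟩
  · intro hc
    have hb : W.b₂ = W.a₁ ^ 2 + 4 * W.a₂ := rfl
    rcases Int.emod_two_eq_zero_or_one W.a₁ with h | h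
    · exfalso
      obtain ⟨i, hi⟩ : (2 : ℤ) ∣ W.a₁ := by omega
      exact hc ⟨8 * (i ^ 2 + W.a₂) ^ 2 - 12 * W.b₄, by rw [h4, hb, hi]; ring⟩
    · obtain ⟨i, hi⟩ : ∃ i, W.a₁ = 2 * i + 1 := ⟨W.a₁ / 2, by omega⟩
      obtain ⟨B, hB⟩ : ∃ B, W.b₂ = 4 * B + 1 := ⟨i ^ 2 + i + W.a₂, by rw [hb, hi]; ring⟩
      exact ⟨-16 * B ^ 3 - 12 * B ^ 2 - 3 * B - 1 + 9 * W.b₂ * W.b₄ - 54 * W.b₆, by
        rw [h6, hB]; ring⟩

theorem prime_eq_of_dvd_pow {p q i : ℕ} (hp : p.Prime) (hq : q.Prime)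
    (h : (p : ℤ) ∣ (q : ℤ) ^ i) : p = q :=
  (Nat.prime_dvd_prime_iff_eq hp hq).mp
    (Int.natCast_dvd_natCast.mp ((Nat.prime_iff_prime_int.mp hp).dvd_of_dvd_pow h))

/-- The parameter: close to the base point away from `q`, prescribed at `q` and at `ℓ`. -/
theorem exists_params {c d α X M : ℤ} {ℓ q : ℕ} (i k : ℕ) (hℓ : ℓ.Prime) (hq : q.Prime) (hℓq : ℓ ≠ q)
    (hℓM : ¬ (ℓ : ℤ) ∣ M) (hqM : ¬ (q : ℤ) ∣ M) (hc : ¬ (q : ℤ) ∣ c) :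
    ∃ a b m₀ : ℤ, M ∣ a - (q : ℤ) ^ i ∧ (ℓ : ℤ) ∣ a - (q : ℤ) ^ i ∧ M ∣ b ∧ ¬ (q : ℤ) ∣ b ∧
      (ℓ : ℤ) ∣ b - (q : ℤ) ^ i * X ∧ ¬ (q : ℤ) ∣ m₀ ∧
      c * (a + b * α) - b * d = (q : ℤ) ^ k * m₀ ∧
      ∀ p : ℕ, p.Prime → (p : ℤ) ∣ a → ¬ (p : ℤ) ∣ b := by
  have hq' := Nat.prime_iff_prime_int.mp hq
  have hqℓ : ¬ (q : ℤ) ∣ (ℓ : ℤ) := fun h =>
    hℓq ((Nat.prime_dvd_prime_iff_eq hq hℓ).mp (Int.natCast_dvd_natCast.mp h)).symm
  obtain ⟨b, hbM, hbq, hbℓ⟩ : ∃ b : ℤ, M ∣ b ∧ ¬ (q : ℤ) ∣ b ∧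
      (ℓ : ℤ) ∣ b - (q : ℤ) ^ i * X := by
    obtain ⟨y, hy⟩ := exists_mul_add_dvd hℓ hℓM (-((q : ℤ) ^ i * X))
    by_cases h : (q : ℤ) ∣ y
    · refine ⟨M * (y + ℓ), dvd_mul_right _ _, fun h' => ?_, ?_⟩
      · exact hqℓ ((dvd_add_right h).mp ((hq'.dvd_or_dvd h').resolve_left hqM))
      · obtain ⟨z, hz⟩ := hy
        exact ⟨z + M, by linear_combination hz⟩
    · refine ⟨M * y, dvd_mul_right _ _, fun h' => ?_, hy⟩
      exact h ((hq'.dvd_or_dvd h').resolve_left hqM)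
  have hb0 : b ≠ 0 := fun h0 => hbq (h0 ▸ dvd_zero _)
  obtain ⟨a, haM, haℓ, ha2, hab⟩ : ∃ a : ℤ, M ∣ a - (q : ℤ) ^ i ∧ (ℓ : ℤ) ∣ a - (q : ℤ) ^ i ∧
      (q : ℤ) ^ (k + 1) ∣ c * (a + b * α) - b * d - (q : ℤ) ^ k ∧
      ∀ p : ℕ, p.Prime → (p : ℤ) ∣ a → ¬ (p : ℤ) ∣ b := by
    obtain ⟨u, v, huv⟩ : IsCoprime (c * (M * ℓ)) ((q : ℤ) ^ (k + 1)) := by
      refine (hq'.coprime_iff_not_dvd.mpr fun h => ?_).symm.pow_right
      rcases hq'.dvd_or_dvd h with h' | h'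
      · exact hc h'
      · exact hqℓ ((hq'.dvd_or_dvd h').resolve_left hqM)
    set rest := c * ((q : ℤ) ^ i + b * α) - b * d - (q : ℤ) ^ k with hrest
    set a₀ := (q : ℤ) ^ i + M * ℓ * (-u * rest) with ha₀
    have hnot : ∀ p : ℕ, p.Prime → (p : ℤ) ∣ a₀ → (p : ℤ) ∣ b →
        ¬ (p : ℤ) ∣ M * ℓ * (q : ℤ) ^ (k + 1) := by
      intro p hp hpa hpb hQ
      have hp' := Nat.prime_iff_prime_int.mp hp
      have hpq : p ≠ q := fun h => hbq (h ▸ hpb)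
      have hpML : (p : ℤ) ∣ M * ℓ :=
        (hp'.dvd_or_dvd hQ).resolve_right fun h => hpq (prime_eq_of_dvd_pow hp hq h)
      exact hpq (prime_eq_of_dvd_pow hp hq ((dvd_add_left (hpML.mul_right _)).mp hpa))
    obtain ⟨t, ht⟩ := exists_coprime_shift hb0 hnot
    exact ⟨a₀ + M * ℓ * (q : ℤ) ^ (k + 1) * t,
      ⟨ℓ * (-u * rest) + ℓ * (q : ℤ) ^ (k + 1) * t, by rw [ha₀]; ring⟩,
      ⟨M * (-u * rest) + M * (q : ℤ) ^ (k + 1) * t, by rw [ha₀]; ring⟩,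
      ⟨v * rest + c * (M * ℓ) * t, by rw [ha₀]; linear_combination (-rest) * huv⟩, ht⟩
  obtain ⟨z, hz⟩ := ha2
  refine ⟨a, b, 1 + (q : ℤ) * z, haM, haℓ, hbM, hbq, hbℓ, fun h => ?_,
    by rw [pow_succ] at hz; linear_combination hz, hab⟩
  exact hq'.not_isUnit (isUnit_of_dvd_one ((dvd_add_left (dvd_mul_right _ z)).mp h))

theorem congruent_of_forms {W W' : WeierstrassCurve ℤ} (F : FamilyData W) {a b : ℤ} {e : ℕ}
    {c' d'' E : ℤ} (hc' : fC4 (memR F a b e) (memS F a b e) = (c' : Qb))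
    (hd'' : fC6 (memR F a b e) (memS F a b e) = (d'' : Qb))
    (hE : fD (memR F a b e) (memS F a b e) ^ 5 = (E : Qb))
    (hrel : c' ^ 3 - d'' ^ 2 = 1728 * E) (hE0 : E ≠ 0) (ha0 : a ≠ 0)
    (hW'4 : W'.c₄ = c') (hW'6 : W'.c₆ = d'') (he : e ≠ 0) :
    Fermat.Agent.Top.Congruent 5 W W' := by
  intro q hq hg hg' hq5
  set R₀ := memR F a b e with hR₀
  set S₀ := memS F a b e with hS₀
  set μ : ℚ := ((a : ℚ) / e) ^ 5 with hμ
  have hμ0 : μ ≠ 0 := pow_ne_zero _ (div_ne_zero (Int.cast_ne_zero.mpr ha0) (Nat.cast_ne_zero.mpr he))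
  set t : ℚ := (b : ℚ) / a with ht
  set c4t : ℚ := (c' : ℚ) / μ ^ 4 with hc4t
  set c6t : ℚ := (d'' : ℚ) / μ ^ 6 with hc6t
  set V : WeierstrassCurve ℚ := ⟨(W.a₁ : ℚ), (W.a₂ : ℚ), (W.a₃ : ℚ),
    (W.a₄ : ℚ) - (c4t - W.c₄) / 48,
    (W.a₆ : ℚ) - (W.b₂ : ℚ) * (c4t - W.c₄) / 576 - (c6t - W.c₆) / 864⟩ with hV
  have hV4 : V.c₄ = c4t := by
    simp only [hV, WeierstrassCurve.c₄, WeierstrassCurve.b₂, WeierstrassCurve.b₄]
    push_cast; ring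
  have hV6 : V.c₆ = c6t := by
    simp only [hV, WeierstrassCurve.c₄, WeierstrassCurve.c₆, WeierstrassCurve.b₂,
      WeierstrassCurve.b₄, WeierstrassCurve.b₆]
    push_cast; ring
  have hVΔ : V.Δ ≠ 0 := by
    intro h
    have hr := V.c_relation
    rw [h, mul_zero, hV4, hV6, hc4t, hc6t] at hr
    have ediv : ((c' : ℚ) / μ ^ 4) ^ 3 - ((d'' : ℚ) / μ ^ 6) ^ 2
        = ((c' : ℚ) ^ 3 - (d'' : ℚ) ^ 2) / μ ^ 12 := by ring
    rw [ediv] at hr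
    have : (c' : ℚ) ^ 3 - (d'' : ℚ) ^ 2 = 0 :=
      (div_eq_zero_iff.mp hr.symm).resolve_right (pow_ne_zero _ hμ0)
    have hrelQ : (c' : ℚ) ^ 3 - (d'' : ℚ) ^ 2 = 1728 * (E : ℚ) := by exact_mod_cast hrel
    rw [hrelQ] at this
    simp [hE0] at this
  have : V.IsElliptic := ⟨isUnit_iff_ne_zero.mpr hVΔ⟩
  obtain ⟨C, hC⟩ := exists_variableChange V (W'.map (Int.castRingHom ℚ)) hμ0
    (by rw [map_c₄, hW'4, hV4, hc4t, eq_intCast]; field_simp)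
    (by rw [map_c₆, hW'6, hV6, hc6t, eq_intCast]; field_simp)
  have hfib : Fib (V⁄Qb) (F.r₀ + (t : Qb) * F.u) (F.s₀ + (t : Qb) * F.v) := by
    set l : Qb := (e : Qb) / a with hl
    have heQ : (e : Qb) ≠ 0 := Nat.cast_ne_zero.mpr he
    have haQ : (a : Qb) ≠ 0 := Int.cast_ne_zero.mpr ha0
    have e1 : F.r₀ + (t : Qb) * F.u = l * R₀ := by
      rw [hl, hR₀, memR, ht]; push_cast; field_simp
    have e2 : F.s₀ + (t : Qb) * F.v = l * S₀ := by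
      rw [hl, hS₀, memS, ht]; push_cast; field_simp
    refine ⟨?_, ?_, ?_⟩
    · show (V.map (algebraMap ℚ Qb)).c₄ = _
      rw [map_c₄, hV4, e1, e2, fC4_smul, hc', hl, hc4t, hμ, eq_ratCast]
      push_cast
      field_simp
    · show (V.map (algebraMap ℚ Qb)).c₆ = _
      rw [map_c₆, hV6, e1, e2, fC6_smul, hd'', hl, hc6t, hμ, eq_ratCast]
      push_cast
      field_simp
    · rw [e1, e2, fD_smul]
      refine mul_ne_zero (pow_ne_zero _ (div_ne_zero (Nat.cast_ne_zero.mpr he) haQ)) fun h => hE0 ?_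
      have := hE
      rw [h, zero_pow (by norm_num)] at this
      exact_mod_cast this.symm
  have : Fact (Nat.Prime 5) := ⟨Nat.prime_five⟩
  obtain ⟨A, hA⟩ := Arith.exists_liesOverPrime hq
  obtain ⟨σ, hσ⟩ := Arith.exists_isFrobeniusAt hA hq
  have eW := EC.FrobTrace.galoisTrace_frobenius (p := 5) W hq hg hq5 hA hσ
  have e' := EC.FrobTrace.galoisTrace_frobenius (p := 5) W' hq hg' hq5 hA hσ
  rw [← hC, galoisTrace_variableChange V C 5 σ] at e'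
  have key := F.galoisTrace_eq (W.map (Int.castRingHom ℚ)) V 0 t
    (fun V' hV' => by
      rcases hV' with rfl | hV'
      · exact ⟨by simp, by simp, by simp⟩
      · rw [Set.mem_singleton_iff] at hV'
        subst hV'
        exact ⟨by simp [hV], by simp [hV], by simp [hV]⟩)
    (fib_base F) hfib σ
  rw [show (W.map (Int.castRingHom ℚ)).toAffine = W.map (Int.castRingHom ℚ) from rfl, eW,
    show V.toAffine = V from rfl, e'] at key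
  exact (ZMod.intCast_zmod_eq_zero_iff_dvd _ 5).mp (by push_cast; rw [key, sub_self])

theorem irreducible_of_forms {W W' : WeierstrassCurve ℤ} (F : FamilyData W) {a b : ℤ} {e ℓ : ℕ}
    {c' d'' E n₀ : ℤ} (hc' : fC4 (memR F a b e) (memS F a b e) = (c' : Qb))
    (hd'' : fC6 (memR F a b e) (memS F a b e) = (d'' : Qb))
    (hE : fD (memR F a b e) (memS F a b e) ^ 5 = (E : Qb))
    (hℓ : ℓ.Prime) (hℓ30 : ¬ (ℓ : ℤ) ∣ 30 * W.Δ) (hℓ5 : 5 ≤ ℓ) (hℓ3 : ℓ ≠ 3)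
    (heℓ : ¬ (ℓ : ℤ) ∣ (e : ℤ)) (hℓg : (F.curve n₀).IsGoodPrimeFor ℓ)
    (hℓa : ((F.curve n₀).apOfModel ℓ : ZMod 3) ≠ 1 + ℓ)
    (haℓ : (ℓ : ℤ) ∣ a - e) (hbℓ : (ℓ : ℤ) ∣ b - e * (F.M * n₀))
    (hW'4 : W'.c₄ = c') (hW'6 : W'.c₆ = d'') (hW'Δ : W'.Δ = E) (hE0 : E ≠ 0)
    (hsemi : W'.IsSemistableModel) : W'.ModRepIsIrreducible 3 := by
  have : Fact (Nat.Prime 3) := ⟨Nat.prime_three⟩
  set R₀ := memR F a b e with hR₀
  set S₀ := memS F a b e with hS₀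
  obtain ⟨A, hA⟩ := Arith.exists_liesOverPrime hℓ
  obtain ⟨RA, SA, hRA, hSA, -, hgen⟩ := forms_generic F hℓ hℓ30 (a := a) (b := b) heℓ hA
  obtain ⟨R', S', hR', hS'', eR, eS⟩ := hgen n₀ haℓ hbℓ
  have key : ∀ (n n' : ℤ) (x y : A), (x : Qb) = (n : Qb) → (y : Qb) = (n' : Qb) →
      residue A x = residue A y → (ℓ : ℤ) ∣ n - n' := by
    intro n n' x y hx hy hxy
    rw [← intCast_residue_eq_zero_iff hA hℓ, Int.cast_sub, sub_eq_zero,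
      ← map_intCast (residue A) n, ← map_intCast (residue A) n']
    have ex : (n : A) = x := subtype_ext (by rw [map_intCast, ← coe_eq_subtype, hx])
    have ey : (n' : A) = y := subtype_ext (by rw [map_intCast, ← coe_eq_subtype, hy])
    rw [ex, ey, hxy]
  have e4 : (ℓ : ℤ) ∣ c' - (F.curve n₀).c₄ := key _ _ (fC4 RA SA) (fC4 R' S')
    (by rw [coe_eq_subtype]; rw [map_fC4, ← hc', hR₀, hS₀, ← hRA, ← hSA]; rfl)
    (by
      rw [coe_eq_subtype, map_fC4]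
      show fC4 (R' : Qb) (S' : Qb) = _
      rw [hR', hS'']; exact (F.c4_fib n₀).symm)
    (by rw [map_fC4, map_fC4, eR, eS])
  have e6 : (ℓ : ℤ) ∣ d'' - (F.curve n₀).c₆ := key _ _ (fC6 RA SA) (fC6 R' S')
    (by rw [coe_eq_subtype]; rw [map_fC6, ← hd'', hR₀, hS₀, ← hRA, ← hSA]; rfl)
    (by
      rw [coe_eq_subtype, map_fC6]
      show fC6 (R' : Qb) (S' : Qb) = _
      rw [hR', hS'']; exact (F.c6_fib n₀).symm)
    (by rw [map_fC6, map_fC6, eR, eS])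
  have eE : (ℓ : ℤ) ∣ E - (F.curve n₀).Δ := key _ _ (fD RA SA ^ 5) (fD R' S' ^ 5)
    (by rw [coe_eq_subtype]; rw [map_pow, map_fD, ← hE, hR₀, hS₀, ← hRA, ← hSA]; rfl)
    (by
      rw [coe_eq_subtype, map_pow, map_fD]
      show fD (R' : Qb) (S' : Qb) ^ 5 = _
      rw [hR', hS'']; exact (F.Δ_curve n₀).symm)
    (by rw [map_pow, map_pow, map_fD, map_fD, eR, eS])
  have hg' : W'.IsGoodPrimeFor ℓ := fun h => hℓg <| by
    rw [hW'Δ] at h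
    exact (dvd_sub_right h).mp eE
  refine modRepIsIrreducible_of_apOfModel_ne (hW'Δ ▸ hE0) hsemi (by norm_num) hℓ hg' hℓ3 ?_
  rw [apOfModel_eq_of_congr W' (F.curve n₀) hℓ hℓ5 hg' (hW'4 ▸ e4) (hW'6 ▸ e6)]
  exact hℓa

/-- The invariants of a member are integers congruent to those of `W` away from `q`. -/
theorem exists_values {W : WeierstrassCurve ℤ} (F : FamilyData W) {a b D N M : ℤ} {q n e : ℕ}
    (hD : D ≠ 0)
    (hi : IsIntegral ℤ ((D : Qb) * F.r₀) ∧ IsIntegral ℤ ((D : Qb) * F.s₀) ∧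
      IsIntegral ℤ ((D : Qb) * F.u) ∧ IsIntegral ℤ ((D : Qb) * F.v))
    (hM : (q : ℤ) ^ n * M = N * D ^ 60) (hq : q.Prime)
    (he : ∀ p : ℕ, p.Prime → p ≠ q → ¬ (p : ℤ) ∣ (e : ℤ)) (haM : M ∣ a - e) (hbM : M ∣ b)
    {A : ValuationSubring Qb} (hA : A.LiesOverPrime q) {X Y Z : A}
    (hX : (X : Qb) = fC4 (memR F a b e) (memS F a b e))
    (hY : (Y : Qb) = fC6 (memR F a b e) (memS F a b e))
    (hZ : (Z : Qb) = fD (memR F a b e) (memS F a b e) ^ 5) :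
    ∃ c' d'' E : ℤ, fC4 (memR F a b e) (memS F a b e) = (c' : Qb) ∧
      fC6 (memR F a b e) (memS F a b e) = (d'' : Qb) ∧
      fD (memR F a b e) (memS F a b e) ^ 5 = (E : Qb) ∧
      c' ^ 3 - d'' ^ 2 = 1728 * E ∧ (c' : A) = X ∧ (d'' : A) = Y ∧ (E : A) = Z ∧
      (∀ p : ℕ, p.Prime → p ≠ q → ∀ k : ℕ, (p : ℤ) ^ k ∣ N →
        (p : ℤ) ^ k ∣ c' - W.c₄ ∧ (p : ℤ) ^ k ∣ d'' - W.c₆ ∧ (p : ℤ) ^ k ∣ E - W.Δ) := by
  set R₀ := memR F a b e with hR₀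
  set S₀ := memS F a b e with hS₀
  have hnear := fun (p : ℕ) (hp : p.Prime) (hpq : p ≠ q) (A : ValuationSubring Qb)
    (hA : A.LiesOverPrime p) => forms_near F hD hi (N := N) (e := e) hM haM hbM hp
      (fun h => hpq (prime_eq_of_dvd_pow hp hq h)) (he p hp hpq) hA
  obtain ⟨c', hc'⟩ : ∃ n : ℤ, fC4 R₀ S₀ = (n : Qb) := by
    refine exists_int_of_fixed (fun σ => (smul_mem_forms F a b _ σ).1) fun p hp => ?_
    by_cases hpq : p = q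
    · subst hpq; exact ⟨A, hA, hX ▸ X.2⟩
    · obtain ⟨B, hB⟩ := Arith.exists_liesOverPrime hp
      obtain ⟨z, hz⟩ := (hnear p hp hpq B hB).1
      exact ⟨B, hB, hz ▸ add_mem (intCast_mem B _) (mul_mem (intCast_mem B _) z.2)⟩
  obtain ⟨d'', hd''⟩ : ∃ n : ℤ, fC6 R₀ S₀ = (n : Qb) := by
    refine exists_int_of_fixed (fun σ => (smul_mem_forms F a b _ σ).2) fun p hp => ?_
    by_cases hpq : p = q
    · subst hpq; exact ⟨A, hA, hY ▸ Y.2⟩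
    · obtain ⟨B, hB⟩ := Arith.exists_liesOverPrime hp
      obtain ⟨z, hz⟩ := (hnear p hp hpq B hB).2.1
      exact ⟨B, hB, hz ▸ add_mem (intCast_mem B _) (mul_mem (intCast_mem B _) z.2)⟩
  obtain ⟨E, hE⟩ : ∃ n : ℤ, fD R₀ S₀ ^ 5 = (n : Qb) := by
    refine exists_int_of_fixed (fun σ => by
      rw [fD_pow_five_eq, map_div₀, map_sub, map_pow, map_pow, map_ofNat, hc', hd'',
        map_intCast, map_intCast]) fun p hp => ?_
    by_cases hpq : p = q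
    · subst hpq; exact ⟨A, hA, hZ ▸ Z.2⟩
    · obtain ⟨B, hB⟩ := Arith.exists_liesOverPrime hp
      obtain ⟨z, hz⟩ := (hnear p hp hpq B hB).2.2
      exact ⟨B, hB, hz ▸ add_mem (intCast_mem B _) (mul_mem (intCast_mem B _) z.2)⟩
  have castA : ∀ {x : A} {n : ℤ}, (x : Qb) = (n : Qb) → (n : A) = x := fun {x n} h => by
    apply subtype_ext
    rw [map_intCast, ← coe_eq_subtype, h]
  refine ⟨c', d'', E, hc', hd'', hE, ?_, castA (hX.trans hc'), castA (hY.trans hd''),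
    castA (hZ.trans hE), fun p hp hpq k ⟨N', hN'⟩ => ?_⟩
  · have := fC4_cube_sub_fC6_sq R₀ S₀
    rw [hc', hd'', hE] at this
    exact_mod_cast this
  obtain ⟨B, hB⟩ := Arith.exists_liesOverPrime hp
  have key : ∀ (n n' : ℤ) (x : Qb), x = (n : Qb) →
      (∃ z : B, x = (n' : Qb) + (N : Qb) * z) → (p : ℤ) ^ k ∣ n - n' := by
    intro n n' x hx ⟨z, hz⟩
    refine pow_dvd_of_dvd_intCast hB hp k ⟨(N' : B) * z, ?_⟩
    apply subtype_ext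
    simp only [map_intCast, map_mul, map_pow, map_natCast, map_sub, Int.cast_sub]
    rw [← hx, hz, hN']
    push_cast
    show _ = _ * (_ * (z : Qb))
    ring
  obtain ⟨z4, z6, zD⟩ := hnear p hp hpq B hB
  exact ⟨key _ _ _ hc' z4, key _ _ _ hd'' z6, key _ _ _ hE zD⟩

theorem semistable_of_forms {W W' : WeierstrassCurve ℤ} (F : FamilyData W)
    (hW : W.IsSemistableModel) {a b c' E : ℤ} {q e : ℕ}
    (hc' : fC4 (memR F a b e) (memS F a b e) = (c' : Qb))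
    (hE : fD (memR F a b e) (memS F a b e) ^ 5 = (E : Qb))
    (hW'4 : W'.c₄ = c') (hW'Δ : W'.Δ = E) (hq : ¬ ((q : ℤ) ∣ E ∧ (q : ℤ) ∣ c'))
    (he : ∀ p : ℕ, p.Prime → p ≠ q → ¬ (p : ℤ) ∣ (e : ℤ))
    (hab : ∀ p : ℕ, p.Prime → (p : ℤ) ∣ a → ¬ (p : ℤ) ∣ b)
    (hcong : ∀ p : ℕ, p.Prime → p ≠ q → (p : ℤ) ∣ 30 * W.Δ →
      (p : ℤ) ∣ c' - W.c₄ ∧ (p : ℤ) ∣ E - W.Δ) : W'.IsSemistableModel := by
  set R₀ := memR F a b e with hR₀
  set S₀ := memS F a b e with hS₀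
  intro p hp hpΔ hpc
  rw [hW'Δ] at hpΔ
  rw [hW'4] at hpc
  have hpq : p ≠ q := fun h => hq (h ▸ ⟨hpΔ, hpc⟩)
  by_cases h30 : (p : ℤ) ∣ 30 * W.Δ
  · obtain ⟨e4, eE⟩ := hcong p hp hpq h30
    exact hW p hp ((dvd_sub_right hpΔ).mp eE) ((dvd_sub_right hpc).mp e4)
  · obtain ⟨A, hA⟩ := Arith.exists_liesOverPrime hp
    obtain ⟨RA, SA, hRA, hSA, hgen, -⟩ :=
      forms_generic F hp h30 (a := a) (b := b) (he p hp hpq) hA
    have z4 : residue A (fC4 RA SA) = 0 := by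
      have : fC4 RA SA = (c' : A) := by
        apply subtype_ext
        rw [map_fC4, map_intCast, ← hc', hR₀, hS₀, ← hRA, ← hSA]; rfl
      rw [this, map_intCast]
      exact (intCast_residue_eq_zero_iff hA hp _).mpr hpc
    have zD : residue A (fD RA SA) = 0 := by
      have : fD RA SA ^ 5 = (E : A) := by
        apply subtype_ext
        rw [map_pow, map_fD, map_intCast, ← hE, hR₀, hS₀, ← hRA, ← hSA]; rfl
      have h := congrArg (residue A) this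
      rw [map_pow, map_intCast, (intCast_residue_eq_zero_iff hA hp _).mpr hpΔ] at h
      simpa using h
    exact hab p hp (hgen z4 zD).1 (hgen z4 zD).2

/-- The member of the family attached to a local condition `Loc` at the prime `q ∣ Δ`. -/
theorem exists_member_five (W : WeierstrassCurve ℤ) (hΔ : W.Δ ≠ 0) (hW : W.IsSemistableModel)
    {q : ℕ} (hq : q.Prime) (hq5 : q ≠ 5) (hqΔ : (q : ℤ) ∣ W.Δ) (i k : ℕ) (d₀ : ℤ)
    (Loc : ℤ → ℤ → ℤ → Prop) (hLoc0 : ∀ c' d' E, Loc c' d' E → E ≠ 0)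
    (hloc : ∀ (A : ValuationSubring Qb), A.LiesOverPrime q → ∀ r s : A, residue A s = 0 →
      fC4 r s = (W.c₄ : A) → fC6 r s = (W.c₆ : A) → fD r s ^ 5 = (W.Δ : A) →
      ∀ a' b m₀ : ℤ, ¬ (q : ℤ) ∣ b → ¬ (q : ℤ) ∣ m₀ →
        W.c₄ * a' - b * d₀ = (q : ℤ) ^ k * m₀ →
      ∃ R S : A, ((q ^ i : ℕ) : A) * R = (a' : A) * r + (b : A) * (-fDs r s) ∧
        ((q ^ i : ℕ) : A) * S = (a' : A) * s + (b : A) * fDr r s ∧
        ∀ c' d' E : ℤ, (c' : A) = fC4 R S → (d' : A) = fC6 R S → (E : A) = fD R S ^ 5 →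
          Loc c' d' E) :
    ∃ c' d' E : ℤ, c' ^ 3 - d' ^ 2 = 1728 * E ∧ Loc c' d' E ∧
      (∀ p : ℕ, p.Prime → p ≠ q → ∀ j : ℕ, (p : ℤ) ^ j ∣ 12960 * W.Δ →
        (p : ℤ) ^ j ∣ c' - W.c₄ ∧ (p : ℤ) ^ j ∣ d' - W.c₆ ∧ (p : ℤ) ^ j ∣ E - W.Δ) ∧
      ∀ W' : WeierstrassCurve ℤ, W'.c₄ = c' → W'.c₆ = d' → W'.Δ = E →
        ¬ ((q : ℤ) ∣ E ∧ (q : ℤ) ∣ c') →
        W'.IsSemistableModel ∧ W'.ModRepIsIrreducible 3 ∧ Fermat.Agent.Top.Congruent 5 W W' := by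
  classical
  have hc : ¬ (q : ℤ) ∣ W.c₄ := hW q hq hqΔ
  obtain ⟨F⟩ := exists_familyData hΔ hW
  obtain ⟨n₀, hn₀, hirr⟩ := F.exists_irreducible hW (c₄_ne_zero_of_semistable hΔ hW)
  obtain ⟨D, hD, hi⟩ := exists_denominator F
  have : Fact (Nat.Prime 3) := ⟨Nat.prime_three⟩
  obtain ⟨ℓ, hℓ, hℓS, hℓg, hℓ3, hℓa⟩ := EC.Rep.exists_apOfModel_ne (p := 3) (by norm_num) hirr hn₀
    (30 * W.Δ * D).natAbs.primeFactors
  have hℓ' : ¬ (ℓ : ℤ) ∣ 30 * W.Δ * D := fun h => hℓS (Nat.mem_primeFactors.mpr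
    ⟨hℓ, Int.natCast_dvd.mp h, Int.natAbs_ne_zero.mpr (by simp [hΔ, hD])⟩)
  have hℓ30 : ¬ (ℓ : ℤ) ∣ 30 * W.Δ := fun h => hℓ' (h.mul_right D)
  have hℓp := Nat.prime_iff_prime_int.mp hℓ
  have hℓ5 : 5 ≤ ℓ := by
    by_contra hlt
    have h2le := hℓ.two_le
    interval_cases ℓ
    · exact hℓ30 (dvd_mul_of_dvd_left (by norm_num) _)
    · exact hℓ3 rfl
    · norm_num at hℓ
  have hℓq : ℓ ≠ q := fun h => hℓ30 (h ▸ hqΔ.mul_left _)
  -- the modulus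
  obtain ⟨n, M, hqM, hM⟩ := WfDvdMonoid.max_power_factor (x := (q : ℤ))
    (show 12960 * W.Δ * D ^ 60 ≠ 0 by simp [hΔ, hD]) (Nat.prime_iff_prime_int.mp hq).irreducible
  have hℓM : ¬ (ℓ : ℤ) ∣ M := by
    intro h
    have : (ℓ : ℤ) ∣ (2 ^ 5 * 3 ^ 4 * 5) * W.Δ * D ^ 60 := by
      norm_num
      rw [hM]
      exact h.mul_left _
    rcases hℓp.dvd_or_dvd this with h' | h'
    · rcases hℓp.dvd_or_dvd h' with h'' | h''
      · apply hℓ30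
        refine dvd_mul_of_dvd_left ?_ _
        rcases hℓp.dvd_or_dvd h'' with h1 | h1
        · rcases hℓp.dvd_or_dvd h1 with h2 | h2
          · exact (hℓp.dvd_of_dvd_pow h2).trans (by norm_num)
          · exact (hℓp.dvd_of_dvd_pow h2).trans (by norm_num)
        · exact h1.trans (by norm_num)
      · exact hℓ30 (h''.mul_left _)
    · exact hℓ' ((hℓp.dvd_of_dvd_pow h').mul_left _)
  obtain ⟨a, b, m₀, haM, haℓ, hbM, hbq, hbℓ, hm₀, hlin, hab⟩ :=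
    exists_params (c := W.c₄) (d := d₀) (α := F.α) (X := F.M * n₀) i k hℓ hq hℓq hℓM hqM hc
  have he0 : q ^ i ≠ 0 := pow_ne_zero _ hq.ne_zero
  have hcast : ((q ^ i : ℕ) : ℤ) = (q : ℤ) ^ i := Nat.cast_pow q i
  have he : ∀ p : ℕ, p.Prime → p ≠ q → ¬ (p : ℤ) ∣ ((q ^ i : ℕ) : ℤ) := fun p hp hpq h =>
    hpq (prime_eq_of_dvd_pow hp hq (hcast ▸ h))
  obtain ⟨A, hA⟩ := Arith.exists_liesOverPrime hq
  obtain ⟨r, s, hs, hC4, hC6, hD5, htrans⟩ := exists_position F hΔ hq hq5 hA hqΔ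
  obtain ⟨R, S, hR, hS, hLoc⟩ := hloc A hA r s hs hC4 hC6 hD5 _ b m₀ hbq hm₀ hlin
  obtain ⟨e4, e6, eD⟩ := htrans a b (q ^ i) he0 R S hR hS
  obtain ⟨c', d', E, hc', hd', hE, hrel, hX, hY, hZ, hcong⟩ := exists_values F hD hi hM.symm hq he
    (by rw [hcast]; exact haM) hbM hA e4 e6 eD
  have hL := hLoc c' d' E hX hY hZ
  refine ⟨c', d', E, hrel, hL, hcong, fun W' h4 h6 hΔ' hqss => ?_⟩
  have hsemi : W'.IsSemistableModel :=
    semistable_of_forms F hW hc' hE h4 hΔ' hqss he hab fun p hp hpq h => by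
      have := hcong p hp hpq 1 (by
        rw [pow_one]
        exact h.trans ⟨432, by ring⟩)
      rw [pow_one] at this
      exact ⟨this.1, this.2.2⟩
  have ha0 : a ≠ 0 := by
    rintro rfl
    have h5M : (5 : ℤ) ∣ M := by
      have : ((5 : ℕ) : ℤ) ∣ (q : ℤ) ^ n * M :=
        ⟨2592 * W.Δ * D ^ 60, by rw [← hM]; push_cast; ring⟩
      exact_mod_cast ((Nat.prime_iff_prime_int.mp Nat.prime_five).dvd_or_dvd this).resolve_left
        fun h => hq5 (prime_eq_of_dvd_pow Nat.prime_five hq h).symm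
    have h := h5M.trans haM
    rw [zero_sub, dvd_neg] at h
    exact hq5 (prime_eq_of_dvd_pow (q := q) (i := i) Nat.prime_five hq (by exact_mod_cast h)).symm
  refine ⟨hsemi, irreducible_of_forms F hc' hd' hE hℓ hℓ30 hℓ5 hℓ3 (he ℓ hℓ hℓq) hℓg hℓa
    (by rw [hcast]; exact haℓ) (by rw [hcast]; exact hbℓ) h4 h6 hΔ' (hLoc0 _ _ _ hL) hsemi, ?_⟩
  exact congruent_of_forms F hc' hd' hE hrel (hLoc0 _ _ _ hL) ha0 h4 h6 he0

end Fermat.Agent.SwitchLocal
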