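import Fermat.Agent.Switch.Semistable

/-!
# Rational multiples of the members of the icosahedral family: values and odd places
-/

set_option autoImplicit false

namespace Fermat.Agent.SwitchLocal

open WeierstrassCurve IsLocalRing
open Fermat.Agent.Switch

local notation "Qb" => AlgebraicClosure ℚ

theorem subtype_ext {A : ValuationSubring Qb} {x y : A} (h : A.subtype x = A.subtype y) : x = y :=
  Subtype.ext h

theorem coe_eq_subtype {A : ValuationSubring Qb} (x : A) : (x : Qb) = A.subtype x :=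
  rfl

theorem pow_dvd_of_dvd_intCast {A : ValuationSubring Qb} {p : ℕ} (hA : A.LiesOverPrime p)
    (hp : p.Prime) : ∀ (j : ℕ) {m : ℤ}, ((p : A) ^ j) ∣ (m : A) → (p : ℤ) ^ j ∣ m
  | 0, m, _ => by simp
  | j + 1, m, ⟨y, hy⟩ => by
    obtain ⟨n, rfl⟩ : (p : ℤ) ∣ m := by
      rw [← intCast_residue_eq_zero_iff hA hp, ← map_intCast (residue A), hy, map_mul, map_pow]
      have : residue A (p : A) = 0 := by
        rw [map_natCast, ← Int.cast_natCast]
        exact (intCast_residue_eq_zero_iff hA hp _).mpr dvd_rfl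
      simp [this]
    rw [pow_succ']
    refine mul_dvd_mul_left _ (pow_dvd_of_dvd_intCast hA hp j ⟨y, ?_⟩)
    have hp0 : (p : A) ≠ 0 := by
      intro h
      have := congrArg A.subtype h
      simp [hp.ne_zero] at this
    apply mul_left_cancel₀ hp0
    push_cast at hy
    rw [hy]; ring

/-- An element fixed by Galois which is integral above every prime is an integer. -/
theorem exists_int_of_fixed {z : Qb} (hfix : ∀ σ : Qb ≃ₐ[ℚ] Qb, σ z = z)
    (hloc : ∀ p : ℕ, p.Prime → ∃ A : ValuationSubring Qb, A.LiesOverPrime p ∧ z ∈ A) :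
    ∃ n : ℤ, z = (n : Qb) := by
  have : IsGalois ℚ Qb := Arith.qBar_isGalois
  obtain ⟨q, rfl⟩ := IntermediateField.mem_bot.mp ((InfiniteGalois.mem_bot_iff_fixed z).mpr hfix)
  suffices h : q.den = 1 by
    refine ⟨q.num, ?_⟩
    rw [eq_ratCast]
    conv_lhs => rw [← Rat.num_div_den q, h]
    simp
  by_contra hne
  obtain ⟨p, hp, hdvd⟩ := Nat.exists_prime_and_dvd hne
  obtain ⟨A, hA, hmem⟩ := hloc p hp
  have e : ((q.num : ℤ) : A) = ⟨_, hmem⟩ * ((q.den : ℤ) : A) := by
    apply subtype_ext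
    rw [map_mul, map_intCast, map_intCast]
    show (q.num : Qb) = algebraMap ℚ Qb q * ((q.den : ℤ) : Qb)
    rw [eq_ratCast, Rat.cast_def, Int.cast_natCast]
    field_simp
  have hz : residue A ((q.den : ℤ) : A) = 0 := by
    rw [map_intCast, intCast_residue_eq_zero_iff hA hp]
    exact Int.natCast_dvd_natCast.mpr hdvd
  have hn : (p : ℤ) ∣ q.num := by
    rw [← intCast_residue_eq_zero_iff hA hp, ← map_intCast (residue A), e, map_mul, hz, mul_zero]
  exact hp.one_lt.ne' (Nat.dvd_one.mp (q.reduced.gcd_eq_one ▸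
    Nat.dvd_gcd (Int.natCast_dvd.mp hn) hdvd))

theorem isUnit_intCast_of_not_dvd {A : ValuationSubring Qb} {p : ℕ} (hA : A.LiesOverPrime p)
    (hp : p.Prime) {m : ℤ} (hm : ¬ (p : ℤ) ∣ m) : IsUnit (m : A) := by
  rw [← residue_ne_zero_iff_isUnit, map_intCast]
  exact fun h => hm ((intCast_residue_eq_zero_iff hA hp m).mp h)

variable {W : WeierstrassCurve ℤ} (F : FamilyData W)

/-- First coordinate of a multiple of a member of the family. -/
noncomputable def memR (a b : ℤ) (e : ℕ) : Qb := ((a : Qb) * F.r₀ + (b : Qb) * F.u) / (e : Qb)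

/-- Second coordinate of a multiple of a member of the family. -/
noncomputable def memS (a b : ℤ) (e : ℕ) : Qb := ((a : Qb) * F.s₀ + (b : Qb) * F.v) / (e : Qb)

theorem smul_mem_forms (a b : ℤ) (e : ℕ) (σ : Qb ≃ₐ[ℚ] Qb) :
    σ (fC4 (memR F a b e) (memS F a b e)) = fC4 (memR F a b e) (memS F a b e) ∧
      σ (fC6 (memR F a b e) (memS F a b e)) = fC6 (memR F a b e) (memS F a b e) := by
  obtain ⟨p, q, m, n, hS, hr, hs, hu, hv⟩ := F.sym σ
  have e1 : σ (memR F a b e) = p * memR F a b e + q * memS F a b e := by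
    simp only [memR, memS, map_div₀, map_add, map_mul, map_intCast, map_natCast, hr, hu]; ring
  have e2 : σ (memS F a b e) = m * memR F a b e + n * memS F a b e := by
    simp only [memR, memS, map_div₀, map_add, map_mul, map_intCast, map_natCast, hs, hv]; ring
  constructor
  · have h := map_fC4 (σ : Qb →+* Qb) (memR F a b e) (memS F a b e)
    simp only [RingHom.coe_coe, e1, e2, hS.c4_eq] at h
    exact h
  · have h := map_fC6 (σ : Qb →+* Qb) (memR F a b e) (memS F a b e)
    simp only [RingHom.coe_coe, e1, e2, hS.c6_eq] at h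
    exact h

theorem fD_base_pow : fD F.r₀ F.s₀ ^ 5 = (W.Δ : Qb) := by
  apply mul_left_cancel₀ (show (1728 : Qb) ≠ 0 by norm_num)
  rw [← fC4_cube_sub_fC6_sq, F.c4_base, F.c6_base]
  exact_mod_cast W.c_relation.symm

theorem exists_denominator :
    ∃ D : ℤ, D ≠ 0 ∧ IsIntegral ℤ ((D : Qb) * F.r₀) ∧ IsIntegral ℤ ((D : Qb) * F.s₀) ∧
      IsIntegral ℤ ((D : Qb) * F.u) ∧ IsIntegral ℤ ((D : Qb) * F.v) := by
  classical
  have : Algebra.IsAlgebraic ℤ Qb :=
    (IsFractionRing.comap_isAlgebraic_iff (K := ℚ)).mpr inferInstance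
  obtain ⟨D, hD, h⟩ := Algebra.IsAlgebraic.exists_integral_multiples ℤ
    ({F.r₀, F.s₀, F.u, F.v} : Finset Qb)
  simp only [Finset.mem_insert, Finset.mem_singleton, zsmul_eq_mul, forall_eq_or_imp,
    forall_eq] at h
  exact ⟨D, hD, h.1, h.2.1, h.2.2.1, h.2.2.2⟩

/-- At a place where the scale is a unit the invariants are congruent to those of `W`. -/
theorem forms_near {D : ℤ} (hD : D ≠ 0) (hi : IsIntegral ℤ ((D : Qb) * F.r₀) ∧
      IsIntegral ℤ ((D : Qb) * F.s₀) ∧ IsIntegral ℤ ((D : Qb) * F.u) ∧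
      IsIntegral ℤ ((D : Qb) * F.v))
    {M N m : ℤ} (hM : m * M = N * D ^ 60) {a b : ℤ} {e : ℕ}
    (ha : M ∣ a - e) (hb : M ∣ b) {p : ℕ} (hp : p.Prime) (hm : ¬ (p : ℤ) ∣ m)
    (he : ¬ (p : ℤ) ∣ (e : ℤ))
    {A : ValuationSubring Qb} (hA : A.LiesOverPrime p) :
    (∃ z : A, fC4 (memR F a b e) (memS F a b e) = (W.c₄ : Qb) + (N : Qb) * z) ∧
    (∃ z : A, fC6 (memR F a b e) (memS F a b e) = (W.c₆ : Qb) + (N : Qb) * z) ∧
    (∃ z : A, fD (memR F a b e) (memS F a b e) ^ 5 = (W.Δ : Qb) + (N : Qb) * z) := by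
  obtain ⟨i1, i2, i3, i4⟩ := hi
  set r : A := ⟨_, Arith.mem_of_isIntegral A i1⟩
  set s : A := ⟨_, Arith.mem_of_isIntegral A i2⟩
  set u : A := ⟨_, Arith.mem_of_isIntegral A i3⟩
  set v : A := ⟨_, Arith.mem_of_isIntegral A i4⟩
  obtain ⟨t, ht⟩ := (isUnit_intCast_of_not_dvd hA hp he).exists_right_inv
  obtain ⟨a', ha'⟩ := ha
  obtain ⟨b', hb'⟩ := hb
  set R : A := r + (M : A) * ((a' : A) * r + (b' : A) * u) * t
  set S : A := s + (M : A) * ((a' : A) * s + (b' : A) * v) * t
  have hDQ : (D : Qb) ≠ 0 := Int.cast_ne_zero.mpr hD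
  have heQ : (e : Qb) ≠ 0 := Nat.cast_ne_zero.mpr fun h => he (by rw [h]; simp)
  have htQ : (t : Qb) = 1 / (e : Qb) := by
    have : (e : Qb) * t = 1 := by
      have := congrArg A.subtype ht
      simpa [map_mul] using this
    field_simp
    linear_combination this
  have haQ : (a : Qb) = (e : Qb) + (M : Qb) * a' := by
    have : (a : ℤ) = e + M * a' := by linarith
    rw [this]; push_cast; ring
  have hRv : (R : Qb) = (D : Qb) * memR F a b e := by
    show A.subtype R = _
    simp only [R, map_add, map_mul, map_intCast]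
    show (D : Qb) * F.r₀ + (M : Qb) * ((a' : Qb) * ((D : Qb) * F.r₀) + (b' : Qb) * ((D : Qb) * F.u))
      * (t : Qb) = _
    rw [htQ, memR, haQ, hb']
    push_cast
    field_simp
    ring
  have hSv : (S : Qb) = (D : Qb) * memS F a b e := by
    show A.subtype S = _
    simp only [S, map_add, map_mul, map_intCast]
    show (D : Qb) * F.s₀ + (M : Qb) * ((a' : Qb) * ((D : Qb) * F.s₀) + (b' : Qb) * ((D : Qb) * F.v))
      * (t : Qb) = _
    rw [htQ, memS, haQ, hb']
    push_cast
    field_simp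
    ring
  let π := Ideal.Quotient.mk (Ideal.span {(M : A)})
  have hπM : π (M : A) = 0 :=
    Ideal.Quotient.eq_zero_iff_mem.mpr (Ideal.mem_span_singleton_self _)
  have hπR : π R = π r := by simp only [R, map_add, map_mul, hπM, zero_mul, add_zero]
  have hπS : π S = π s := by simp only [S, map_add, map_mul, hπM, zero_mul, add_zero]
  obtain ⟨w, hw⟩ := (isUnit_intCast_of_not_dvd hA hp hm).exists_right_inv
  have hMN : (M : A) = (N : A) * (D : A) ^ 60 * w := by
    have : (m : A) * (M : A) = (N : A) * (D : A) ^ 60 := by exact_mod_cast congrArg (Int.cast : ℤ → A) hM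
    rw [← this, mul_right_comm, hw, one_mul]
  have key : ∀ (f g : A) (n : ℕ) (x y : Qb), n ≤ 60 → π f = π g → (f : Qb) = (D : Qb) ^ n * x →
      (g : Qb) = (D : Qb) ^ n * y → ∃ z : A, x = y + (N : Qb) * z := by
    intro f g n x y hn hfg hf hg
    obtain ⟨q, hq⟩ := Ideal.mem_span_singleton.mp (Ideal.Quotient.eq.mp hfg)
    refine ⟨(D : A) ^ (60 - n) * w * q, ?_⟩
    have := congrArg A.subtype hq
    rw [map_sub, map_mul, hMN] at this
    simp only [map_mul, map_intCast, map_pow] at this ⊢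
    change (f : Qb) - (g : Qb) = _ at this
    rw [hf, hg] at this
    rw [show (D : Qb) ^ 60 = (D : Qb) ^ n * (D : Qb) ^ (60 - n) by
      rw [← pow_add, Nat.add_sub_cancel' hn]] at this
    apply mul_left_cancel₀ (pow_ne_zero n hDQ)
    change (D : Qb) ^ n * x = (D : Qb) ^ n * (y + (N : Qb) * A.subtype ((D : A) ^ (60 - n) * w * q))
    simp only [map_mul, map_intCast, map_pow]
    linear_combination this
  refine ⟨?_, ?_, ?_⟩
  · refine key (fC4 R S) (fC4 r s) 20 _ _ (by norm_num) (by rw [map_fC4, map_fC4, hπR, hπS]) ?_ ?_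
    · rw [coe_eq_subtype]
      rw [map_fC4, ← fC4_smul, ← hRv, ← hSv]
      rfl
    · rw [coe_eq_subtype]
      rw [map_fC4, ← F.c4_base, ← fC4_smul]
      rfl
  · refine key (fC6 R S) (fC6 r s) 30 _ _ (by norm_num) (by rw [map_fC6, map_fC6, hπR, hπS]) ?_ ?_
    · rw [coe_eq_subtype]
      rw [map_fC6, ← fC6_smul, ← hRv, ← hSv]
      rfl
    · rw [coe_eq_subtype]
      rw [map_fC6, ← F.c6_base, ← fC6_smul]
      rfl
  · refine key (fD R S ^ 5) (fD r s ^ 5) 60 _ _ le_rfl
      (by rw [map_pow, map_pow, map_fD, map_fD, hπR, hπS]) ?_ ?_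
    · rw [coe_eq_subtype]
      rw [map_pow, map_fD, show (D : Qb) ^ 60 = ((D : Qb) ^ 12) ^ 5 by ring, ← mul_pow, ← fD_smul,
        ← hRv, ← hSv]
      rfl
    · rw [coe_eq_subtype]
      rw [map_pow, map_fD, ← fD_base_pow F, show (D : Qb) ^ 60 = ((D : Qb) ^ 12) ^ 5 by ring,
        ← mul_pow, ← fD_smul]
      rfl

/-- At a prime not dividing `30Δ` the multiples are integral and never singular in both
invariants. -/
theorem forms_generic {p : ℕ} (hp : p.Prime) (h30 : ¬ (p : ℤ) ∣ 30 * W.Δ)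
    {a b : ℤ} {e : ℕ} (he : ¬ (p : ℤ) ∣ (e : ℤ)) {A : ValuationSubring Qb} (hA : A.LiesOverPrime p) :
    ∃ R S : A, (R : Qb) = memR F a b e ∧ (S : Qb) = memS F a b e ∧
      (residue A (fC4 R S) = 0 → residue A (fD R S) = 0 → (p : ℤ) ∣ a ∧ (p : ℤ) ∣ b) ∧
      ∀ n : ℤ, (p : ℤ) ∣ a - e → (p : ℤ) ∣ b - e * (F.M * n) →
        ∃ R' S' : A, (R' : Qb) = F.r₀ + F.par n * F.u ∧ (S' : Qb) = F.s₀ + F.par n * F.v ∧
          residue A R = residue A R' ∧ residue A S = residue A S' := by
  have hp' := Nat.prime_iff_prime_int.mp hp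
  have hne : ∀ m : ℤ, m ∣ 30 * W.Δ → ¬ (p : ℤ) ∣ m := fun m hm h => h30 (h.trans hm)
  obtain ⟨hrA, hsA⟩ := F.base_mem hp h30 hA
  set r : A := ⟨F.r₀, hrA⟩ with hr
  set s : A := ⟨F.s₀, hsA⟩ with hs
  set u : A := (F.α : A) * r - fDs r s with hu
  set v : A := (F.α : A) * s + fDr r s with hv
  have hu' : A.subtype u = F.u := by
    rw [hu, map_sub, map_mul, map_intCast, map_fDs, F.hu]; rfl
  have hv' : A.subtype v = F.v := by
    rw [hv, map_add, map_mul, map_intCast, map_fDr, F.hv]; rfl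
  obtain ⟨t, ht⟩ := (isUnit_intCast_of_not_dvd hA hp he).exists_right_inv
  have heQ : (e : Qb) ≠ 0 := Nat.cast_ne_zero.mpr fun h => he (by rw [h]; simp)
  have htQ : (t : Qb) = 1 / (e : Qb) := by
    have : (e : Qb) * t = 1 := by
      have := congrArg A.subtype ht
      simpa [map_mul] using this
    field_simp
    linear_combination this
  refine ⟨((a : A) * r + (b : A) * u) * t, ((a : A) * s + (b : A) * v) * t, ?_, ?_, ?_, ?_⟩
  · rw [coe_eq_subtype]
    simp only [map_mul, map_add, map_intCast, hu']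
    show _ * (t : Qb) = _
    rw [htQ, memR, mul_one_div]
    rfl
  · rw [coe_eq_subtype]
    simp only [map_mul, map_add, map_intCast, hv']
    show _ * (t : Qb) = _
    rw [htQ, memS, mul_one_div]
    rfl
  · intro z4 zD
    set φ := residue A with hφ
    set R := ((a : A) * r + (b : A) * u) * t with hR
    set S := ((a : A) * s + (b : A) * v) * t with hS
    rw [map_fC4] at z4
    rw [map_fD] at zD
    have hk : ∀ m : ℤ, m ∣ 30 * W.Δ → (m : ResidueField A) ≠ 0 := fun m hm h =>
      hne m hm ((intCast_residue_eq_zero_iff hA hp m).mp h)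
    have hp5 : (3125 : ResidueField A) ≠ 0 := by
      have : ((5 : ℤ) : ResidueField A) ^ 5 ≠ 0 :=
        pow_ne_zero _ (hk 5 (dvd_mul_of_dvd_left (by norm_num) _))
      norm_num at this
      exact this
    have hp12 : (12 : ResidueField A) ≠ 0 := by
      have : ((2 : ℤ) : ResidueField A) ^ 2 * ((3 : ℤ) : ResidueField A) ≠ 0 :=
        mul_ne_zero (pow_ne_zero _ (hk 2 (dvd_mul_of_dvd_left (by norm_num) _)))
          (hk 3 (dvd_mul_of_dvd_left (by norm_num) _))
      norm_num at this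
      exact this
    have b1 := bezout_fst (φ R) (φ S)
    have b2 := bezout_snd (φ R) (φ S)
    rw [z4, zD] at b1 b2
    simp only [mul_zero, add_zero, mul_eq_zero, hp5, false_or,
      pow_eq_zero_iff (by norm_num : (31 : ℕ) ≠ 0)] at b1 b2
    have e0 : fD r s ^ 5 = ((W.Δ : ℤ) : A) := by
      apply subtype_ext
      rw [map_pow, map_fD, map_intCast]
      exact fD_base_pow F
    have hD0 : φ (fD r s) ≠ 0 := fun h0 => hk W.Δ (dvd_mul_left _ _) (by
      rw [← map_intCast φ, ← e0, map_pow, h0, zero_pow (by norm_num)])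
    have hdet : r * v - s * u = 12 * fD r s := by rw [hu, hv, ← euler_fD]; ring
    have ha : φ R * φ v - φ S * φ u = φ t * ((a : ResidueField A) * (12 * φ (fD r s))) := by
      rw [← map_ofNat φ 12, ← map_mul φ 12, ← hdet, hR, hS]
      simp only [map_mul, map_add, map_sub, map_intCast]; ring
    have hb : φ S * φ r - φ R * φ s = φ t * ((b : ResidueField A) * (12 * φ (fD r s))) := by
      rw [← map_ofNat φ 12, ← map_mul φ 12, ← hdet, hR, hS]
      simp only [map_mul, map_add, map_sub, map_intCast]; ring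
    have ht0 : φ t ≠ 0 := (residue_ne_zero_iff_isUnit t).mpr
      (IsUnit.of_mul_eq_one _ (by rw [mul_comm]; exact ht))
    rw [b1, b2] at ha hb
    simp only [zero_mul, sub_self, zero_eq_mul, ht0, hp12, hD0, mul_eq_zero, or_false,
      false_or, or_self] at ha hb
    exact ⟨(intCast_residue_eq_zero_iff hA hp a).mp ha, (intCast_residue_eq_zero_iff hA hp b).mp hb⟩
  · intro n ha hb
    refine ⟨r + ((F.M * n : ℤ) : A) * u, s + ((F.M * n : ℤ) : A) * v, ?_, ?_, ?_, ?_⟩
    · rw [coe_eq_subtype]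
      rw [map_add, map_mul, hu', map_intCast]; rfl
    · rw [coe_eq_subtype]
      rw [map_add, map_mul, hv', map_intCast]; rfl
    all_goals
      have e1 : ((a : ℤ) : ResidueField A) = (e : ResidueField A) := by
        rw [← sub_eq_zero]
        have := (intCast_residue_eq_zero_iff hA hp _).mpr ha
        push_cast at this ⊢
        exact this
      have e2 : ((b : ℤ) : ResidueField A)
          = (e : ResidueField A) * ((F.M * n : ℤ) : ResidueField A) := by
        rw [← sub_eq_zero]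
        have := (intCast_residue_eq_zero_iff hA hp _).mpr hb
        push_cast at this ⊢
        exact this
      have e3 : (e : ResidueField A) * residue A t = 1 := by
        rw [← map_natCast (residue A), ← map_mul, ← Int.cast_natCast (R := A), ht, map_one]
      simp only [map_mul, map_add, map_intCast, e1, e2]
      first
        | linear_combination (residue A r + ((F.M * n : ℤ) : ResidueField A) * residue A u) * e3
        | linear_combination (residue A s + ((F.M * n : ℤ) : ResidueField A) * residue A v) * e3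

end Fermat.Agent.SwitchLocal
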